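/-
GATE-C / PLACES (helper69): the profinite local-global dictionary for a field `K ⊆ Qbar`.

`G = G_ℚ`, `G_K = K.fixingSubgroup`, `q` prime, `r = localGaloisToGlobal q : G_{ℚ_q} → G_ℚ`
(injective, range = decomposition group `D_q` of `padicPlace q`), `ι = padicEmbedding q`.
For `s : G_ℚ` the "place `ι ∘ s` of `K`" is `x ↦ ‖ι (s x)‖`.

* `locField q K s = ℚ_q(ι (sK))`, `locGroup q K s = Gal(PadicAlgCl q / locField)`;
  `mem_locGroup_iff : τ ∈ locGroup q K s ↔ s⁻¹ * r τ * s ∈ G_K` (the Mackey subgroup);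
* `locHom q K s : locGroup q K s →* G_K`, `τ ↦ s⁻¹ * r τ * s` (injective);
* change of representative `s' = r τ₀ * s * h` (`h ∈ G_K`): `locGroup` is conjugated by `τ₀` and
  `locHom` by `h`;
* `placeIdx q K = D_q \ G_ℚ / G_K`, finite for `K/ℚ` finite; `placeRep`.
-/
import Mathlib
import Fermat.Prelude.Def_GaloisRep_CompletionBridge
import Fermat.Agent.GC.Local.KrasnerDecLevel

set_option autoImplicit false

noncomputable section

open IntermediateField Fermat.Agent.GC.Local.KR

namespace Fermat.Agent.GC.Places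

local notation "Qb" => AlgebraicClosure ℚ
local notation "GQ" => (AlgebraicClosure ℚ ≃ₐ[ℚ] AlgebraicClosure ℚ)

variable (q : ℕ) [Fact q.Prime] (K : IntermediateField ℚ Qb)

/-! ### Conjugate fields -/

/-- The conjugate field `sK`. -/
def conjField (s : GQ) : IntermediateField ℚ Qb := K.map (s : Qb →ₐ[ℚ] Qb)

variable {K} in
theorem apply_mem_conjField (s : GQ) {x : Qb} (hx : x ∈ K) : s x ∈ conjField K s :=
  ⟨x, hx, rfl⟩

theorem mem_conjField_iff (s : GQ) (y : Qb) : y ∈ conjField K s ↔ s⁻¹ y ∈ K := by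
  constructor
  · rintro ⟨x, hx, rfl⟩
    change s.symm (s x) ∈ K
    rwa [s.symm_apply_apply]
  · intro h
    refine ⟨s⁻¹ y, h, ?_⟩
    change s (s.symm y) = y
    exact s.apply_symm_apply y

theorem conjField_one : conjField K 1 = K := by
  ext y
  rw [mem_conjField_iff]
  rfl

theorem conjField_mul (s t : GQ) : conjField K (s * t) = conjField (conjField K t) s := by
  ext y
  rw [mem_conjField_iff, mem_conjField_iff, mem_conjField_iff, mul_inv_rev]
  rfl

theorem conjField_of_mem_fixingSubgroup {h : GQ} (hh : h ∈ K.fixingSubgroup) :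
    conjField K h = K := by
  ext y
  rw [mem_conjField_iff]
  have hinv : h⁻¹ ∈ K.fixingSubgroup := inv_mem hh
  rw [IntermediateField.mem_fixingSubgroup_iff] at hh hinv
  constructor
  · intro hy
    have := hh _ hy
    change h (h.symm y) = h.symm y at this
    rw [h.apply_symm_apply] at this
    rw [this]
    exact hy
  · intro hy
    rw [hinv y hy]
    exact hy

/-- `Gal(Qbar/sK) = s Gal(Qbar/K) s⁻¹`. -/
theorem mem_fixingSubgroup_conjField_iff (s σ : GQ) :
    σ ∈ (conjField K s).fixingSubgroup ↔ s⁻¹ * σ * s ∈ K.fixingSubgroup := by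
  rw [IntermediateField.mem_fixingSubgroup_iff, IntermediateField.mem_fixingSubgroup_iff]
  constructor
  · intro h x hx
    have := h (s x) (apply_mem_conjField s hx)
    change s.symm (σ (s x)) = x
    rw [this, s.symm_apply_apply]
  · rintro h _ ⟨x, hx, rfl⟩
    have := h x hx
    change s.symm (σ (s x)) = x at this
    change σ (s x) = s x
    have h2 := congrArg s this
    rwa [s.apply_symm_apply] at h2

instance finiteDimensional_conjField [FiniteDimensional ℚ K] (s : GQ) :
    FiniteDimensional ℚ (conjField K s) :=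
  LinearEquiv.finiteDimensional
    (IntermediateField.equivMap K (s : Qb →ₐ[ℚ] Qb)).toLinearEquiv

/-! ### Local fields and local Galois groups of `K` -/

/-- The local field of `K` at the place `ι ∘ s`: `ℚ_q(ι (sK)) ⊆ PadicAlgCl q`. -/
def locField (s : GQ) : IntermediateField ℚ_[q] (PadicAlgCl q) :=
  localLevel q (conjField K s)

instance finiteDimensional_locField [FiniteDimensional ℚ K] (s : GQ) :
    FiniteDimensional ℚ_[q] (locField q K s) :=
  finiteDimensional_localLevel q (conjField K s)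

variable {K} in
theorem padicEmbedding_apply_mem_locField (s : GQ) {x : Qb} (hx : x ∈ K) :
    padicEmbedding q (s x) ∈ locField q K s :=
  padicEmbedding_mem_localLevel (apply_mem_conjField s hx)

/-- The absolute Galois group of the local field of `K` at `ι ∘ s`, as a subgroup of
`G_{ℚ_q}`. -/
def locGroup (s : GQ) : Subgroup (Gq q) := (locField q K s).fixingSubgroup

/-- `locGroup q K s = r⁻¹ (s G_K s⁻¹)`. -/
theorem mem_locGroup_iff (s : GQ) (τ : Gq q) :
    τ ∈ locGroup q K s ↔ s⁻¹ * localGaloisToGlobal q τ * s ∈ K.fixingSubgroup := by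
  rw [locGroup, locField, ← mem_fixingSubgroup_localLevel_iff, mem_fixingSubgroup_conjField_iff]

/-- The localisation homomorphism `Gal(PadicAlgCl q / K_{ι∘s}) → G_K`, `τ ↦ s⁻¹ (r τ) s`. -/
def locHom (s : GQ) : locGroup q K s →* K.fixingSubgroup where
  toFun τ := ⟨s⁻¹ * localGaloisToGlobal q τ.1 * s, (mem_locGroup_iff q K s τ.1).mp τ.2⟩
  map_one' := by
    apply Subtype.ext
    simp
  map_mul' τ τ' := by
    apply Subtype.ext
    simp only [Subgroup.coe_mul, map_mul]
    group

@[simp]
theorem coe_locHom (s : GQ) (τ : locGroup q K s) :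
    ((locHom q K s τ : K.fixingSubgroup) : GQ) = s⁻¹ * localGaloisToGlobal q τ.1 * s := rfl

theorem locHom_injective (s : GQ) : Function.Injective (locHom q K s) := by
  intro τ τ' h
  apply Subtype.ext
  apply localGaloisToGlobal_injective q
  have := congrArg Subtype.val h
  rw [coe_locHom, coe_locHom] at this
  exact mul_left_cancel (mul_right_cancel this)

/-- The defining compatibility: `ι (s (locHom τ x)) = τ (ι (s x))`. -/
theorem padicEmbedding_apply_locHom (s : GQ) (τ : locGroup q K s) (x : Qb) :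
    padicEmbedding q (s (((locHom q K s τ : K.fixingSubgroup) : GQ) x)) =
      τ.1 (padicEmbedding q (s x)) := by
  rw [coe_locHom, ← padicEmbedding_localGaloisToGlobal]
  change padicEmbedding q (s (s.symm (localGaloisToGlobal q τ.1 (s x)))) = _
  rw [s.apply_symm_apply]

/-! ### Change of representative in a double coset `D_q s G_K` -/

/-- For `s' = r τ₀ * s * h` with `h ∈ G_K`, the local group at `s'` is the `τ₀`-conjugate of the
local group at `s`. -/
theorem mem_locGroup_mul_iff (s : GQ) (τ₀ : Gq q) {h : GQ} (hh : h ∈ K.fixingSubgroup)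
    (τ : Gq q) :
    τ ∈ locGroup q K (localGaloisToGlobal q τ₀ * s * h) ↔ τ₀⁻¹ * τ * τ₀ ∈ locGroup q K s := by
  rw [mem_locGroup_iff, mem_locGroup_iff]
  have key : (localGaloisToGlobal q τ₀ * s * h)⁻¹ * localGaloisToGlobal q τ *
      (localGaloisToGlobal q τ₀ * s * h) =
      h⁻¹ * (s⁻¹ * localGaloisToGlobal q (τ₀⁻¹ * τ * τ₀) * s) * h := by
    simp only [map_mul, map_inv]
    group
  rw [key]
  constructor
  · intro H
    have := mul_mem (mul_mem hh H) (inv_mem hh)
    simpa [mul_assoc] using this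
  · intro H
    exact mul_mem (mul_mem (inv_mem hh) H) hh

/-- The conjugation isomorphism between the local groups at `s` and at `r τ₀ * s * h`. -/
def locGroupConj (s : GQ) (τ₀ : Gq q) {h : GQ} (hh : h ∈ K.fixingSubgroup) :
    locGroup q K s ≃* locGroup q K (localGaloisToGlobal q τ₀ * s * h) where
  toFun τ := ⟨τ₀ * τ.1 * τ₀⁻¹, by
    rw [mem_locGroup_mul_iff q K s τ₀ hh]
    have : τ₀⁻¹ * (τ₀ * τ.1 * τ₀⁻¹) * τ₀ = τ.1 := by group
    rw [this]
    exact τ.2⟩
  invFun τ := ⟨τ₀⁻¹ * τ.1 * τ₀, (mem_locGroup_mul_iff q K s τ₀ hh τ.1).mp τ.2⟩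
  left_inv τ := by
    apply Subtype.ext
    simp only
    group
  right_inv τ := by
    apply Subtype.ext
    simp only
    group
  map_mul' τ τ' := by
    apply Subtype.ext
    simp only [Subgroup.coe_mul]
    group

@[simp]
theorem coe_locGroupConj (s : GQ) (τ₀ : Gq q) {h : GQ} (hh : h ∈ K.fixingSubgroup)
    (τ : locGroup q K s) :
    ((locGroupConj q K s τ₀ hh τ : locGroup q K (localGaloisToGlobal q τ₀ * s * h)) : Gq q) =
      τ₀ * τ.1 * τ₀⁻¹ := rfl

/-- Under the conjugation isomorphism, `locHom` changes by the inner automorphism of `G_K`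
given by `h`. -/
theorem locHom_locGroupConj (s : GQ) (τ₀ : Gq q) {h : GQ} (hh : h ∈ K.fixingSubgroup)
    (τ : locGroup q K s) :
    locHom q K (localGaloisToGlobal q τ₀ * s * h) (locGroupConj q K s τ₀ hh τ) =
      (⟨h, hh⟩ : K.fixingSubgroup)⁻¹ * locHom q K s τ * ⟨h, hh⟩ := by
  apply Subtype.ext
  rw [coe_locHom, coe_locGroupConj]
  simp only [Subgroup.coe_mul, Subgroup.coe_inv, coe_locHom, map_mul, map_inv]
  group

/-! ### The index set of places of `K` above `q` -/

/-- The set of places of `K` above `q`: the double cosets `D_q \ G_ℚ / G_K`. -/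
def placeIdx : Type :=
  DoubleCoset.Quotient (((padicPlace q).decompositionSubgroup ℚ : Subgroup GQ) : Set GQ)
    (K.fixingSubgroup : Set GQ)

/-- The place `ι ∘ s` of `K`. -/
def placeMk (s : GQ) : placeIdx q K := DoubleCoset.mk _ _ s

/-- A representative of a place. -/
def placeRep (w : placeIdx q K) : GQ := Quotient.out w

@[simp]
theorem placeMk_placeRep (w : placeIdx q K) : placeMk q K (placeRep q K w) = w :=
  DoubleCoset.out_eq' _ _ w

theorem placeMk_eq_iff (s s' : GQ) :
    placeMk q K s = placeMk q K s' ↔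
      ∃ τ₀ : Gq q, ∃ h ∈ K.fixingSubgroup, s' = localGaloisToGlobal q τ₀ * s * h := by
  refine (DoubleCoset.eq _ _ s s').trans ?_
  constructor
  · rintro ⟨d, hd, h, hh, rfl⟩
    obtain ⟨τ₀, rfl⟩ := (mem_decompositionSubgroup_iff q d).mp hd
    exact ⟨τ₀, h, hh, rfl⟩
  · rintro ⟨τ₀, h, hh, rfl⟩
    exact ⟨_, localGaloisToGlobal_mem_decompositionSubgroup q τ₀, h, hh, rfl⟩

theorem placeMk_surjective : Function.Surjective (placeMk q K) := fun w =>
  ⟨placeRep q K w, placeMk_placeRep q K w⟩

/-- The absolute value `x ↦ ‖ι (s x)‖` on `K` only depends on the place. -/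
theorem norm_padicEmbedding_apply_eq_of_placeMk_eq {s s' : GQ}
    (hss' : placeMk q K s = placeMk q K s') {x : Qb} (hx : x ∈ K) :
    ‖padicEmbedding q (s' x)‖ = ‖padicEmbedding q (s x)‖ := by
  obtain ⟨τ₀, h, hh, rfl⟩ := (placeMk_eq_iff q K s s').mp hss'
  rw [IntermediateField.mem_fixingSubgroup_iff] at hh
  change ‖padicEmbedding q (localGaloisToGlobal q τ₀ (s (h x)))‖ = _
  rw [hh x hx, padicEmbedding_localGaloisToGlobal]
  exact congrArg NNReal.toReal (nnnorm_padicAlgCl_algEquiv q τ₀ _)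

instance finite_placeIdx [FiniteDimensional ℚ K] : Finite (placeIdx q K) := by
  have : IsGalois ℚ Qb := isGalois_Qb
  have hfi : K.fixingSubgroup.FiniteIndex := by
    refine ⟨?_⟩
    rw [← IntermediateField.finrank_eq_fixingSubgroup_index]
    exact Module.finrank_pos.ne'
  have : Finite (GQ ⧸ K.fixingSubgroup) := Subgroup.finite_quotient_of_finiteIndex
  let f : GQ ⧸ K.fixingSubgroup → placeIdx q K :=
    Quotient.lift (placeMk q K) (by
      intro a b hab
      rw [placeMk_eq_iff]
      refine ⟨1, a⁻¹ * b, QuotientGroup.leftRel_apply.mp hab, ?_⟩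
      rw [map_one, one_mul, mul_inv_cancel_left])
  refine Finite.of_surjective f ?_
  intro w
  exact ⟨QuotientGroup.mk (placeRep q K w), placeMk_placeRep q K w⟩

/-! ### Mackey input: the structure of a double coset `D_q s G_K` -/

/-- Every element of `G_ℚ` lies in the double coset of the chosen representative of its place. -/
theorem exists_eq_mul_placeRep_mul (g : GQ) :
    ∃ τ₀ : Gq q, ∃ h ∈ K.fixingSubgroup,
      g = localGaloisToGlobal q τ₀ * placeRep q K (placeMk q K g) * h := by
  have h := placeMk_placeRep q K (placeMk q K g)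
  exact (placeMk_eq_iff q K _ g).mp h

/-- Two presentations `r τ₀ * s * h = r τ₁ * s * h₁` of the same element of `D_q s G_K` differ by
an element of the local group `locGroup q K s`, embedded through `locHom`. -/
theorem mul_mul_eq_mul_mul_iff (s : GQ) (τ₀ τ₁ : Gq q) (h h₁ : GQ) :
    localGaloisToGlobal q τ₀ * s * h = localGaloisToGlobal q τ₁ * s * h₁ ↔
      s⁻¹ * localGaloisToGlobal q (τ₁⁻¹ * τ₀) * s = h₁ * h⁻¹ := by
  simp only [map_mul, map_inv]
  constructor
  · intro H
    have : localGaloisToGlobal q τ₀ = localGaloisToGlobal q τ₁ * s * h₁ * h⁻¹ * s⁻¹ := by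
      rw [← H]; group
    rw [this]; group
  · intro H
    have : h₁ = s⁻¹ * ((localGaloisToGlobal q τ₁)⁻¹ * localGaloisToGlobal q τ₀) * s * h := by
      rw [H]; group
    rw [this]; group

theorem mem_locGroup_of_mul_mul_eq (s : GQ) {τ₀ τ₁ : Gq q} {h h₁ : GQ}
    (hh : h ∈ K.fixingSubgroup) (hh₁ : h₁ ∈ K.fixingSubgroup)
    (H : localGaloisToGlobal q τ₀ * s * h = localGaloisToGlobal q τ₁ * s * h₁) :
    τ₁⁻¹ * τ₀ ∈ locGroup q K s := by
  rw [mem_locGroup_iff, (mul_mul_eq_mul_mul_iff q s τ₀ τ₁ h h₁).mp H]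
  exact mul_mem hh₁ (inv_mem hh)

theorem locHom_of_mul_mul_eq (s : GQ) {τ₀ τ₁ : Gq q} {h h₁ : GQ}
    (hh : h ∈ K.fixingSubgroup) (hh₁ : h₁ ∈ K.fixingSubgroup)
    (H : localGaloisToGlobal q τ₀ * s * h = localGaloisToGlobal q τ₁ * s * h₁) :
    locHom q K s ⟨τ₁⁻¹ * τ₀, mem_locGroup_of_mul_mul_eq q K s hh hh₁ H⟩ =
      (⟨h₁, hh₁⟩ : K.fixingSubgroup) * (⟨h, hh⟩ : K.fixingSubgroup)⁻¹ := by
  apply Subtype.ext
  rw [coe_locHom]
  exact (mul_mul_eq_mul_mul_iff q s τ₀ τ₁ h h₁).mp H

/-- For `K = ℚ` there is exactly one place above `q` and the local group is everything. -/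
theorem locGroup_bot (s : GQ) : locGroup q (⊥ : IntermediateField ℚ Qb) s = ⊤ := by
  ext τ
  rw [mem_locGroup_iff, IntermediateField.fixingSubgroup_bot]
  simp

instance subsingleton_placeIdx_bot : Subsingleton (placeIdx q (⊥ : IntermediateField ℚ Qb)) := by
  refine ⟨fun a b => ?_⟩
  rw [← placeMk_placeRep q _ a, ← placeMk_placeRep q _ b, placeMk_eq_iff]
  refine ⟨1, (placeRep q _ a)⁻¹ * placeRep q _ b, ?_, ?_⟩
  · rw [IntermediateField.fixingSubgroup_bot]; trivial
  · rw [map_one, one_mul, mul_inv_cancel_left]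

end Fermat.Agent.GC.Places
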