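/-
GATE-C / PLACES part 2 (helper69): level systems on `G_K` and on the local groups of `K`, and
continuity of the localisation maps (on helper78's `GC/Prof/Basic.lean`, helper5's `Res.lean`,
helper59's `C0/Level.lean`, helper81's `Abs/Levels.lean`).

* `levelK S K` : the `S`-level system on `G_K = K.fixingSubgroup` (restriction of `levelS S`);
* `levelQ q` : all open subgroups of `G_{ℚ_q}`; `levelLoc q K s` : its restriction to
  `locGroup q K s`;
* `isContHom_localGaloisToGlobal`, `isContHom_locHom` : the localisation maps are continuous;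
* discreteness of restricted modules.
-/
import Mathlib
import Fermat.Agent.GC.Places.Basic
import Fermat.Agent.GC.Prof.Res
import Fermat.Agent.GC.C0.Level
import Fermat.Agent.GC.Local.Abs.Levels

set_option autoImplicit false

noncomputable section

open IntermediateField Fermat.Agent.GC.Local.KR Fermat.Agent.GC.Prof

namespace Fermat.Agent.GC.Places

local notation "Qb" => AlgebraicClosure ℚ
local notation "GQ" => (AlgebraicClosure ℚ ≃ₐ[ℚ] AlgebraicClosure ℚ)

variable (S : Finset Nat.Primes) (q : ℕ) [Fact q.Prime] (K : IntermediateField ℚ Qb)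

/-- The `S`-level system on `G_K`: traces on `G_K` of the fixing subgroups of the finite
extensions of `ℚ` unramified outside `S`. -/
def levelK : LevelSystem K.fixingSubgroup :=
  (Fermat.Agent.GC.C0.levelS S).comap K.fixingSubgroup.subtype

theorem isContHom_subtype_levelK :
    IsContHom (levelK S K) (Fermat.Agent.GC.C0.levelS S) K.fixingSubgroup.subtype :=
  isContHom_comap _ _

/-- The level system of all open subgroups of `G_{ℚ_q}`. -/
abbrev levelQ : LevelSystem (Gq q) :=
  Fermat.Agent.GC.Local.Abs.galLevels ℚ_[q] (PadicAlgCl q)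

/-- The level system of the local group of `K` at the place `ι ∘ s`. -/
def levelLoc (s : GQ) : LevelSystem (locGroup q K s) :=
  (levelQ q).comap (locGroup q K s).subtype

theorem isContHom_subtype_levelLoc (s : GQ) :
    IsContHom (levelLoc q K s) (levelQ q) (locGroup q K s).subtype :=
  isContHom_comap _ _

/-- `r : G_{ℚ_q} → G_ℚ` is continuous for the level systems (for every `S`). -/
theorem isContHom_localGaloisToGlobal :
    IsContHom (levelQ q) (Fermat.Agent.GC.C0.levelS S) (localGaloisToGlobal q) := by
  rintro _ ⟨F, hF, rfl⟩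
  have := hF.1
  refine ⟨(localLevel q F).fixingSubgroup,
    Fermat.Agent.GC.Local.Abs.fixingSubgroup_mem_galLevels _, fun τ hτ => ?_⟩
  exact (mem_fixingSubgroup_localLevel_iff q F τ).mpr hτ

/-- The localisation map `locHom q K s : Gal(PadicAlgCl q / K_{ι∘s}) → G_K` is continuous. -/
theorem isContHom_locHom (s : GQ) :
    IsContHom (levelLoc q K s) (levelK S K) (locHom q K s) := by
  rintro _ ⟨_, ⟨F, hF, rfl⟩, rfl⟩
  have := hF.1
  refine ⟨((localLevel q (conjField F s)).fixingSubgroup).comap (locGroup q K s).subtype,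
    ⟨_, Fermat.Agent.GC.Local.Abs.fixingSubgroup_mem_galLevels _, rfl⟩, fun τ hτ => ?_⟩
  rw [Subgroup.mem_comap, Subgroup.coe_subtype, ← mem_fixingSubgroup_localLevel_iff,
    mem_fixingSubgroup_conjField_iff] at hτ
  exact hτ

/-! ### `fixingSubgroup` versus `AlgEquiv` form of an open subgroup -/

section General

variable {F Ω : Type} [Field F] [Field Ω] [Algebra F Ω] [IsGalois F Ω]
  (E : IntermediateField F Ω)

/-- The restriction to `Gal(Ω/E) ⊆ Gal(Ω/F)` of the level system of open subgroups. -/
def levelSub : LevelSystem E.fixingSubgroup :=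
  (Fermat.Agent.GC.Local.Abs.galLevels F Ω).comap E.fixingSubgroup.subtype

/-- `E.fixingSubgroup ≃* Gal(Ω/E)` is continuous. -/
theorem isContHom_fixingSubgroupEquiv [FiniteDimensional F E] :
    IsContHom (levelSub E) (Fermat.Agent.GC.Local.Abs.galLevels E Ω)
      (IntermediateField.fixingSubgroupEquiv E).toMonoidHom := by
  rintro _ ⟨E', hE', rfl⟩
  have hfd : FiniteDimensional F (E'.restrictScalars F) := by
    have : Module.Finite F E' := Module.Finite.trans E E'
    exact this
  refine ⟨((E'.restrictScalars F).fixingSubgroup).comap E.fixingSubgroup.subtype,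
    ⟨_, Fermat.Agent.GC.Local.Abs.fixingSubgroup_mem_galLevels _, rfl⟩, fun τ hτ => ?_⟩
  rw [Subgroup.mem_comap, Subgroup.coe_subtype, IntermediateField.mem_fixingSubgroup_iff] at hτ
  rw [Subgroup.mem_comap, IntermediateField.mem_fixingSubgroup_iff]
  intro x hx
  exact hτ x hx

/-- The inverse `Gal(Ω/E) ≃* E.fixingSubgroup` is continuous. -/
theorem isContHom_fixingSubgroupEquiv_symm [FiniteDimensional F E] :
    IsContHom (Fermat.Agent.GC.Local.Abs.galLevels E Ω) (levelSub E)
      (IntermediateField.fixingSubgroupEquiv E).symm.toMonoidHom := by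
  rintro _ ⟨_, ⟨E'', hE'', rfl⟩, rfl⟩
  let E' : IntermediateField E Ω := IntermediateField.extendScalars (le_sup_left : E ≤ E ⊔ E'')
  have hfd1 : FiniteDimensional F (E ⊔ E'' : IntermediateField F Ω) :=
    IntermediateField.finiteDimensional_sup E E''
  have hfd : FiniteDimensional E E' := by
    have h1 : Module.Finite F E' := hfd1
    exact Module.Finite.of_restrictScalars_finite F E E'
  refine ⟨E'.fixingSubgroup, ⟨E', hfd, rfl⟩, fun σ hσ => ?_⟩
  rw [IntermediateField.mem_fixingSubgroup_iff] at hσ
  rw [Subgroup.mem_comap, Subgroup.mem_comap, Subgroup.coe_subtype,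
    IntermediateField.mem_fixingSubgroup_iff]
  intro x hx
  exact hσ x ((le_sup_right : E'' ≤ E ⊔ E'') hx)

end General

/-! ### The local groups in `AlgEquiv` form -/

section LocAlg

variable (S : Finset Nat.Primes) (q : ℕ) [Fact q.Prime] (K : IntermediateField ℚ Qb)

theorem levelLoc_eq_levelSub (s : GQ) : levelLoc q K s = levelSub (locField q K s) := rfl

/-- `locGroup q K s ≃* Gal(PadicAlgCl q / locField q K s)` (Mathlib's `fixingSubgroupEquiv`). -/
def locGroupEquiv (s : GQ) :
    locGroup q K s ≃* (PadicAlgCl q ≃ₐ[locField q K s] PadicAlgCl q) :=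
  IntermediateField.fixingSubgroupEquiv (locField q K s)

@[simp]
theorem locGroupEquiv_apply (s : GQ) (τ : locGroup q K s) (x : PadicAlgCl q) :
    locGroupEquiv q K s τ x = τ.1 x := rfl

@[simp]
theorem coe_locGroupEquiv_symm_apply (s : GQ)
    (σ : PadicAlgCl q ≃ₐ[locField q K s] PadicAlgCl q) (x : PadicAlgCl q) :
    (((locGroupEquiv q K s).symm σ : locGroup q K s) : Gq q) x = σ x := rfl

theorem isContHom_locGroupEquiv [FiniteDimensional ℚ K] (s : GQ) :
    IsContHom (levelLoc q K s)
      (Fermat.Agent.GC.Local.Abs.galLevels (locField q K s) (PadicAlgCl q))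
      (locGroupEquiv q K s).toMonoidHom :=
  isContHom_fixingSubgroupEquiv (locField q K s)

theorem isContHom_locGroupEquiv_symm [FiniteDimensional ℚ K] (s : GQ) :
    IsContHom (Fermat.Agent.GC.Local.Abs.galLevels (locField q K s) (PadicAlgCl q))
      (levelLoc q K s) (locGroupEquiv q K s).symm.toMonoidHom :=
  isContHom_fixingSubgroupEquiv_symm (locField q K s)

/-- The localisation map in `AlgEquiv` form: `Gal(PadicAlgCl q / K_{ι∘s}) →* G_K`. -/
def locHomAlg (s : GQ) : (PadicAlgCl q ≃ₐ[locField q K s] PadicAlgCl q) →* K.fixingSubgroup :=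
  (locHom q K s).comp (locGroupEquiv q K s).symm.toMonoidHom

theorem locHomAlg_apply (s : GQ) (σ : PadicAlgCl q ≃ₐ[locField q K s] PadicAlgCl q) :
    locHomAlg q K s σ = locHom q K s ((locGroupEquiv q K s).symm σ) := rfl

theorem locHomAlg_injective (s : GQ) : Function.Injective (locHomAlg q K s) :=
  (locHom_injective q K s).comp (locGroupEquiv q K s).symm.injective

theorem isContHom_locHomAlg [FiniteDimensional ℚ K] (s : GQ) :
    IsContHom (Fermat.Agent.GC.Local.Abs.galLevels (locField q K s) (PadicAlgCl q))
      (levelK S K) (locHomAlg q K s) :=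
  (isContHom_locHom S q K s).comp (isContHom_locGroupEquiv_symm q K s)

end LocAlg

/-! ### Discreteness of restricted modules -/

section Discrete

variable (S : Finset Nat.Primes) (q : ℕ) [Fact q.Prime] (K : IntermediateField ℚ Qb)
variable {k : Type} [CommRing k]

theorem isDiscrete_res_levelK (M : Rep k GQ) [IsDiscrete (Fermat.Agent.GC.C0.levelS S) M] :
    IsDiscrete (levelK S K) (Rep.res K.fixingSubgroup.subtype M) :=
  IsDiscrete.res (isContHom_subtype_levelK S K) M

theorem isDiscrete_res_locHom (s : GQ) (N : Rep k K.fixingSubgroup) [IsDiscrete (levelK S K) N] :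
    IsDiscrete (levelLoc q K s) (Rep.res (locHom q K s) N) :=
  IsDiscrete.res (isContHom_locHom S q K s) N

theorem isDiscrete_res_locHomAlg [FiniteDimensional ℚ K] (s : GQ) (N : Rep k K.fixingSubgroup)
    [IsDiscrete (levelK S K) N] :
    IsDiscrete (Fermat.Agent.GC.Local.Abs.galLevels (locField q K s) (PadicAlgCl q))
      (Rep.res (locHomAlg q K s) N) :=
  IsDiscrete.res (isContHom_locHomAlg S q K s) N

theorem isDiscrete_res_localGaloisToGlobal (M : Rep k GQ)
    [IsDiscrete (Fermat.Agent.GC.C0.levelS S) M] :
    IsDiscrete (levelQ q) (Rep.res (localGaloisToGlobal q) M) :=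
  IsDiscrete.res (isContHom_localGaloisToGlobal S q) M

end Discrete

end Fermat.Agent.GC.Places
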