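/-
GATE-C / PLACES-MACKEY (helper69), part 3 (PM2): the local Mackey–Shapiro decomposition on `Hlc`.

For `K` finite over `ℚ`, `A` a discrete `G_K`-module and a prime `q`:
* `HlcMackeyComp q K A s n : Hlc(G_q, Res coind_{G_K}^{G_ℚ} A) ⟶ Hlc(locGroup q K s, A)`
  (the component at the place `ι ∘ s`: Mackey projection `evW` followed by local Shapiro);
  it is helper5's generic `mackeyμ` for `t = s⁻¹` (`HlcMackeyComp_eq_mackeyμ`);
* `HlcMackey q K A n : Hlc(G_q, Res coind A) n ≃ₗ[k] ∏_{w ∣ q} Hlc(locGroup q K s_w, A) n`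
  (`HlcMackey_apply`: the `w`-component is `HlcMackeyComp … (placeRep q K w)`);
* `HlcRes_HlcMackeyComp`, `HlcMackey_HlcRes`: localisation at `q` of a global class of
  `coind A`, read through the decomposition, is the family of the localisations at the places
  `w ∣ q` of the corresponding class of `Hlc(G_K, A)` (Shapiro);
* the covering / disjointness statements of the double coset decomposition
  `G_ℚ = ⊔_w G_K s_w⁻¹ r(G_q)` in the shape of helper5's `Prof/Mackey.lean`.
-/
import Mathlib
import Fermat.Agent.GC.Places.MackeyH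
import Fermat.Agent.GC.Prof.ProdInst
import Fermat.Agent.GC.Prof.Mackey

set_option autoImplicit false

noncomputable section

open IntermediateField Fermat.Agent.GC.Local.KR Fermat.Agent.GC.Prof CategoryTheory
open Fermat.Agent.GC.Global.Mackey

namespace Fermat.Agent.GC.Places

local notation "Qb" => AlgebraicClosure ℚ
local notation "GQ" => (AlgebraicClosure ℚ ≃ₐ[ℚ] AlgebraicClosure ℚ)

variable (S : Finset Nat.Primes) (q : ℕ) [Fact q.Prime] (K : IntermediateField ℚ Qb)
variable {k : Type} [CommRing k] (A : Rep k K.fixingSubgroup)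

/-- The local coefficient module at the place `ι ∘ s`: `A` seen as a module over the local group
through `locHom q K s`. -/
abbrev locCoeff (s : GQ) : Rep k (locGroup q K s) := Rep.res (locHom q K s) A

/-- For trivial coefficients the local coefficient module is the trivial module. -/
theorem locCoeff_trivial (V : Type) [AddCommGroup V] [Module k V] (s : GQ) :
    locCoeff q K (Rep.trivial k K.fixingSubgroup V) s = Rep.trivial k (locGroup q K s) V := rfl

/-! ### The double coset decomposition in the shape of `Prof/Mackey.lean` -/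

/-- The relation `φ d * t = t * r d` of helper5's `Prof/Mackey.lean`, for `t = s⁻¹`,
`Dt = locGroup q K s`, `φ = locHom q K s`. -/
theorem locHom_mul_inv (s : GQ) (d : locGroup q K s) :
    ((locHom q K s d : K.fixingSubgroup) : GQ) * s⁻¹ = s⁻¹ * localGaloisToGlobal q d := by
  rw [coe_locHom]
  group

/-- Covering: `G_ℚ = ⋃_w G_K s_w⁻¹ r(G_q)`. -/
theorem exists_eq_mul_inv_placeRep_mul (x : GQ) :
    ∃ (w : placeIdx q K) (h : K.fixingSubgroup) (d : Gq q),
      x = (h : GQ) * (placeRep q K w)⁻¹ * localGaloisToGlobal q d :=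
  ⟨wOf q K x, hpart q K x, tpart q K x, decomp_spec q K x⟩

/-- Disjointness: the double cosets `G_K s_w⁻¹ r(G_q)` are pairwise disjoint. -/
theorem eq_of_mul_inv_placeRep_mul_eq {w w' : placeIdx q K} {h h' : K.fixingSubgroup}
    {d d' : Gq q}
    (e : (h : GQ) * (placeRep q K w)⁻¹ * localGaloisToGlobal q d =
      (h' : GQ) * (placeRep q K w')⁻¹ * localGaloisToGlobal q d') : w = w' := by
  rw [← wOf_mul_mul q K w h d, e, wOf_mul_mul]

/-! ### The component at one place -/

section Comp

variable (s : GQ)
  [IsDiscrete (levelQ q) (resCoind q K A)]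
  [IsDiscrete (levelLoc q K s) (locCoeff q K A s)]
  [IsDiscrete ((levelQ q).comap (locGroup q K s).subtype) (locCoeff q K A s)]
  [IsDiscrete (levelQ q) (locFactor q K A s)]

/-- The component at the place `ι ∘ s` of the local Mackey–Shapiro map
`Hlc(G_q, Res coind_{G_K}^{G_ℚ} A) → Hlc(G_{K_w}, A)`. -/
def HlcMackeyComp (n : ℕ) :
    Hlc (levelQ q) (resCoind q K A) n ⟶ Hlc (levelLoc q K s) (locCoeff q K A s) n :=
  HlcMap (levelQ q) (evW q K A s) n ≫
    HlcShapiro (levelQ q) (locGroup q K s) (locCoeff q K A s) n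

/-- `HlcMackeyComp` is helper5's generic Mackey component `mackeyμ` at `t = s⁻¹`. -/
theorem HlcMackeyComp_eq_mackeyμ (n : ℕ) :
    HlcMackeyComp q K A s n = mackeyμ A (levelQ q) (locHom_mul_inv q K s) n :=
  (mackeyμ_eq (N := A) (levelQ q) (locHom_mul_inv q K s) n).symm

/-- **Localisation versus Shapiro** (PM3) in terms of `HlcMackeyComp` and `HlcRes`:
`res_q` followed by the component at `ι ∘ s` is Shapiro followed by `res_{ι ∘ s}`. -/
theorem HlcRes_HlcMackeyComp
    [IsDiscrete (levelK S K) A]
    [IsDiscrete ((Fermat.Agent.GC.C0.levelS S).comap K.fixingSubgroup.subtype) A]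
    [IsDiscrete (Fermat.Agent.GC.C0.levelS S) (Rep.coind K.fixingSubgroup.subtype A)]
    (n : ℕ) :
    HlcRes (isContHom_localGaloisToGlobal S q) (Rep.coind K.fixingSubgroup.subtype A) n ≫
        HlcMackeyComp q K A s n =
      HlcShapiro (Fermat.Agent.GC.C0.levelS S) K.fixingSubgroup A n ≫
        HlcRes (isContHom_locHom S q K s) A n :=
  HlcRes_evW_HlcShapiro S q K A s n

end Comp

/-! ### The product decomposition -/

section Pi

variable [FiniteDimensional ℚ K]
  [IsDiscrete (levelQ q) (resCoind q K A)]
  [∀ w : placeIdx q K, IsDiscrete (levelLoc q K (placeRep q K w)) (locCoeff q K A (placeRep q K w))]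
  [∀ w : placeIdx q K, IsDiscrete ((levelQ q).comap (locGroup q K (placeRep q K w)).subtype)
    (locCoeff q K A (placeRep q K w))]
  [∀ w : placeIdx q K, IsDiscrete (levelQ q) (locFactor q K A (placeRep q K w))]

/-- **PM2: the local Mackey–Shapiro decomposition**
`Hlc(G_q, Res coind_{G_K}^{G_ℚ} A) ≃ ∏_{w ∣ q} Hlc(G_{K_w}, A)`. -/
def HlcMackey (n : ℕ) :
    Hlc (levelQ q) (resCoind q K A) n ≃ₗ[k]
      ∀ w : placeIdx q K, Hlc (levelLoc q K (placeRep q K w)) (locCoeff q K A (placeRep q K w)) n :=
  letI : Fintype (placeIdx q K) := Fintype.ofFinite _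
  letI : DecidableEq (placeIdx q K) := Classical.decEq _
  ((HlcIso (levelQ q) (mackeyIso q K A) n).toLinearEquiv ≪≫ₗ
    HlcPi (levelQ q) (fun w : placeIdx q K => locFactor q K A (placeRep q K w)) n) ≪≫ₗ
  LinearEquiv.piCongrRight fun w : placeIdx q K =>
    HlcShapiroEquiv (isOpenSub_locGroup q K (placeRep q K w)) n (locCoeff q K A (placeRep q K w))

theorem HlcMackey_apply (n : ℕ) (x : Hlc (levelQ q) (resCoind q K A) n) (w : placeIdx q K) :
    HlcMackey q K A n x w = HlcMackeyComp q K A (placeRep q K w) n x := by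
  let _ : Fintype (placeIdx q K) := Fintype.ofFinite _
  let _ : DecidableEq (placeIdx q K) := Classical.decEq _
  show HlcShapiro (levelQ q) _ _ n (HlcMap (levelQ q) (piProj _ w) n
    (HlcMap (levelQ q) (mackeyIso q K A).hom n x)) = _
  rw [← HlcMap_comp_apply, mackeyIso_hom_piProj]
  rfl

/-- A class of `Hlc(G_q, Res coind A)` vanishes iff all its components vanish. -/
theorem eq_zero_iff_forall_HlcMackeyComp (n : ℕ) (x : Hlc (levelQ q) (resCoind q K A) n) :
    x = 0 ↔ ∀ w : placeIdx q K, HlcMackeyComp q K A (placeRep q K w) n x = 0 := by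
  rw [← (HlcMackey q K A n).map_eq_zero_iff, funext_iff]
  exact forall_congr' fun w => by rw [HlcMackey_apply]; rfl

/-- Every family of local classes is the family of components of a unique class. -/
theorem existsUnique_HlcMackeyComp (n : ℕ)
    (y : ∀ w : placeIdx q K,
      Hlc (levelLoc q K (placeRep q K w)) (locCoeff q K A (placeRep q K w)) n) :
    ∃! x : Hlc (levelQ q) (resCoind q K A) n,
      ∀ w, HlcMackeyComp q K A (placeRep q K w) n x = y w := by
  refine ⟨(HlcMackey q K A n).symm y, fun w => ?_, fun x hx => ?_⟩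
  · rw [← HlcMackey_apply, LinearEquiv.apply_symm_apply]
  · rw [LinearEquiv.eq_symm_apply]
    funext w
    rw [HlcMackey_apply, hx]

/-- **Localisation square**: the localisation at `q` of a global class `X` of `coind A`, read
through the Mackey–Shapiro decomposition, is the family of localisations at the places `w ∣ q`
of the class of `Hlc(G_K, A)` corresponding to `X` under Shapiro. -/
theorem HlcMackey_HlcRes
    [IsDiscrete (levelK S K) A]
    [IsDiscrete ((Fermat.Agent.GC.C0.levelS S).comap K.fixingSubgroup.subtype) A]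
    [IsDiscrete (Fermat.Agent.GC.C0.levelS S) (Rep.coind K.fixingSubgroup.subtype A)]
    (n : ℕ)
    (X : Hlc (Fermat.Agent.GC.C0.levelS S) (Rep.coind K.fixingSubgroup.subtype A) n)
    (w : placeIdx q K) :
    HlcMackey q K A n
        (HlcRes (isContHom_localGaloisToGlobal S q) (Rep.coind K.fixingSubgroup.subtype A) n X) w =
      HlcRes (isContHom_locHom S q K (placeRep q K w)) A n
        (HlcShapiro (Fermat.Agent.GC.C0.levelS S) K.fixingSubgroup A n X) := by
  rw [HlcMackey_apply]
  exact congr($(HlcRes_HlcMackeyComp S q K A (placeRep q K w) n) X)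

end Pi

end Fermat.Agent.GC.Places
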