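/-
GATE-C / HLC-ISO (helper69), concrete part: the local group of `K` at the place `ι ∘ s`, as a
subgroup `locGroup q K s ≤ G_{ℚ_q}` (PLACES / PM2 / PM3 / BASE-INST language) versus as the
absolute Galois group `Gal(PadicAlgCl q / locField q K s)` of the local field (C3 / `Abs`
language, level system `Abs.galLevels`).  The two have the same `Hlc`.
-/
import Mathlib
import Fermat.Agent.GC.Places.Levels
import Fermat.Agent.GC.Prof.GroupIso

set_option autoImplicit false

noncomputable section

open IntermediateField Fermat.Agent.GC.Local.KR Fermat.Agent.GC.Prof CategoryTheory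

namespace Fermat.Agent.GC.Places

local notation "Qb" => AlgebraicClosure ℚ
local notation "GQ" => (AlgebraicClosure ℚ ≃ₐ[ℚ] AlgebraicClosure ℚ)

variable (S : Finset Nat.Primes) (q : ℕ) [Fact q.Prime] (K : IntermediateField ℚ Qb)
variable {k : Type} [CommRing k]

/-- The absolute Galois group of the local field of `K` at the place `ι ∘ s`. -/
abbrev GalLoc (s : GQ) : Type := PadicAlgCl q ≃ₐ[locField q K s] PadicAlgCl q

/-- The level system of all open subgroups of `GalLoc q K s`. -/
abbrev levelGalLoc (s : GQ) : LevelSystem (GalLoc q K s) :=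
  Fermat.Agent.GC.Local.Abs.galLevels (locField q K s) (PadicAlgCl q)

section Generic

variable (s : GQ) (B : Rep k (locGroup q K s))

/-- A module over the subgroup `locGroup q K s`, seen as a module over `GalLoc q K s`. -/
abbrev toGalLoc : Rep k (GalLoc q K s) :=
  Rep.res (locGroupEquiv q K s).symm.toMonoidHom B

variable [FiniteDimensional ℚ K]

theorem isDiscrete_toGalLoc [IsDiscrete (levelLoc q K s) B] :
    IsDiscrete (levelGalLoc q K s) (toGalLoc q K s B) :=
  IsDiscrete.res (isContHom_locGroupEquiv_symm q K s) B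

variable [IsDiscrete (levelLoc q K s) B] [IsDiscrete (levelGalLoc q K s) (toGalLoc q K s B)]

/-- **Subgroup form ↔ absolute form**: `Hlc(locGroup q K s, B) ≅ Hlc(Gal(Ω/E), B)`,
`E = locField q K s`. -/
def HlcGalLocIso (n : ℕ) :
    Hlc (levelLoc q K s) B n ≅ Hlc (levelGalLoc q K s) (toGalLoc q K s B) n :=
  HlcMulEquivIso (locGroupEquiv q K s).symm B (isContHom_locGroupEquiv_symm q K s)
    (isContHom_locGroupEquiv q K s) n

/-- The linear equivalence underlying `HlcGalLocIso`. -/
def HlcGalLocEquiv (n : ℕ) :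
    Hlc (levelLoc q K s) B n ≃ₗ[k] Hlc (levelGalLoc q K s) (toGalLoc q K s B) n :=
  (HlcGalLocIso q K s B n).toLinearEquiv

@[simp] theorem HlcGalLocIso_hom (n : ℕ) :
    (HlcGalLocIso q K s B n).hom = HlcRes (isContHom_locGroupEquiv_symm q K s) B n := rfl

theorem finrank_Hlc_toGalLoc (n : ℕ) :
    Module.finrank k (Hlc (levelGalLoc q K s) (toGalLoc q K s B) n) =
      Module.finrank k (Hlc (levelLoc q K s) B n) :=
  (HlcGalLocEquiv q K s B n).finrank_eq.symm

theorem card_Hlc_toGalLoc (n : ℕ) :
    Nat.card (Hlc (levelGalLoc q K s) (toGalLoc q K s B) n) =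
      Nat.card (Hlc (levelLoc q K s) B n) :=
  (Nat.card_congr (HlcGalLocEquiv q K s B n).toEquiv).symm

theorem finite_Hlc_of_toGalLoc (n : ℕ)
    [Module.Finite k (Hlc (levelGalLoc q K s) (toGalLoc q K s B) n)] :
    Module.Finite k (Hlc (levelLoc q K s) B n) :=
  Module.Finite.equiv (HlcGalLocEquiv q K s B n).symm

theorem subsingleton_Hlc_of_toGalLoc (n : ℕ)
    [Subsingleton (Hlc (levelGalLoc q K s) (toGalLoc q K s B) n)] :
    Subsingleton (Hlc (levelLoc q K s) B n) :=
  (HlcGalLocEquiv q K s B n).toEquiv.subsingleton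

end Generic

section Natural

variable (s : GQ) [FiniteDimensional ℚ K]

/-- Naturality of `HlcGalLocIso` in the coefficients. -/
theorem HlcMap_comp_HlcGalLocIso {B B' : Rep k (locGroup q K s)}
    [IsDiscrete (levelLoc q K s) B] [IsDiscrete (levelLoc q K s) B']
    [IsDiscrete (levelGalLoc q K s) (toGalLoc q K s B)]
    [IsDiscrete (levelGalLoc q K s) (toGalLoc q K s B')] (φ : B ⟶ B') (n : ℕ) :
    HlcMap (levelLoc q K s) φ n ≫ (HlcGalLocIso q K s B' n).hom =
      (HlcGalLocIso q K s B n).hom ≫
        HlcMap (levelGalLoc q K s)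
          ((Rep.resFunctor (locGroupEquiv q K s).symm.toMonoidHom).map φ) n :=
  HlcMap_comp_HlcRes _ φ n

end Natural

section Coeff

variable (s : GQ) (A : Rep k K.fixingSubgroup)

/-- `A` as a module over `GalLoc q K s` through `locHomAlg`. -/
abbrev locCoeffAlg : Rep k (GalLoc q K s) := Rep.res (locHomAlg q K s) A

/-- The two ways of making `A` a `GalLoc q K s`-module agree. -/
theorem toGalLoc_res_locHom :
    toGalLoc q K s (Rep.res (locHom q K s) A) = locCoeffAlg q K s A := rfl

variable [FiniteDimensional ℚ K] [IsDiscrete (levelK S K) A]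
  [IsDiscrete (levelLoc q K s) (Rep.res (locHom q K s) A)]
  [IsDiscrete (levelGalLoc q K s) (locCoeffAlg q K s A)]

/-- `Hlc(locGroup q K s, A) ≅ Hlc(Gal(Ω/E), A)` for `A` a `G_K`-module. -/
def HlcLocAlgIso (n : ℕ) :
    Hlc (levelLoc q K s) (Rep.res (locHom q K s) A) n ≅
      Hlc (levelGalLoc q K s) (locCoeffAlg q K s A) n :=
  haveI : IsDiscrete (levelGalLoc q K s) (toGalLoc q K s (Rep.res (locHom q K s) A)) :=
    ‹IsDiscrete (levelGalLoc q K s) (locCoeffAlg q K s A)›
  HlcGalLocIso q K s (Rep.res (locHom q K s) A) n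

/-- The linear equivalence underlying `HlcLocAlgIso`. -/
def HlcLocAlgEquiv (n : ℕ) :
    Hlc (levelLoc q K s) (Rep.res (locHom q K s) A) n ≃ₗ[k]
      Hlc (levelGalLoc q K s) (locCoeffAlg q K s A) n :=
  (HlcLocAlgIso q K s A n).toLinearEquiv

/-- Localisation of a class of `Hlc(G_K, A)` at the place `ι ∘ s`, in the two languages. -/
theorem HlcRes_locHom_comp_HlcLocAlgIso (n : ℕ) :
    HlcRes (isContHom_locHom S q K s) A n ≫ (HlcLocAlgIso q K s A n).hom =
      HlcRes (isContHom_locHomAlg S q K s) A n := by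
  have : IsDiscrete (levelGalLoc q K s) (toGalLoc q K s (Rep.res (locHom q K s) A)) :=
    ‹IsDiscrete (levelGalLoc q K s) (locCoeffAlg q K s A)›
  show HlcRes (isContHom_locHom S q K s) A n ≫
    HlcRes (isContHom_locGroupEquiv_symm q K s) (Rep.res (locHom q K s) A) n = _
  unfold HlcRes
  refine (HlcPull_comp (isContHom_locHom S q K s) (isContHom_locGroupEquiv_symm q K s)
    (A := A) (B := Rep.res (locHom q K s) A)
    (C := toGalLoc q K s (Rep.res (locHom q K s) A)) (𝟙 _) (𝟙 _) n).symm.trans ?_
  exact HlcPull_congr _ _ rfl rfl n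

end Coeff

end Fermat.Agent.GC.Places
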