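/-
GATE-C / CHI-MU (helper69), concrete part: the mod `p` cyclotomic character of `G_ℚ` (the
prelude's `ExtCitation.cycloChar p`), restricted to the local groups, is the character of the
action on `μ_p ⊂ PadicAlgCl q`; hence `T|_{G_q} = chiRep (cycloChar p ∘ r_q) ≃+ muRep` and
`Hlc(G_q, T) ≃+ Hlc(G_q, μ_p)`, and the same over the local fields `locField q K s` of a number
field `K` (with `χ = 1` if `ζ_p ∈ K`).
-/
import Mathlib
import Fermat.Prelude.Def_ExtCitation_KummerBridge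
import Fermat.Agent.GC.Local.Abs.ChiMu
import Fermat.Agent.GC.Places.LocIso

set_option autoImplicit false

noncomputable section

open IntermediateField Fermat.Agent.GC.Local.KR Fermat.Agent.GC.Local.Abs Fermat.Agent.GC.Prof
open CategoryTheory ExtCitation

namespace Fermat.Agent.GC.Places

local notation "Qb" => AlgebraicClosure ℚ
local notation "GQ" => (AlgebraicClosure ℚ ≃ₐ[ℚ] AlgebraicClosure ℚ)

variable (p : ℕ) [Fact p.Prime]

/-! ### The global cyclotomic character -/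

theorem exists_primitiveRoot_Qb : ∃ ζ : Qbˣ, IsPrimitiveRoot ζ p := by
  have : NeZero p := ⟨(Fact.out : p.Prime).ne_zero⟩
  have : NeZero (p : Qb) := ⟨by exact_mod_cast (Fact.out : p.Prime).ne_zero⟩
  obtain ⟨ζ, hζ⟩ := HasEnoughRootsOfUnity.exists_primitiveRoot Qb p
  exact ⟨(hζ.isUnit (Fact.out : p.Prime).ne_zero).unit, by
    rw [← IsPrimitiveRoot.coe_units_iff]
    exact hζ⟩

/-- A fixed primitive `p`-th root of unity in `Qbar`. -/
def zetaQb : Qbˣ := (exists_primitiveRoot_Qb p).choose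

theorem isPrimitiveRoot_zetaQb : IsPrimitiveRoot (zetaQb p) p :=
  (exists_primitiveRoot_Qb p).choose_spec

/-- The prelude's `cycloChar p` is the character of the action of `G_ℚ` on `μ_p`. -/
theorem cycloChar_spec (σ : GQ) {t : Qbˣ} (ht : t ^ p = 1) :
    σ (t : Qb) = (t : Qb) ^ ((cycloChar p σ : ZMod p)).val := by
  have : NeZero p := ⟨(Fact.out : p.Prime).ne_zero⟩
  have hmem : t ∈ rootsOfUnity p Qb := (mem_rootsOfUnity p t).2 ht
  exact modularCyclotomicCharacter.spec Qb (card_rootsOfUnity_eq_self p)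
    (σ : Qb ≃+* Qb) hmem

/-! ### The local cyclotomic character at `q` -/

section Local

variable (q : ℕ) [Fact q.Prime]

/-- The image in `PadicAlgCl q` of the fixed primitive `p`-th root of unity. -/
def zetaLoc : (PadicAlgCl q)ˣ :=
  Units.map ((padicEmbedding q : Qb →+* PadicAlgCl q) : Qb →* PadicAlgCl q) (zetaQb p)

theorem coe_zetaLoc : ((zetaLoc p q : (PadicAlgCl q)ˣ) : PadicAlgCl q) =
    padicEmbedding q (zetaQb p : Qb) := rfl

theorem isPrimitiveRoot_zetaLoc : IsPrimitiveRoot (zetaLoc p q) p := by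
  rw [← IsPrimitiveRoot.coe_units_iff, coe_zetaLoc]
  exact (IsPrimitiveRoot.coe_units_iff.2 (isPrimitiveRoot_zetaQb p)).map_of_injective
    (padicEmbedding q).injective

/-- The mod `p` cyclotomic character of `G_{ℚ_q}`: the restriction of the global one. -/
abbrev chiQ : Gq q →* (ZMod p)ˣ := (cycloChar p).comp (localGaloisToGlobal q)

theorem chiQ_spec (τ : Gq q) :
    τ ((zetaLoc p q : (PadicAlgCl q)ˣ) : PadicAlgCl q) =
      ((zetaLoc p q : (PadicAlgCl q)ˣ) : PadicAlgCl q) ^ ((chiQ p q τ : ZMod p)).val := by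
  rw [coe_zetaLoc, apply_padicEmbedding,
    cycloChar_spec p (localGaloisToGlobal q τ) (isPrimitiveRoot_zetaQb p).pow_eq_one, map_pow]
  rfl

/-- `T|_{G_q}` for `T = k(χ_cyc)`. -/
theorem res_chiRep_cycloChar :
    Rep.res (localGaloisToGlobal q) (chiRep (cycloChar p)) = chiRep (chiQ p q) := rfl

theorem isDiscrete_chiRep_chiQ : IsDiscrete (levelQ q) (chiRep (chiQ p q)) :=
  isDiscrete_chiRep_galLevels ℚ_[q] (isPrimitiveRoot_zetaLoc p q) (chiQ p q) (chiQ_spec p q)

/-- **`k(χ_cyc)|_{G_q} ≃+ μ_p(PadicAlgCl q)`**, `c ↦ ζ^c`, `G_q`-equivariant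
(`chiMuQ_equivariant`). -/
def chiMuQ : (chiRep (chiQ p q) : Rep (ZMod p) (Gq q)) ≃+ (muRep ℚ_[q] (PadicAlgCl q) p) :=
  chiMuEquiv ℚ_[q] (isPrimitiveRoot_zetaLoc p q) (chiQ p q)

theorem chiMuQ_equivariant (τ : Gq q) (c : chiRep (chiQ p q)) :
    chiMuQ p q ((chiRep (chiQ p q)).ρ τ c) = (muRep ℚ_[q] (PadicAlgCl q) p).ρ τ (chiMuQ p q c) :=
  chiMuEquiv_equivariant ℚ_[q] (isPrimitiveRoot_zetaLoc p q) (chiQ p q) (chiQ_spec p q) τ c

/-- **`Hlc(G_q, k(χ_cyc)) ≃+ Hlc(G_q, μ_p)`.** -/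
def HlcChiMuQ (n : ℕ) :
    @Hlc (ZMod p) (Gq q) _ _ (levelQ q) (chiRep (chiQ p q)) (isDiscrete_chiRep_chiQ p q) n ≃+
      Hlc (levelQ q) (muRep ℚ_[q] (PadicAlgCl q) p) n :=
  haveI := isDiscrete_chiRep_chiQ p q
  HlcChiMu ℚ_[q] (isPrimitiveRoot_zetaLoc p q) (chiQ p q) (chiQ_spec p q) n

end Local

/-! ### Over the local fields of a number field -/

section LocalK

variable (q : ℕ) [Fact q.Prime] (K : IntermediateField ℚ Qb) (s : GQ)

/-- The cyclotomic character of `G_K`, pulled back to `Gal(PadicAlgCl q / locField q K s)`. -/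
abbrev chiLoc : GalLoc q K s →* (ZMod p)ˣ :=
  (cycloChar p).comp (K.fixingSubgroup.subtype.comp (locHomAlg q K s))

theorem chiLoc_apply (σ : GalLoc q K s) :
    chiLoc p q K s σ = chiQ p q ((locGroupEquiv q K s).symm σ : Gq q) := by
  show cycloChar p ((locHom q K s ((locGroupEquiv q K s).symm σ) : K.fixingSubgroup) : GQ) = _
  rw [coe_locHom, map_mul, map_mul, mul_comm, ← mul_assoc, ← map_mul, mul_inv_cancel, map_one,
    one_mul]
  rfl

theorem chiLoc_spec (σ : GalLoc q K s) :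
    σ ((zetaLoc p q : (PadicAlgCl q)ˣ) : PadicAlgCl q) =
      ((zetaLoc p q : (PadicAlgCl q)ˣ) : PadicAlgCl q) ^ ((chiLoc p q K s σ : ZMod p)).val := by
  rw [chiLoc_apply]
  exact chiQ_spec p q ((locGroupEquiv q K s).symm σ : Gq q)

/-- `T|_{G_K}`, pulled back to the local group at the place `ι ∘ s`. -/
theorem locCoeffAlg_chiRep :
    locCoeffAlg q K s (Rep.res K.fixingSubgroup.subtype (chiRep (cycloChar p))) =
      chiRep (chiLoc p q K s) := rfl

theorem isDiscrete_chiRep_chiLoc : IsDiscrete (levelGalLoc q K s) (chiRep (chiLoc p q K s)) :=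
  isDiscrete_chiRep_galLevels (locField q K s) (isPrimitiveRoot_zetaLoc p q) (chiLoc p q K s)
    (chiLoc_spec p q K s)

/-- `k(χ_cyc) ≃+ μ_p` over the local field `locField q K s`. -/
def chiMuLoc : (chiRep (chiLoc p q K s) : Rep (ZMod p) (GalLoc q K s)) ≃+
    (muRep (locField q K s) (PadicAlgCl q) p) :=
  chiMuEquiv (locField q K s) (isPrimitiveRoot_zetaLoc p q) (chiLoc p q K s)

theorem chiMuLoc_equivariant (σ : GalLoc q K s) (c : chiRep (chiLoc p q K s)) :
    chiMuLoc p q K s ((chiRep (chiLoc p q K s)).ρ σ c) =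
      (muRep (locField q K s) (PadicAlgCl q) p).ρ σ (chiMuLoc p q K s c) :=
  chiMuEquiv_equivariant (locField q K s) (isPrimitiveRoot_zetaLoc p q) (chiLoc p q K s)
    (chiLoc_spec p q K s) σ c

/-- **`Hlc(G_{K_w}, k(χ_cyc)) ≃+ Hlc(G_{K_w}, μ_p)`.** -/
def HlcChiMuLoc (n : ℕ) :
    @Hlc (ZMod p) (GalLoc q K s) _ _ (levelGalLoc q K s) (chiRep (chiLoc p q K s))
      (isDiscrete_chiRep_chiLoc p q K s) n ≃+
      Hlc (levelGalLoc q K s) (muRep (locField q K s) (PadicAlgCl q) p) n :=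
  haveI := isDiscrete_chiRep_chiLoc p q K s
  HlcChiMu (locField q K s) (isPrimitiveRoot_zetaLoc p q) (chiLoc p q K s)
    (chiLoc_spec p q K s) n

end LocalK

end Fermat.Agent.GC.Places
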