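/-
GATE-C / C3→C5 (COR-INJ), consumer form (helper21).

`HlcCor : Hlc²(locGroup q K s, T) → Hlc²(G_q, T)` is INJECTIVE for
`T = Rep.res (localGaloisToGlobal q) (chiRep (cycloChar p)) = chiRep (chiQ p q) : Rep (ZMod p) (Gq q)`
— the coefficient and subgroup shape of helper19's `BaseInputsK.dual*` / helper59's 1931 (COR-INJ).
From `CorInjMu.HlcCor_two_injective_of_muEquiv` and helper69's `chiMuQ`.
-/
import Mathlib
import Fermat.Agent.GC.Local.CorInjMu
import Fermat.Agent.GC.Places.ChiMuLoc
import Fermat.Agent.GC.Places.MackeyH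

set_option autoImplicit false

noncomputable section

open scoped Padic
open IntermediateField Fermat.Agent.GC.Local.KR Fermat.Agent.GC.Prof
  Fermat.Agent.GC.Local.Abs ExtCitation

namespace Fermat.Agent.GC.Places.CorInjLoc

open Fermat.Agent.GC.Places

local notation "Qb" => AlgebraicClosure ℚ
local notation "GQ" => (AlgebraicClosure ℚ ≃ₐ[ℚ] AlgebraicClosure ℚ)

variable (p : ℕ) [Fact p.Prime] (q : ℕ) [Fact q.Prime] (K : IntermediateField ℚ Qb)
  [FiniteDimensional ℚ K] (s : GQ)

/-- `PadicAlgCl q` has `p`-th roots of units. -/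
theorem hasRoots_padicAlgCl : HasRoots (PadicAlgCl q) p :=
  hasRoots_of_isAlgClosed (PadicAlgCl q) (Fact.out : p.Prime).ne_zero

/-- **(COR-INJ), consumer form**: for every subgroup `S` of `G_q` which is open for `levelQ q`
(e.g. `locGroup q K s`), the corestriction `Hlc²(S, k(χ_cyc)) → Hlc²(G_q, k(χ_cyc))` is
injective. -/
theorem HlcCor_two_chiRep_injective_of_open {S : Subgroup (Gq q)} (hS : IsOpenSub (levelQ q) S)
    [S.FiniteIndex] [IsDiscrete (levelQ q) (chiRep (chiQ p q))]
    [IsDiscrete ((levelQ q).comap S.subtype) (Rep.res S.subtype (chiRep (chiQ p q)))]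
    [IsDiscrete (levelQ q) (Rep.coind S.subtype (Rep.res S.subtype (chiRep (chiQ p q))))] :
    Function.Injective (HlcCor (chiRep (chiQ p q)) hS 2) := by
  refine Fermat.Agent.GC.Local.CorInjMu.HlcCor_two_injective_of_muEquiv q
    (K := ℚ_[q]) (Ω := PadicAlgCl q) (p := p) (hasRoots_padicAlgCl p q) hS
    (chiRep (chiQ p q)) (chiMuQ p q).symm ?_
  intro g a
  rw [AddEquiv.symm_apply_eq, chiMuQ_equivariant, AddEquiv.apply_symm_apply]

/-- **(COR-INJ) at a place**: `S = locGroup q K s`, coefficients
`Rep.res (localGaloisToGlobal q) (chiRep (cycloChar p))` (`= chiRep (chiQ p q)` by `rfl`);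
`(levelQ q).comap (locGroup q K s).subtype = levelLoc q K s` by `rfl`. -/
theorem HlcCor_two_locGroup_injective
    [h1 : IsDiscrete (levelQ q) (Rep.res (localGaloisToGlobal q) (chiRep (cycloChar p)))]
    [h2 : IsDiscrete ((levelQ q).comap (locGroup q K s).subtype) (Rep.res (locGroup q K s).subtype
      (Rep.res (localGaloisToGlobal q) (chiRep (cycloChar p))))]
    [h3 : IsDiscrete (levelQ q) (Rep.coind (locGroup q K s).subtype
      (Rep.res (locGroup q K s).subtype
        (Rep.res (localGaloisToGlobal q) (chiRep (cycloChar p)))))]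
    [h4 : (locGroup q K s).FiniteIndex] :
    Function.Injective (HlcCor (Rep.res (localGaloisToGlobal q) (chiRep (cycloChar p)))
      (isOpenSub_locGroup q K s) 2) :=
  @HlcCor_two_chiRep_injective_of_open p _ q _ _ (isOpenSub_locGroup q K s) h4 h1 h2 h3

end Fermat.Agent.GC.Places.CorInjLoc
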