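/-
GATE-C / BASE-INST (c) (helper20): MACKEY-CUP at the places of a number field.

`HlcCup_mackey` (GC/Prof/MackeyCup.lean) instantiated at helper69's double coset data
`ι = placeIdx q K`, `t w = (placeRep q K w)⁻¹`, `Dt w = locGroup q K (placeRep q K w)`,
`φ w = locHom q K (placeRep q K w)`:  for `A A' : Rep k G_K`, `P : Rep k G_ℚ`,
`B : A × A' → P|_{G_K}` equivariant, and classes `X`, `Y` of `G_{ℚ_q}` with coefficients in
`Res coind_{G_K}^{G_ℚ} A`, `Res coind_{G_K}^{G_ℚ} A'`:

  `X ∪_{tr B} Y = ∑_{w ∣ q} cor_w ((X)_w ∪_{B_w} (Y)_w)`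

where `( )_w = HlcMackeyComp q K · (placeRep q K w)` are the components of helper69's PM2
decomposition `HlcMackey` and `B_w = s_w • B` (`locPair`).
-/
import Fermat.Agent.GC.Places.MackeyPi
import Fermat.Agent.GC.Prof.MackeyCup

set_option autoImplicit false

noncomputable section

open IntermediateField Fermat.Agent.GC.Local.KR Fermat.Agent.GC.Prof CategoryTheory
open Fermat.Agent.GC.Global.Mackey
open Fermat.Agent.GC.Prof.Cup (Equivariant)

namespace Fermat.Agent.GC.Places

local notation "Qb" => AlgebraicClosure ℚ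
local notation "GQ" => (AlgebraicClosure ℚ ≃ₐ[ℚ] AlgebraicClosure ℚ)

variable (q : ℕ) [Fact q.Prime] (K : IntermediateField ℚ Qb)
variable {k : Type} [CommRing k] {A A' : Rep k K.fixingSubgroup} {P : Rep k GQ}
  (B : A →ₗ[k] A' →ₗ[k] (Rep.res K.fixingSubgroup.subtype P))
  (hB : Equivariant A.ρ A'.ρ (Rep.res K.fixingSubgroup.subtype P).ρ B)

/-- The coefficient module `P` of the target of the pairings, over the local group at `ι ∘ s`. -/
abbrev locTarget (P : Rep k GQ) (s : GQ) : Rep k (locGroup q K s) :=
  Rep.res (locGroup q K s).subtype (Rep.res (localGaloisToGlobal q) P)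

/-- The pairing at the place `ι ∘ s`: `B_s (a, a') = s • B (a, a')`. -/
def locPair (s : GQ) :
    locCoeff q K A s →ₗ[k] locCoeff q K A' s →ₗ[k] locTarget q K P s :=
  mackeyB (r := localGaloisToGlobal q) B s⁻¹ (locGroup q K s) (locHom q K s)

@[simp]
theorem locPair_apply (s : GQ) (a : A) (a' : A') :
    locPair q K B s a a' = P.ρ s (B a a') := by
  show P.ρ (s⁻¹)⁻¹ (B a a') = _
  rw [inv_inv]

include hB in
theorem locPair_equivariant (s : GQ) :
    Equivariant (locCoeff q K A s).ρ (locCoeff q K A' s).ρ (locTarget q K P s).ρ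
      (locPair q K B s) :=
  mackeyB_equivariant B hB (locHom_mul_inv q K s)

/-! ### The double coset data in the shape of `HlcCup_mackey` -/

theorem mackey_hfull (w : placeIdx q K) (d : Gq q)
    (hd : (placeRep q K w)⁻¹ * localGaloisToGlobal q d * ((placeRep q K w)⁻¹)⁻¹ ∈
      K.fixingSubgroup) : d ∈ locGroup q K (placeRep q K w) := by
  rw [inv_inv] at hd
  exact (mem_locGroup_iff q K _ d).mpr hd

theorem mackey_hcov (g : GQ) : ∃ w : placeIdx q K, ∃ h ∈ K.fixingSubgroup, ∃ d : Gq q,
    g = h * (placeRep q K w)⁻¹ * localGaloisToGlobal q d := by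
  obtain ⟨w, h, d, e⟩ := exists_eq_mul_inv_placeRep_mul q K g
  exact ⟨w, h, h.2, d, e⟩

theorem mackey_hdisj (w w' : placeIdx q K) (h : GQ) (hh : h ∈ K.fixingSubgroup) (d : Gq q)
    (e : h * (placeRep q K w)⁻¹ * localGaloisToGlobal q d = (placeRep q K w')⁻¹) : w = w' := by
  refine eq_of_mul_inv_placeRep_mul_eq q K (h := ⟨h, hh⟩) (h' := 1) (d := d) (d' := 1) ?_
  rw [e, map_one, mul_one, OneMemClass.coe_one, one_mul]

/-! ### MACKEY-CUP at the places above `q` -/

section Cup

variable [FiniteDimensional ℚ K] [K.fixingSubgroup.FiniteIndex] [Fintype (placeIdx q K)]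
  [∀ w : placeIdx q K, (locGroup q K (placeRep q K w)).FiniteIndex]
  [IsDiscrete (levelQ q) (resCoind q K A)] [IsDiscrete (levelQ q) (resCoind q K A')]
  [IsDiscrete (levelQ q) (Rep.res (localGaloisToGlobal q) P)]
  [∀ w : placeIdx q K, IsDiscrete (levelLoc q K (placeRep q K w))
    (locCoeff q K A (placeRep q K w))]
  [∀ w : placeIdx q K, IsDiscrete (levelLoc q K (placeRep q K w))
    (locCoeff q K A' (placeRep q K w))]
  [∀ w : placeIdx q K, IsDiscrete ((levelQ q).comap (locGroup q K (placeRep q K w)).subtype)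
    (locCoeff q K A (placeRep q K w))]
  [∀ w : placeIdx q K, IsDiscrete ((levelQ q).comap (locGroup q K (placeRep q K w)).subtype)
    (locCoeff q K A' (placeRep q K w))]
  [∀ w : placeIdx q K, IsDiscrete (levelLoc q K (placeRep q K w))
    (locTarget q K P (placeRep q K w))]
  [∀ w : placeIdx q K, IsDiscrete ((levelQ q).comap (locGroup q K (placeRep q K w)).subtype)
    (locTarget q K P (placeRep q K w))]
  [∀ w : placeIdx q K, IsDiscrete (levelQ q) (locFactor q K A (placeRep q K w))]
  [∀ w : placeIdx q K, IsDiscrete (levelQ q) (locFactor q K A' (placeRep q K w))]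
  [∀ w : placeIdx q K, IsDiscrete (levelQ q)
    (Rep.coind (locGroup q K (placeRep q K w)).subtype (locTarget q K P (placeRep q K w)))]

/-- **MACKEY-CUP at the places above `q`**: the cup product over `G_{ℚ_q}` for the trace pairing
on `coind_{G_K}^{G_ℚ}` is the sum over the places `w ∣ q` of `K` of the corestrictions of the
cup products of the Mackey components. -/
theorem HlcCup_resCoind {a b n : ℕ} (h : a + b = n)
    (X : Hlc (levelQ q) (resCoind q K A) a) (Y : Hlc (levelQ q) (resCoind q K A') b) :
    HlcCup (levelQ q) (M := resCoind q K A) (N := resCoind q K A')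
        (P := Rep.res (localGaloisToGlobal q) P) (coindTr K.fixingSubgroup B hB)
        (Equivariant_res (f := localGaloisToGlobal q)
          (coindTr_equivariant K.fixingSubgroup B hB)) h X Y =
      ∑ w : placeIdx q K,
        HlcCor (Rep.res (localGaloisToGlobal q) P) (isOpenSub_locGroup q K (placeRep q K w)) n
          (HlcCup (levelLoc q K (placeRep q K w)) (locPair q K B (placeRep q K w))
            (locPair_equivariant q K B hB (placeRep q K w)) h
            (HlcMackeyComp q K A (placeRep q K w) a X)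
            (HlcMackeyComp q K A' (placeRep q K w) b Y)) := by
  have key := HlcCup_mackey (r := localGaloisToGlobal q) (H := K.fixingSubgroup) B hB
    (fun w : placeIdx q K => (placeRep q K w)⁻¹)
    (fun w => locGroup q K (placeRep q K w)) (fun w => locHom q K (placeRep q K w))
    (fun w => locHom_mul_inv q K (placeRep q K w)) (levelQ q)
    (fun w => isOpenSub_locGroup q K (placeRep q K w))
    (mackey_hfull q K) (mackey_hcov q K) (mackey_hdisj q K) h X Y
  rw [key]
  refine Finset.sum_congr rfl fun w _ => ?_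
  rw [HlcMackeyComp_eq_mackeyμ, HlcMackeyComp_eq_mackeyμ]
  rfl

end Cup

end Fermat.Agent.GC.Places
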