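/-
GATE-C / LEVEL-BRIDGE (helper69), concrete part.

helper59's `C0.localDataS S` equips the local Galois group `G_{ℚ_q}` with the level system
`C0.levelOf (primeLocalToGlobal q)` (traces of the open subgroups of `G_ℚ`), whereas all the
local theory (C3, PLACES) uses `levelQ q = Abs.galLevels ℚ_[q] (PadicAlgCl q)` (all open
subgroups of `G_{ℚ_q}`).  By Krasner's lemma (`KR.exists_global_level`, `KR.exists_local_level`)
the two systems are mutually cofinal, hence (abstract part, `Prof/LevelEquiv.lean`) they have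
the same discrete modules and the same `Hlc`, compatibly with localisation.
-/
import Mathlib
import Fermat.Agent.GC.C0.Sha2
import Fermat.Agent.GC.Local.KrasnerBridge
import Fermat.Agent.GC.Places.Levels
import Fermat.Agent.GC.Prof.LevelEquiv

set_option autoImplicit false

noncomputable section

open IntermediateField Fermat.Agent.GC.Local.KR Fermat.Agent.GC.Prof CategoryTheory ExtCitation

namespace Fermat.Agent.GC.Places

local notation "Qb" => AlgebraicClosure ℚ
local notation "GQ" => (AlgebraicClosure ℚ ≃ₐ[ℚ] AlgebraicClosure ℚ)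

section Nat

variable (q : ℕ) [Fact q.Prime]

/-- The level system on `G_{ℚ_q}` induced from all open subgroups of `G_ℚ`. -/
abbrev levelTr : LevelSystem (Gq q) := Fermat.Agent.GC.C0.levelOf (localGaloisToGlobal q)

/-- Krasner: every trace of an open subgroup of `G_ℚ` contains an open subgroup of `G_{ℚ_q}`. -/
theorem isContHom_id_levelQ_levelTr :
    IsContHom (levelQ q) (levelTr q) (MonoidHom.id (Gq q)) := by
  rintro _ ⟨_, ⟨F, hF, rfl⟩, rfl⟩
  have := hF
  obtain ⟨E, hE, hEF⟩ := exists_local_level q F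
  exact ⟨E.fixingSubgroup, ⟨E, hE, rfl⟩, fun τ hτ => hEF τ hτ⟩

/-- Krasner: every open subgroup of `G_{ℚ_q}` contains the trace of an open subgroup of `G_ℚ`. -/
theorem isContHom_id_levelTr_levelQ :
    IsContHom (levelTr q) (levelQ q) (MonoidHom.id (Gq q)) := by
  rintro _ ⟨E, hE, rfl⟩
  have := hE
  obtain ⟨F, hF, hFE⟩ := exists_global_level q E
  exact ⟨F.fixingSubgroup.comap (localGaloisToGlobal q), ⟨_, ⟨F, hF, rfl⟩, rfl⟩,
    fun τ hτ => hFE τ hτ⟩

variable {k : Type} [CommRing k]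

theorem isDiscrete_levelQ_iff (A : Rep k (Gq q)) :
    IsDiscrete (levelQ q) A ↔ IsDiscrete (levelTr q) A :=
  isDiscrete_iff_of_cofinal (isContHom_id_levelQ_levelTr q) (isContHom_id_levelTr_levelQ q) A

theorem isDiscrete_levelQ_of_levelTr (A : Rep k (Gq q)) [IsDiscrete (levelTr q) A] :
    IsDiscrete (levelQ q) A :=
  (isDiscrete_levelQ_iff q A).2 inferInstance

theorem isDiscrete_levelTr_of_levelQ (A : Rep k (Gq q)) [IsDiscrete (levelQ q) A] :
    IsDiscrete (levelTr q) A :=
  (isDiscrete_levelQ_iff q A).1 inferInstance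

/-- `Hlc` of `G_{ℚ_q}` for the two level systems. -/
def HlcTrIso (A : Rep k (Gq q)) [IsDiscrete (levelQ q) A] [IsDiscrete (levelTr q) A] (n : ℕ) :
    Hlc (levelTr q) A n ≅ Hlc (levelQ q) A n :=
  HlcLevelIso A (isContHom_id_levelQ_levelTr q) (isContHom_id_levelTr_levelQ q) n

/-- The linear equivalence underlying `HlcTrIso`. -/
def HlcTrEquiv (A : Rep k (Gq q)) [IsDiscrete (levelQ q) A] [IsDiscrete (levelTr q) A] (n : ℕ) :
    Hlc (levelTr q) A n ≃ₗ[k] Hlc (levelQ q) A n :=
  HlcLevelEquiv A (isContHom_id_levelQ_levelTr q) (isContHom_id_levelTr_levelQ q) n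

@[simp] theorem HlcTrIso_hom (A : Rep k (Gq q)) [IsDiscrete (levelQ q) A]
    [IsDiscrete (levelTr q) A] (n : ℕ) :
    (HlcTrIso q A n).hom = HlcChange A (isContHom_id_levelQ_levelTr q) n := rfl

@[simp] theorem HlcTrEquiv_apply (A : Rep k (Gq q)) [IsDiscrete (levelQ q) A]
    [IsDiscrete (levelTr q) A] (n : ℕ) (x : Hlc (levelTr q) A n) :
    HlcTrEquiv q A n x = HlcChange A (isContHom_id_levelQ_levelTr q) n x := rfl

/-- Naturality of `HlcTrIso` in the coefficients. -/
theorem HlcMap_comp_HlcTrIso {A B : Rep k (Gq q)} [IsDiscrete (levelQ q) A]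
    [IsDiscrete (levelTr q) A] [IsDiscrete (levelQ q) B] [IsDiscrete (levelTr q) B]
    (φ : A ⟶ B) (n : ℕ) :
    HlcMap (levelTr q) φ n ≫ (HlcTrIso q B n).hom =
      (HlcTrIso q A n).hom ≫ HlcMap (levelQ q) φ n :=
  HlcMap_comp_HlcChange _ φ n

/-- Compatibility of `HlcTrIso` with the connecting homomorphisms. -/
theorem Hlcδ_comp_HlcTrIso {X : ShortComplex (Rep k (Gq q))}
    [IsDiscrete (levelQ q) X.X₁] [IsDiscrete (levelQ q) X.X₂] [IsDiscrete (levelQ q) X.X₃]
    [IsDiscrete (levelTr q) X.X₁] [IsDiscrete (levelTr q) X.X₂] [IsDiscrete (levelTr q) X.X₃]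
    (hX : X.ShortExact) (i j : ℕ) (hij : i + 1 = j) :
    Hlcδ (levelTr q) hX i j hij ≫ (HlcTrIso q X.X₁ j).hom =
      (HlcTrIso q X.X₃ i).hom ≫ Hlcδ (levelQ q) hX i j hij :=
  Hlcδ_comp_HlcChange _ hX i j hij

variable (S : Finset Nat.Primes) (M : Rep k GQ) [IsDiscrete (Fermat.Agent.GC.C0.levelS S) M]

/-- **Localisation in the two languages**: localisation at `q` with values in
`Hlc (levelTr q)` (helper59's `HlcLocRes`), followed by `HlcTrIso`, is localisation with values
in `Hlc (levelQ q)`. -/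
theorem HlcRes_comp_HlcTrIso
    [IsDiscrete (levelTr q) (Rep.res (localGaloisToGlobal q) M)]
    [IsDiscrete (levelQ q) (Rep.res (localGaloisToGlobal q) M)] (n : ℕ) :
    HlcRes (Fermat.Agent.GC.C0.isContHom_levelOf (localGaloisToGlobal q) S) M n ≫
        (HlcTrIso q (Rep.res (localGaloisToGlobal q) M) n).hom =
      HlcRes (isContHom_localGaloisToGlobal S q) M n :=
  HlcPull_comp_HlcChange (isContHom_localGaloisToGlobal S q)
    (Fermat.Agent.GC.C0.isContHom_levelOf (localGaloisToGlobal q) S)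
    (isContHom_id_levelQ_levelTr q) (𝟙 _) n

end Nat

/-! ### The same for `q : Nat.Primes` (helper59's `HlcLoc`, `HlcLocRes`, `ShaLc`) -/

section Primes

/-- `q : Nat.Primes` is prime (kept local: no global instance in Mathlib). -/
theorem fact_prime (q : Nat.Primes) : Fact (q : ℕ).Prime := ⟨q.2⟩

attribute [local instance] fact_prime

variable (S : Finset Nat.Primes) {k : Type} [CommRing k] (M : Rep k GQ)
  [IsDiscrete (Fermat.Agent.GC.C0.levelS S) M] (q : Nat.Primes)

theorem primeLocalToGlobal_eq : primeLocalToGlobal q = localGaloisToGlobal (q : ℕ) := rfl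

/-- The local coefficient module at `q`, in PLACES language. -/
abbrev resQ : Rep k (Gq (q : ℕ)) := Rep.res (localGaloisToGlobal (q : ℕ)) M

include S in
theorem isDiscrete_resQ : IsDiscrete (levelQ (q : ℕ)) (resQ M q) :=
  IsDiscrete.res (isContHom_localGaloisToGlobal S (q : ℕ)) M

include S in
theorem isDiscrete_levelTr_resQ : IsDiscrete (levelTr (q : ℕ)) (resQ M q) :=
  Fermat.Agent.GC.C0.isDiscrete_res_levelOf S M (localGaloisToGlobal (q : ℕ))

/-- Local `Hlc` at `q` for the level system `levelQ q` of all open subgroups of `G_{ℚ_q}`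
(the twin of helper59's `C0.HlcLoc`, which uses `levelOf (primeLocalToGlobal q)`). -/
abbrev HlcQ (n : ℕ) : ModuleCat k :=
  @Hlc k (Gq (q : ℕ)) _ _ (levelQ (q : ℕ)) (resQ M q) (isDiscrete_resQ S M q) n

/-- Localisation at `q` with values in `HlcQ`. -/
abbrev HlcQRes (n : ℕ) : Hlc (Fermat.Agent.GC.C0.levelS S) M n ⟶ HlcQ S M q n :=
  haveI := isDiscrete_resQ S M q
  HlcRes (isContHom_localGaloisToGlobal S (q : ℕ)) M n

/-- helper59's local group `HlcLoc S M q n` (level system `levelOf (primeLocalToGlobal q)`) is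
`Hlc (levelQ q) (Res M) n` (level system of all open subgroups of `G_{ℚ_q}`). -/
def HlcLocIso (n : ℕ) : Fermat.Agent.GC.C0.HlcLoc S M q n ≅ HlcQ S M q n :=
  haveI := isDiscrete_resQ S M q
  haveI := isDiscrete_levelTr_resQ S M q
  HlcTrIso (q : ℕ) (resQ M q) n

/-- The linear equivalence underlying `HlcLocIso`. -/
def HlcLocEquiv (n : ℕ) : Fermat.Agent.GC.C0.HlcLoc S M q n ≃ₗ[k] HlcQ S M q n :=
  (HlcLocIso S M q n).toLinearEquiv

/-- helper59's localisation `HlcLocRes` followed by `HlcLocIso` is localisation in PLACES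
language. -/
theorem HlcLocRes_comp_HlcLocIso (n : ℕ) :
    Fermat.Agent.GC.C0.HlcLocRes S M q n ≫ (HlcLocIso S M q n).hom = HlcQRes S M q n :=
  haveI := isDiscrete_resQ S M q
  haveI := isDiscrete_levelTr_resQ S M q
  HlcRes_comp_HlcTrIso (q : ℕ) S M n

theorem HlcLocEquiv_HlcLocRes (n : ℕ) (x : Hlc (Fermat.Agent.GC.C0.levelS S) M n) :
    HlcLocEquiv S M q n ((Fermat.Agent.GC.C0.HlcLocRes S M q n).hom x) = HlcQRes S M q n x :=
  congr($(HlcLocRes_comp_HlcLocIso S M q n) x)

/-- Total localisation over `q ∈ S` with values in the `levelQ`-groups. -/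
def locHlcQ (n : ℕ) :
    Hlc (Fermat.Agent.GC.C0.levelS S) M n →ₗ[k] ∀ q : ↥S, HlcQ S M q.1 n :=
  LinearMap.pi fun q => (HlcQRes S M q.1 n).hom

/-- The product of the `HlcLocEquiv`. -/
def HlcLocPiEquiv (n : ℕ) :
    (∀ q : ↥S, Fermat.Agent.GC.C0.HlcLoc S M q.1 n) ≃ₗ[k] ∀ q : ↥S, HlcQ S M q.1 n :=
  LinearEquiv.piCongrRight fun q => HlcLocEquiv S M q.1 n

theorem HlcLocPiEquiv_comp_locHlc (n : ℕ) :
    (HlcLocPiEquiv S M n).toLinearMap ∘ₗ Fermat.Agent.GC.C0.locHlc S M n = locHlcQ S M n := by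
  apply LinearMap.ext
  intro x
  funext q
  exact HlcLocEquiv_HlcLocRes S M q.1 n x

/-- `ShaLc` is the kernel of the total localisation in PLACES language. -/
theorem ShaLc_eq_ker_locHlcQ (n : ℕ) :
    Fermat.Agent.GC.C0.ShaLc S M n = LinearMap.ker (locHlcQ S M n) := by
  rw [← HlcLocPiEquiv_comp_locHlc, LinearMap.ker_comp, LinearEquiv.ker, Submodule.comap_bot]
  rfl

theorem mem_ShaLc_iff_levelQ (n : ℕ) (x : Hlc (Fermat.Agent.GC.C0.levelS S) M n) :
    x ∈ Fermat.Agent.GC.C0.ShaLc S M n ↔ ∀ q : ↥S, HlcQRes S M q.1 n x = 0 := by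
  rw [ShaLc_eq_ker_locHlcQ, LinearMap.mem_ker]
  exact funext_iff

/-- The range of the total localisation, transported. -/
theorem map_range_locHlc (n : ℕ) :
    (LinearMap.range (Fermat.Agent.GC.C0.locHlc S M n)).map (HlcLocPiEquiv S M n).toLinearMap =
      LinearMap.range (locHlcQ S M n) := by
  rw [← HlcLocPiEquiv_comp_locHlc, LinearMap.range_comp]

end Primes

end Fermat.Agent.GC.Places
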