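/-
GATE-C / PLACES (helper69): the total localisation square for `W = coind_{G_K}^{G_ℚ} A`.

`L = locDataQ S` (helper19), `K/ℚ` finite and unramified outside `S`, `A` a discrete `G_K`-module.
Under global Shapiro `Hlc(G_ℚ, W) ≃ Hlc(G_K, A)` and the product over `q ∈ S` of the local
Mackey–Shapiro decompositions `Hlc(G_q, W) ≃ ∏_{w ∣ q} Hlc(G_{K_w}, A)` (PM2), the total
localisation `locRes L W n` of the cone framework becomes the total localisation
`locResK : Hlc(G_K, A) → ∏_{q ∈ S} ∏_{w ∣ q} Hlc(G_{K_w}, A)` over the places of `K` above `S`.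
Consequences: transport of `ker`, `range`, dimensions (BASE-INST (a), (b)).
-/
import Mathlib
import Fermat.Agent.GC.Places.MackeyPi
import Fermat.Agent.GC.Places.LevelBridge
import Fermat.Agent.GC.PT.LocDataQ

set_option autoImplicit false

noncomputable section

open IntermediateField Fermat.Agent.GC.Local.KR Fermat.Agent.GC.Prof CategoryTheory
open Fermat.Agent.GC.Prof.Cone Fermat.Agent.GC.PT.LocDataQ

namespace Fermat.Agent.GC.Places

local notation "Qb" => AlgebraicClosure ℚ
local notation "GQ" => (AlgebraicClosure ℚ ≃ₐ[ℚ] AlgebraicClosure ℚ)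

attribute [local instance] fact_prime

variable (S : Finset Nat.Primes) (K : IntermediateField ℚ Qb) [FiniteDimensional ℚ K]
  (hK : K.IsUnramifiedOutside S)
variable {k : Type} [CommRing k] (A : Rep k K.fixingSubgroup) [IsDiscrete (levelK S K) A]

/-- `W = coind_{G_K}^{G_ℚ} A`. -/
abbrev coindK : Rep k GQ := Rep.coind K.fixingSubgroup.subtype A

/-- `Hlc(G_K, A)` at the place `ι_q ∘ s` of `K`. -/
abbrev HlcW (q : ℕ) [Fact q.Prime] (s : GQ) (n : ℕ) : ModuleCat k :=
  @Hlc k (locGroup q K s) _ _ (levelLoc q K s) (locCoeff q K A s)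
    (isDiscrete_res_locHom S q K s A) n

/-- Localisation of a class of `Hlc(G_K, A)` at the place `ι_q ∘ s`. -/
abbrev HlcWRes (q : ℕ) [Fact q.Prime] (s : GQ) (n : ℕ) :
    Hlc (levelK S K) A n ⟶ HlcW S K A q s n :=
  haveI := isDiscrete_res_locHom S q K s A
  HlcRes (isContHom_locHom S q K s) A n

/-- **Total localisation over the places of `K` above `S`.** -/
def locResK (n : ℕ) :
    Hlc (levelK S K) A n →ₗ[k]
      ∀ q : ↥S, ∀ w : placeIdx (q.1 : ℕ) K, HlcW S K A (q.1 : ℕ) (placeRep (q.1 : ℕ) K w) n :=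
  LinearMap.pi fun q => LinearMap.pi fun w =>
    (HlcWRes S K A (q.1 : ℕ) (placeRep (q.1 : ℕ) K w) n).hom

omit [FiniteDimensional ℚ K] in
@[simp]
theorem locResK_apply (n : ℕ) (x : Hlc (levelK S K) A n) (q : ↥S) (w : placeIdx (q.1 : ℕ) K) :
    locResK S K A n x q w = HlcWRes S K A (q.1 : ℕ) (placeRep (q.1 : ℕ) K w) n x := rfl

section Main

include hK

/-- Global Shapiro for `W`, as a linear equivalence with all instances supplied. -/
def shapiroK (n : ℕ) :
    @Hlc k GQ _ _ (Fermat.Agent.GC.C0.levelS S) (coindK K A) (isDiscrete_coind_levelS S K A hK) n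
      ≃ₗ[k] Hlc (levelK S K) A n :=
  haveI := isDiscrete_coind_levelS S K A hK
  haveI : IsDiscrete ((Fermat.Agent.GC.C0.levelS S).comap K.fixingSubgroup.subtype) A :=
    ‹IsDiscrete (levelK S K) A›
  HlcShapiroEquiv (isOpenSub_fixingSubgroup S K hK) n A

/-- The product over `q ∈ S` of the local Mackey–Shapiro decompositions. -/
def mackeyS (n : ℕ) :
    (∀ q : ↥S, @Hlc k (Gq (q.1 : ℕ)) _ _ (levelQ (q.1 : ℕ)) (resCoind (q.1 : ℕ) K A)
        (isDiscrete_resCoind S (q.1 : ℕ) K A hK) n) ≃ₗ[k]
      ∀ q : ↥S, ∀ w : placeIdx (q.1 : ℕ) K, HlcW S K A (q.1 : ℕ) (placeRep (q.1 : ℕ) K w) n :=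
  LinearEquiv.piCongrRight fun q =>
    haveI := isDiscrete_resCoind S (q.1 : ℕ) K A hK
    haveI : ∀ w : placeIdx (q.1 : ℕ) K, IsDiscrete (levelLoc (q.1 : ℕ) K (placeRep (q.1 : ℕ) K w))
        (locCoeff (q.1 : ℕ) K A (placeRep (q.1 : ℕ) K w)) :=
      fun _ => isDiscrete_res_locHom S (q.1 : ℕ) K _ A
    haveI : ∀ w : placeIdx (q.1 : ℕ) K,
        IsDiscrete ((levelQ (q.1 : ℕ)).comap (locGroup (q.1 : ℕ) K (placeRep (q.1 : ℕ) K w)).subtype)
          (locCoeff (q.1 : ℕ) K A (placeRep (q.1 : ℕ) K w)) :=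
      fun _ => isDiscrete_res_locHom S (q.1 : ℕ) K _ A
    haveI : ∀ w : placeIdx (q.1 : ℕ) K,
        IsDiscrete (levelQ (q.1 : ℕ)) (locFactor (q.1 : ℕ) K A (placeRep (q.1 : ℕ) K w)) :=
      fun _ => isDiscrete_locFactor S (q.1 : ℕ) K A _
    HlcMackey (q.1 : ℕ) K A n

/-- **The total localisation square**: `mackeyS ∘ locRes (locDataQ S) W = locResK ∘ shapiroK`. -/
theorem mackeyS_locRes (n : ℕ)
    (X : @Hlc k GQ _ _ (Fermat.Agent.GC.C0.levelS S) (coindK K A)
      (isDiscrete_coind_levelS S K A hK) n) :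
    mackeyS S K hK A n
        (@locRes k GQ _ _ (Fermat.Agent.GC.C0.levelS S) (locDataQ S) (coindK K A)
          (isDiscrete_coind_levelS S K A hK) n X) =
      locResK S K A n (shapiroK S K hK A n X) := by
  funext q w
  have := isDiscrete_coind_levelS S K A hK
  have : IsDiscrete ((Fermat.Agent.GC.C0.levelS S).comap K.fixingSubgroup.subtype) A :=
    ‹IsDiscrete (levelK S K) A›
  have := isDiscrete_resCoind S (q.1 : ℕ) K A hK
  have : ∀ w : placeIdx (q.1 : ℕ) K, IsDiscrete (levelLoc (q.1 : ℕ) K (placeRep (q.1 : ℕ) K w))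
      (locCoeff (q.1 : ℕ) K A (placeRep (q.1 : ℕ) K w)) :=
    fun _ => isDiscrete_res_locHom S (q.1 : ℕ) K _ A
  have : ∀ w : placeIdx (q.1 : ℕ) K,
      IsDiscrete ((levelQ (q.1 : ℕ)).comap (locGroup (q.1 : ℕ) K (placeRep (q.1 : ℕ) K w)).subtype)
        (locCoeff (q.1 : ℕ) K A (placeRep (q.1 : ℕ) K w)) :=
    fun _ => isDiscrete_res_locHom S (q.1 : ℕ) K _ A
  have : ∀ w : placeIdx (q.1 : ℕ) K,
      IsDiscrete (levelQ (q.1 : ℕ)) (locFactor (q.1 : ℕ) K A (placeRep (q.1 : ℕ) K w)) :=
    fun _ => isDiscrete_locFactor S (q.1 : ℕ) K A _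
  exact HlcMackey_HlcRes S (q.1 : ℕ) K A n X w

/-- The total localisation of the cone framework for `W = coind A`, with all instances
supplied. -/
abbrev locResW (n : ℕ) :=
  @locRes k GQ _ _ (Fermat.Agent.GC.C0.levelS S) (locDataQ S) (coindK K A)
    (isDiscrete_coind_levelS S K A hK) n

/-- The total localisation square, as an identity of linear maps. -/
theorem mackeyS_comp_locRes (n : ℕ) :
    (mackeyS S K hK A n).toLinearMap ∘ₗ locResW S K hK A n =
      locResK S K A n ∘ₗ (shapiroK S K hK A n).toLinearMap :=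
  LinearMap.ext fun X => mackeyS_locRes S K hK A n X

/-- `locRes (locDataQ S) W n = mackeyS⁻¹ ∘ locResK ∘ shapiroK`. -/
theorem locRes_eq (n : ℕ) :
    locResW S K hK A n =
      (mackeyS S K hK A n).symm.toLinearMap ∘ₗ locResK S K A n ∘ₗ
        (shapiroK S K hK A n).toLinearMap := by
  rw [← mackeyS_comp_locRes, ← LinearMap.comp_assoc]
  ext X : 1
  simp

/-- Kernel transport: a global class of `W` is locally trivial at all `q ∈ S` iff the
corresponding class of `Hlc(G_K, A)` is locally trivial at all places of `K` above `S`. -/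
theorem mem_ker_locRes_iff (n : ℕ)
    (X : @Hlc k GQ _ _ (Fermat.Agent.GC.C0.levelS S) (coindK K A)
      (isDiscrete_coind_levelS S K A hK) n) :
    X ∈ LinearMap.ker (locResW S K hK A n) ↔
      shapiroK S K hK A n X ∈ LinearMap.ker (locResK S K A n) := by
  rw [LinearMap.mem_ker, LinearMap.mem_ker, ← mackeyS_locRes S K hK A n X,
    LinearEquiv.map_eq_zero_iff]
  exact Iff.rfl

/-- The kernels of the two total localisations correspond under Shapiro. -/
def kerLocResEquiv (n : ℕ) :
    LinearMap.ker (locResW S K hK A n) ≃ₗ[k] LinearMap.ker (locResK S K A n) :=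
  LinearEquiv.ofSubmodules (shapiroK S K hK A n) _ _ (by
    ext y
    constructor
    · rintro ⟨X, hX, rfl⟩
      exact (mem_ker_locRes_iff S K hK A n X).1 hX
    · intro hy
      refine ⟨(shapiroK S K hK A n).symm y, ?_, by simp⟩
      rw [SetLike.mem_coe, mem_ker_locRes_iff]
      simpa using hy)

/-- Range transport. -/
theorem map_range_locRes (n : ℕ) :
    (LinearMap.range (locResW S K hK A n)).map (mackeyS S K hK A n).toLinearMap =
      LinearMap.range (locResK S K A n) := by
  have h1 := LinearMap.range_comp (locResW S K hK A n) (mackeyS S K hK A n).toLinearMap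
  have h2 := LinearMap.range_comp (shapiroK S K hK A n).toLinearMap (locResK S K A n)
  have h3 : Submodule.map (locResK S K A n) (LinearMap.range (shapiroK S K hK A n).toLinearMap) =
      LinearMap.range (locResK S K A n) := by
    rw [LinearEquiv.range, Submodule.map_top]
  exact h1.symm.trans ((congrArg LinearMap.range (mackeyS_comp_locRes S K hK A n)).trans
    (h2.trans h3))

/-- The ranges of the two total localisations correspond under the Mackey decomposition. -/
def rangeLocResEquiv (n : ℕ) :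
    LinearMap.range (locResW S K hK A n) ≃ₗ[k] LinearMap.range (locResK S K A n) :=
  LinearEquiv.ofSubmodules (mackeyS S K hK A n) _ _ (map_range_locRes S K hK A n)

theorem finrank_range_locRes (n : ℕ) :
    Module.finrank k (LinearMap.range (locResW S K hK A n)) =
      Module.finrank k (LinearMap.range (locResK S K A n)) :=
  (rangeLocResEquiv S K hK A n).finrank_eq

theorem finrank_ker_locRes (n : ℕ) :
    Module.finrank k (LinearMap.ker (locResW S K hK A n)) =
      Module.finrank k (LinearMap.ker (locResK S K A n)) :=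
  (kerLocResEquiv S K hK A n).finrank_eq

omit [FiniteDimensional ℚ K] in
theorem finrank_Hlc_coindK (n : ℕ) :
    Module.finrank k (@Hlc k GQ _ _ (Fermat.Agent.GC.C0.levelS S) (coindK K A)
      (isDiscrete_coind_levelS S K A hK) n) = Module.finrank k (Hlc (levelK S K) A n) :=
  (shapiroK S K hK A n).finrank_eq

theorem finrank_locTarget (n : ℕ) :
    Module.finrank k (∀ q : ↥S, @Hlc k (Gq (q.1 : ℕ)) _ _ (levelQ (q.1 : ℕ))
        (resCoind (q.1 : ℕ) K A) (isDiscrete_resCoind S (q.1 : ℕ) K A hK) n) =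
      Module.finrank k (∀ q : ↥S, ∀ w : placeIdx (q.1 : ℕ) K,
        HlcW S K A (q.1 : ℕ) (placeRep (q.1 : ℕ) K w) n) :=
  (mackeyS S K hK A n).finrank_eq

/-- Injectivity transport (used in degree `0`). -/
theorem injective_locRes_iff (n : ℕ) :
    Function.Injective (locResW S K hK A n) ↔ Function.Injective (locResK S K A n) := by
  rw [← LinearMap.ker_eq_bot, ← LinearMap.ker_eq_bot]
  constructor
  · intro h
    rw [Submodule.eq_bot_iff]
    intro y hy
    have : (shapiroK S K hK A n).symm y ∈ LinearMap.ker (locResW S K hK A n) := by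
      rw [mem_ker_locRes_iff]
      simpa using hy
    rw [h, Submodule.mem_bot] at this
    simpa using congrArg (shapiroK S K hK A n) this
  · intro h
    rw [Submodule.eq_bot_iff]
    intro X hX
    have := (mem_ker_locRes_iff S K hK A n X).1 hX
    rw [h, Submodule.mem_bot] at this
    exact (LinearEquiv.map_eq_zero_iff _).1 this

/-- **Cokernel bound transport** (BASE-INST (b)): the bound
`dim ∏ Hlcⁿ(G_q, W) ≤ dim range(loc) + c` follows from the same bound over the places of `K`. -/
theorem finrank_le_range_locRes_add (n c : ℕ)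
    (h : Module.finrank k (∀ q : ↥S, ∀ w : placeIdx (q.1 : ℕ) K,
        HlcW S K A (q.1 : ℕ) (placeRep (q.1 : ℕ) K w) n) ≤
      Module.finrank k (LinearMap.range (locResK S K A n)) + c) :
    Module.finrank k (∀ q : ↥S, @Hlc k (Gq (q.1 : ℕ)) _ _ (levelQ (q.1 : ℕ))
        (resCoind (q.1 : ℕ) K A) (isDiscrete_resCoind S (q.1 : ℕ) K A hK) n) ≤
      Module.finrank k (LinearMap.range (locResW S K hK A n)) + c := by
  rw [finrank_locTarget S K hK A n, finrank_range_locRes S K hK A n]
  exact h

end Main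

end Fermat.Agent.GC.Places
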