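/-
GATE-C / BASE-INST (c) (helper20): local perfectness for `W = coind_{G_K}^{G_ℚ} A` from local
perfectness at the places of `K`.

`L = locDataQ S`, `K/ℚ` finite unramified outside `S`, `A A' : Rep k G_K` discrete, `P : Rep k G_ℚ`
discrete, `B : A × A' → P|_{G_K}` equivariant, `tr` a trace on `(coneC L P)³`.  For `v ∈ S` the
local pairing `lamAt L _ htr h v` of helper19's `BaseInst.lean` for the trace pairing
`coindTr G_K B : W × W' → P` decomposes (MACKEY-CUP, `HlcCup_resCoind`) as the orthogonal sum over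
the places `w ∣ v` of `K` of

  `locLam w (x, y) = locTrAt v (cor_w (x ∪_{B_w} y))`,   `x ∈ Hlcⁱ(G_{K_w}, A)`, `y ∈ Hlcʲ(G_{K_w}, A')`

through the PM2 decomposition `HlcMackey` (helper69).  Hence `lamAt v` is perfect as soon as every
`locLam w` is (`lamAt_coindTr_bijective`).
-/
import Fermat.Agent.GC.Places.MackeyCupInst
import Fermat.Agent.GC.Places.TotalLoc
import Fermat.Agent.GC.PT.BaseInst

set_option autoImplicit false

noncomputable section

open IntermediateField Fermat.Agent.GC.Local.KR Fermat.Agent.GC.Prof CategoryTheory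
open Fermat.Agent.GC.Prof.Cone Fermat.Agent.GC.PT.LocDataQ Fermat.Agent.GC.PT.ConeE8
open Fermat.Agent.GC.PT.BaseInst
open Fermat.Agent.GC.Prof.Cup (Equivariant)

namespace Fermat.Agent.GC.Places

local notation "Qb" => AlgebraicClosure ℚ
local notation "GQ" => (AlgebraicClosure ℚ ≃ₐ[ℚ] AlgebraicClosure ℚ)

attribute [local instance] fact_prime

variable (S : Finset Nat.Primes) (K : IntermediateField ℚ Qb) [FiniteDimensional ℚ K]
variable {k : Type} [Field k] {A A' : Rep k K.fixingSubgroup}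
  [IsDiscrete (levelK S K) A] [IsDiscrete (levelK S K) A']
  {P : Rep k GQ} [IsDiscrete (Fermat.Agent.GC.C0.levelS S) P]
  (B : A →ₗ[k] A' →ₗ[k] (Rep.res K.fixingSubgroup.subtype P))
  (hB : Equivariant A.ρ A'.ρ (Rep.res K.fixingSubgroup.subtype P).ρ B)
  {tr : (coneC (locDataQ S) P).X 3 →ₗ[k] k}
  (htr : ∀ e : (coneC (locDataQ S) P).X 2, tr (((coneC (locDataQ S) P).d 2 3).hom e) = 0)

include S in
/-- `P` restricted to `G_{ℚ_q}` is discrete. -/
theorem isDiscrete_res_r (q : ℕ) [Fact q.Prime] :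
    IsDiscrete (levelQ q) (Rep.res (localGaloisToGlobal q) P) :=
  IsDiscrete.res (isContHom_localGaloisToGlobal S q) P

omit [FiniteDimensional ℚ K] in
include S in
/-- `P` restricted to the local group at `ι ∘ s` is discrete. -/
theorem isDiscrete_locTarget (q : ℕ) [Fact q.Prime] (s : GQ) :
    IsDiscrete (levelLoc q K s) (locTarget q K P s) :=
  haveI := isDiscrete_res_r S (P := P) q
  IsDiscrete.res (isContHom_subtype_levelLoc q K s) _

/-- `Hlc²(G_{K_w}, P)`, with all instances supplied. -/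
abbrev HlcWP (q : ℕ) [Fact q.Prime] (s : GQ) (n : ℕ) : ModuleCat k :=
  @Hlc k (locGroup q K s) _ _ (levelLoc q K s) (locTarget q K P s)
    (isDiscrete_locTarget S K q s) n

/-- Corestriction `Hlcⁿ(G_{K_w}, P) → Hlcⁿ(G_{ℚ_q}, P)`, with all instances supplied. -/
def corW (q : ℕ) [Fact q.Prime] (s : GQ) (n : ℕ) :
    HlcWP S K (P := P) q s n →ₗ[k]
      @Hlc k (Gq q) _ _ (levelQ q) (Rep.res (localGaloisToGlobal q) P)
        (isDiscrete_res_r S q) n :=
  haveI := isDiscrete_res_r S (P := P) q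
  haveI : IsDiscrete ((levelQ q).comap (locGroup q K s).subtype) (locTarget q K P s) :=
    isDiscrete_locTarget S K q s
  haveI := (isOpenSub_locGroup q K s).finiteIndex
  haveI : IsDiscrete (levelQ q) (Rep.coind (locGroup q K s).subtype (locTarget q K P s)) :=
    isDiscrete_coind (isOpenSub_locGroup q K s) _
  (HlcCor (Rep.res (localGaloisToGlobal q) P) (isOpenSub_locGroup q K s) n).hom

/-- The cup product over `G_{K_w}` for the pairing `B_w`, with all instances supplied. -/
def cupW (q : ℕ) [Fact q.Prime] (s : GQ) {i j n : ℕ} (h : i + j = n) :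
    HlcW S K A q s i →ₗ[k] HlcW S K A' q s j →ₗ[k] HlcWP S K (P := P) q s n :=
  haveI := isDiscrete_res_locHom S q K s A
  haveI := isDiscrete_res_locHom S q K s A'
  haveI := isDiscrete_locTarget S K (P := P) q s
  HlcCup (levelLoc q K s) (locPair q K B s) (locPair_equivariant q K B hB s) h

/-- The Mackey component at the place `ι ∘ s`, with all instances supplied. -/
def compW (hK : K.IsUnramifiedOutside S) (A : Rep k K.fixingSubgroup) [IsDiscrete (levelK S K) A]
    (q : ℕ) [Fact q.Prime] (s : GQ) (n : ℕ) :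
    @Hlc k (Gq q) _ _ (levelQ q) (resCoind q K A) (isDiscrete_resCoind S q K A hK) n →ₗ[k]
      HlcW S K A q s n :=
  haveI := isDiscrete_resCoind S q K A hK
  haveI := isDiscrete_res_locHom S q K s A
  haveI : IsDiscrete ((levelQ q).comap (locGroup q K s).subtype) (locCoeff q K A s) :=
    isDiscrete_res_locHom S q K s A
  haveI := isDiscrete_locFactor S q K A s
  (HlcMackeyComp q K A s n).hom

/-- The components `compW` at the chosen representatives of the places above `q` form a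
bijection (PM2). -/
theorem compW_pi_bijective (hK : K.IsUnramifiedOutside S) (A : Rep k K.fixingSubgroup)
    [IsDiscrete (levelK S K) A] (q : ℕ) [Fact q.Prime] (n : ℕ) :
    Function.Bijective (LinearMap.pi fun w : placeIdx q K =>
      compW S K hK A q (placeRep q K w) n) := by
  have := isDiscrete_resCoind S q K A hK
  have : ∀ w : placeIdx q K, IsDiscrete (levelLoc q K (placeRep q K w))
      (locCoeff q K A (placeRep q K w)) := fun _ => isDiscrete_res_locHom S q K _ A
  have : ∀ w : placeIdx q K,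
      IsDiscrete ((levelQ q).comap (locGroup q K (placeRep q K w)).subtype)
        (locCoeff q K A (placeRep q K w)) := fun _ => isDiscrete_res_locHom S q K _ A
  have : ∀ w : placeIdx q K, IsDiscrete (levelQ q) (locFactor q K A (placeRep q K w)) :=
    fun _ => isDiscrete_locFactor S q K A _
  have h : (⇑(LinearMap.pi fun w : placeIdx q K => compW S K hK A q (placeRep q K w) n)) =
      ⇑(HlcMackey q K A n) := by
    funext x w
    exact (HlcMackey_apply q K A n x w).symm
  rw [h]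
  exact (HlcMackey q K A n).bijective

/-- The local pairing at the place `w ∣ v` of `K`:
`(x, y) ↦ locTrAt v (cor_w (x ∪_{B_w} y))`. -/
def locLam {i j : ℕ} (h : i + j = 2) (v : ↥S) (w : placeIdx (v.1 : ℕ) K) :
    HlcW S K A (v.1 : ℕ) (placeRep (v.1 : ℕ) K w) i →ₗ[k]
      HlcW S K A' (v.1 : ℕ) (placeRep (v.1 : ℕ) K w) j →ₗ[k] k :=
  (cupW S K B hB (v.1 : ℕ) (placeRep (v.1 : ℕ) K w) h).compr₂
    (locTrAt (locDataQ S) htr v ∘ₗ corW S K (P := P) (v.1 : ℕ) (placeRep (v.1 : ℕ) K w) 2)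

section Main

variable (hK : K.IsUnramifiedOutside S) [K.fixingSubgroup.FiniteIndex]
  [IsDiscrete (Fermat.Agent.GC.C0.levelS S) (coindK K A)]
  [IsDiscrete (Fermat.Agent.GC.C0.levelS S) (coindK K A')]

/-- `Hlcⁿ(G_v, W)` for `W = coind A` in the shape of the cone framework (`L = locDataQ S`), with
the instance supplied. -/
abbrev HlcLocW (A : Rep k K.fixingSubgroup)
    [IsDiscrete (Fermat.Agent.GC.C0.levelS S) (coindK K A)] (v : (locDataQ S).ι) (n : ℕ) :
    ModuleCat k :=
  @Hlc k _ _ _ ((locDataQ S).𝒰v v) (Rep.res ((locDataQ S).r v) (coindK K A))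
    (LocalData.isDiscrete_res (locDataQ S) v (coindK K A)) n

/-- **MACKEY-CUP for the local pairings of the cone framework**: at `v ∈ S`, the local pairing of
`W = coind A`, `W' = coind A'` for the trace pairing `coindTr G_K B` is the orthogonal sum of the
local pairings `locLam w` at the places `w ∣ v` of `K`, through the PM2 decomposition. -/
theorem lamAt_coindTr_apply {i j : ℕ} (h : i + j = 2) (v : (locDataQ S).ι)
    [Fintype (placeIdx (v.1 : ℕ) K)]
    (x : HlcLocW S K A v i) (y : HlcLocW S K A' v j) :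
    lamAt (locDataQ S) (coindTr_equivariant K.fixingSubgroup B hB) htr h v x y =
      ∑ w : placeIdx (v.1 : ℕ) K,
        locLam S K B hB htr h v w
          (compW S K hK A (v.1 : ℕ) (placeRep (v.1 : ℕ) K w) i x)
          (compW S K hK A' (v.1 : ℕ) (placeRep (v.1 : ℕ) K w) j y) := by
  have i1 := isDiscrete_resCoind S (v.1 : ℕ) K A hK
  have i2 := isDiscrete_resCoind S (v.1 : ℕ) K A' hK
  have i3 := isDiscrete_res_r S (P := P) (v.1 : ℕ)
  have i4 : ∀ w : placeIdx (v.1 : ℕ) K, IsDiscrete (levelLoc (v.1 : ℕ) K (placeRep (v.1 : ℕ) K w))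
      (locCoeff (v.1 : ℕ) K A (placeRep (v.1 : ℕ) K w)) :=
    fun _ => isDiscrete_res_locHom S (v.1 : ℕ) K _ A
  have i5 : ∀ w : placeIdx (v.1 : ℕ) K, IsDiscrete (levelLoc (v.1 : ℕ) K (placeRep (v.1 : ℕ) K w))
      (locCoeff (v.1 : ℕ) K A' (placeRep (v.1 : ℕ) K w)) :=
    fun _ => isDiscrete_res_locHom S (v.1 : ℕ) K _ A'
  have i6 : ∀ w : placeIdx (v.1 : ℕ) K,
      IsDiscrete ((levelQ (v.1 : ℕ)).comap (locGroup (v.1 : ℕ) K (placeRep (v.1 : ℕ) K w)).subtype)
        (locCoeff (v.1 : ℕ) K A (placeRep (v.1 : ℕ) K w)) :=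
    fun _ => isDiscrete_res_locHom S (v.1 : ℕ) K _ A
  have i7 : ∀ w : placeIdx (v.1 : ℕ) K,
      IsDiscrete ((levelQ (v.1 : ℕ)).comap (locGroup (v.1 : ℕ) K (placeRep (v.1 : ℕ) K w)).subtype)
        (locCoeff (v.1 : ℕ) K A' (placeRep (v.1 : ℕ) K w)) :=
    fun _ => isDiscrete_res_locHom S (v.1 : ℕ) K _ A'
  have i8 : ∀ w : placeIdx (v.1 : ℕ) K, IsDiscrete (levelLoc (v.1 : ℕ) K (placeRep (v.1 : ℕ) K w))
      (locTarget (v.1 : ℕ) K P (placeRep (v.1 : ℕ) K w)) :=
    fun _ => isDiscrete_locTarget S K (v.1 : ℕ) _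
  have i9 : ∀ w : placeIdx (v.1 : ℕ) K,
      IsDiscrete ((levelQ (v.1 : ℕ)).comap (locGroup (v.1 : ℕ) K (placeRep (v.1 : ℕ) K w)).subtype)
        (locTarget (v.1 : ℕ) K P (placeRep (v.1 : ℕ) K w)) :=
    fun _ => isDiscrete_locTarget S K (v.1 : ℕ) _
  have i10 : ∀ w : placeIdx (v.1 : ℕ) K,
      IsDiscrete (levelQ (v.1 : ℕ)) (locFactor (v.1 : ℕ) K A (placeRep (v.1 : ℕ) K w)) :=
    fun _ => isDiscrete_locFactor S (v.1 : ℕ) K A _
  have i11 : ∀ w : placeIdx (v.1 : ℕ) K,
      IsDiscrete (levelQ (v.1 : ℕ)) (locFactor (v.1 : ℕ) K A' (placeRep (v.1 : ℕ) K w)) :=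
    fun _ => isDiscrete_locFactor S (v.1 : ℕ) K A' _
  have i12 : ∀ w : placeIdx (v.1 : ℕ) K,
      (locGroup (v.1 : ℕ) K (placeRep (v.1 : ℕ) K w)).FiniteIndex :=
    fun _ => (isOpenSub_locGroup (v.1 : ℕ) K _).finiteIndex
  have i13 : ∀ w : placeIdx (v.1 : ℕ) K, IsDiscrete (levelQ (v.1 : ℕ))
      (Rep.coind (locGroup (v.1 : ℕ) K (placeRep (v.1 : ℕ) K w)).subtype
        (locTarget (v.1 : ℕ) K P (placeRep (v.1 : ℕ) K w))) :=
    fun _ => isDiscrete_coind (isOpenSub_locGroup (v.1 : ℕ) K _) _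
  have key := HlcCup_resCoind (v.1 : ℕ) K B hB h x y
  rw [lamAt_apply]
  refine (congrArg (locTrAt (locDataQ S) htr v) key).trans ?_
  exact map_sum (locTrAt (locDataQ S) htr v) _ Finset.univ

include hK in
/-- **Local perfectness for `W = coind_{G_K}^{G_ℚ} A` from local perfectness at the places of
`K`** (BASE-INST (c)): the local pairing at `v ∈ S` for the trace pairing `coindTr G_K B` is
perfect as soon as the pairings `locLam w`, `w ∣ v`, are. -/
theorem lamAt_coindTr_bijective {i j : ℕ} (h : i + j = 2) (v : (locDataQ S).ι)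
    (hQ : ∀ w : placeIdx (v.1 : ℕ) K, Function.Bijective (locLam S K B hB htr h v w)) :
    Function.Bijective
      (lamAt (locDataQ S) (coindTr_equivariant K.fixingSubgroup B hB) htr h v) := by
  let _ : Fintype (placeIdx (v.1 : ℕ) K) := Fintype.ofFinite _
  let _ : DecidableEq (placeIdx (v.1 : ℕ) K) := Classical.decEq _
  refine Fermat.Agent.GC.PT.BaseInstLA.bijective_of_sum_decomp
    (lamAt (locDataQ S) (coindTr_equivariant K.fixingSubgroup B hB) htr h v)
    (locLam S K B hB htr h v)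
    (fun w => compW S K hK A (v.1 : ℕ) (placeRep (v.1 : ℕ) K w) i)
    (fun w => compW S K hK A' (v.1 : ℕ) (placeRep (v.1 : ℕ) K w) j)
    (fun _ => 1) (fun _ => one_ne_zero) ?_
    (compW_pi_bijective S K hK A (v.1 : ℕ) i) (compW_pi_bijective S K hK A' (v.1 : ℕ) j) hQ
  intro x y
  rw [lamAt_coindTr_apply S K B hB htr hK h v x y]
  exact Finset.sum_congr rfl fun w _ => (one_mul _).symm

end Main

end Fermat.Agent.GC.Places
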