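/-
GATE-C / C5 dualK-GLUE (helper61): the hypothesis `hQ` of helper20's `lamAt_coindTr_bijective` at
the BASE specialisation `A = A' = 𝔽_p` (trivial), `P = 𝔽_p(χ_cyc)`, `B = mulS G_K χ_cyc`
(`χ_cyc|_{G_K} = 1`): the local pairings

  `locLam w (x, y) = locTrAt v (cor_w (x ∪ y))`,  `x ∈ Hlcⁱ(G_{K_w}, 𝔽_p)`, `y ∈ Hlc^{2-i}(G_{K_w}, 𝔽_p)`

are perfect for `(i, 2-i) = (1,1), (0,2), (2,0)`, from
* (I): `locTrAt v` injective on `Hlc²(G_{ℚ_q}, 𝔽_p(χ))`;
* (COR-INJ) (helper21 `CorInjLoc`);
* local perfectness (helper61 `PerfectLoc`), needing `ζ_p ∈ K_w`;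
* `FiniteDimensional Hlc¹(G_{K_w}, 𝔽_p)` resp. `finrank Hlc²(G_{K_w}, 𝔽_p(χ)) = 1` (LOCAL-NUM).
-/
import Mathlib
import Fermat.Agent.GC.Places.MackeyCupLam
import Fermat.Agent.GC.Places.CorInjLoc
import Fermat.Agent.GC.Local.Hilbert.PerfectLoc

set_option autoImplicit false

noncomputable section

open IntermediateField Fermat.Agent.GC.Local.KR Fermat.Agent.GC.Prof CategoryTheory
open Fermat.Agent.GC.Prof.Cone Fermat.Agent.GC.PT.LocDataQ Fermat.Agent.GC.PT.ConeE8
open Fermat.Agent.GC.PT.BaseInst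
open Fermat.Agent.GC.Prof.Cup (Equivariant)
open Fermat.Agent.GC.Local.Hilbert ExtCitation
open scoped Padic

namespace Fermat.Agent.GC.Places.DualK

open Fermat.Agent.GC.Places

local notation "Qb" => AlgebraicClosure ℚ
local notation "GQ" => (AlgebraicClosure ℚ ≃ₐ[ℚ] AlgebraicClosure ℚ)

attribute [local instance] fact_prime

variable (S : Finset Nat.Primes) (K : IntermediateField ℚ Qb) [FiniteDimensional ℚ K]
  (p : ℕ) [Fact p.Prime]
  [IsDiscrete (levelK S K) (Rep.trivial (ZMod p) K.fixingSubgroup (ZMod p))]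
  [IsDiscrete (Fermat.Agent.GC.C0.levelS S) (chiRep (cycloChar p))]
  (hχ : ∀ g : K.fixingSubgroup, cycloChar p (g : GQ) = 1)
  {tr : (coneC (locDataQ S) (chiRep (cycloChar p))).X 3 →ₗ[ZMod p] ZMod p}
  (htr : ∀ e : (coneC (locDataQ S) (chiRep (cycloChar p))).X 2,
    tr (((coneC (locDataQ S) (chiRep (cycloChar p))).d 2 3).hom e) = 0)

/-- `Hlc²(G_{ℚ_q}, 𝔽_p(χ))`, with the instance supplied. -/
abbrev HlcQP (q : ℕ) [Fact q.Prime] : ModuleCat (ZMod p) :=
  @Hlc (ZMod p) (Gq q) _ _ (levelQ q) (Rep.res (localGaloisToGlobal q) (chiRep (cycloChar p)))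
    (isDiscrete_res_r S q) 2

omit [IsDiscrete (levelK S K) (Rep.trivial (ZMod p) K.fixingSubgroup (ZMod p))] in
/-- `τ_w = τ_q ∘ cor_w` is injective. -/
theorem injective_comp_corW (q : ℕ) [Fact q.Prime] (s : GQ)
    (τq : HlcQP S p q →ₗ[ZMod p] ZMod p) (hI : Function.Injective τq) :
    Function.Injective (τq ∘ₗ corW S K (P := chiRep (cycloChar p)) q s 2) := by
  have := isDiscrete_res_r S (P := chiRep (cycloChar p)) q
  have : IsDiscrete ((levelQ q).comap (locGroup q K s).subtype)
      (locTarget q K (chiRep (cycloChar p)) s) := isDiscrete_locTarget S K q s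
  have := (isOpenSub_locGroup q K s).finiteIndex
  have : IsDiscrete (levelQ q) (Rep.coind (locGroup q K s).subtype
      (locTarget q K (chiRep (cycloChar p)) s)) :=
    isDiscrete_coind (isOpenSub_locGroup q K s) _
  exact hI.comp (CorInjLoc.HlcCor_two_locGroup_injective p q K s)

omit [FiniteDimensional ℚ K]
  [IsDiscrete (levelK S K) (Rep.trivial (ZMod p) K.fixingSubgroup (ZMod p))]
  [IsDiscrete (Fermat.Agent.GC.C0.levelS S) (chiRep (cycloChar p))] in
/-- an injective functional on a line is bijective. -/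
theorem bijective_of_injective_of_finrank_eq_one {k V : Type*} [Field k] [AddCommGroup V]
    [Module k V] (τ : V →ₗ[k] k) (hτ : Function.Injective τ) (h1 : Module.finrank k V = 1) :
    Function.Bijective τ := by
  have : FiniteDimensional k V := Module.finite_of_finrank_pos (by rw [h1]; exact one_pos)
  refine ⟨hτ, ?_⟩
  rw [← LinearMap.injective_iff_surjective_of_finrank_eq_finrank (by rw [h1, Module.finrank_self])]
  exact hτ

omit [IsDiscrete (levelK S K) (Rep.trivial (ZMod p) K.fixingSubgroup (ZMod p))] in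
/-- `τ_w = τ_q ∘ cor_w` is bijective when `Hlc²(G_{K_w}, 𝔽_p(χ))` is a line. -/
theorem bijective_comp_corW (q : ℕ) [Fact q.Prime] (s : GQ)
    (τq : HlcQP S p q →ₗ[ZMod p] ZMod p) (hI : Function.Injective τq)
    (h2 : Module.finrank (ZMod p) (HlcWP S K (P := chiRep (cycloChar p)) q s 2) = 1) :
    Function.Bijective (τq ∘ₗ corW S K (P := chiRep (cycloChar p)) q s 2) :=
  bijective_of_injective_of_finrank_eq_one _ (injective_comp_corW S K p q s τq hI) h2

/-! ### The pairings `(x, y) ↦ τ_q (cor_w (x ∪ y))` -/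

/-- **local duality at `w`, bidegree `(1,1)`**, for any injective `τ_q`. -/
theorem cupW_bijective_one_one (q : ℕ) [Fact q.Prime] (s : GQ)
    (τq : HlcQP S p q →ₗ[ZMod p] ZMod p) (hI : Function.Injective τq)
    {ζ : locField q K s} (hζ : IsPrimitiveRoot ζ p)
    [FiniteDimensional (ZMod p)
      (HlcW S K (Rep.trivial (ZMod p) K.fixingSubgroup (ZMod p)) q s 1)]
    (h : 1 + 1 = 2) :
    Function.Bijective ((cupW S K (mulS K.fixingSubgroup (cycloChar p))
      (mulS_equivariant K.fixingSubgroup (cycloChar p) hχ) q s h).compr₂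
        (τq ∘ₗ corW S K (P := chiRep (cycloChar p)) q s 2)) := by
  have := isDiscrete_res_locHom S q K s (Rep.trivial (ZMod p) K.fixingSubgroup (ZMod p))
  have := isDiscrete_locTarget S K (P := chiRep (cycloChar p)) q s
  exact bijective_loc_one_one q K s (cycloChar p) hχ hζ
    (τq ∘ₗ corW S K (P := chiRep (cycloChar p)) q s 2)
    (injective_comp_corW S K p q s τq hI) h

/-- the flipped `(1,1)` form. -/
theorem cupW_bijective_one_one_flip (q : ℕ) [Fact q.Prime] (s : GQ)
    (τq : HlcQP S p q →ₗ[ZMod p] ZMod p) (hI : Function.Injective τq)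
    {ζ : locField q K s} (hζ : IsPrimitiveRoot ζ p)
    [FiniteDimensional (ZMod p)
      (HlcW S K (Rep.trivial (ZMod p) K.fixingSubgroup (ZMod p)) q s 1)]
    (h : 1 + 1 = 2) :
    Function.Bijective ((cupW S K (mulS K.fixingSubgroup (cycloChar p))
      (mulS_equivariant K.fixingSubgroup (cycloChar p) hχ) q s h).compr₂
        (τq ∘ₗ corW S K (P := chiRep (cycloChar p)) q s 2)).flip := by
  have := isDiscrete_res_locHom S q K s (Rep.trivial (ZMod p) K.fixingSubgroup (ZMod p))
  have := isDiscrete_locTarget S K (P := chiRep (cycloChar p)) q s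
  exact bijective_loc_one_one_flip q K s (cycloChar p) hχ hζ
    (τq ∘ₗ corW S K (P := chiRep (cycloChar p)) q s 2)
    (injective_comp_corW S K p q s τq hI) h

/-- **local duality at `w`, bidegree `(0,2)`.** -/
theorem cupW_bijective_zero_two (q : ℕ) [Fact q.Prime] (s : GQ)
    (τq : HlcQP S p q →ₗ[ZMod p] ZMod p) (hI : Function.Injective τq)
    (h2 : Module.finrank (ZMod p) (HlcWP S K (P := chiRep (cycloChar p)) q s 2) = 1)
    (h : 0 + 2 = 2) :
    Function.Bijective ((cupW S K (mulS K.fixingSubgroup (cycloChar p))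
      (mulS_equivariant K.fixingSubgroup (cycloChar p) hχ) q s h).compr₂
        (τq ∘ₗ corW S K (P := chiRep (cycloChar p)) q s 2)) := by
  have := isDiscrete_res_locHom S q K s (Rep.trivial (ZMod p) K.fixingSubgroup (ZMod p))
  have := isDiscrete_locTarget S K (P := chiRep (cycloChar p)) q s
  exact bijective_loc_zero_two q K s (cycloChar p) hχ
    (τq ∘ₗ corW S K (P := chiRep (cycloChar p)) q s 2)
    (bijective_comp_corW S K p q s τq hI h2) h

/-- **local duality at `w`, bidegree `(2,0)`.** -/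
theorem cupW_bijective_two_zero (q : ℕ) [Fact q.Prime] (s : GQ)
    (τq : HlcQP S p q →ₗ[ZMod p] ZMod p) (hI : Function.Injective τq)
    (h2 : Module.finrank (ZMod p) (HlcWP S K (P := chiRep (cycloChar p)) q s 2) = 1)
    (h : 2 + 0 = 2) :
    Function.Bijective ((cupW S K (mulS K.fixingSubgroup (cycloChar p))
      (mulS_equivariant K.fixingSubgroup (cycloChar p) hχ) q s h).compr₂
        (τq ∘ₗ corW S K (P := chiRep (cycloChar p)) q s 2)) := by
  have := isDiscrete_res_locHom S q K s (Rep.trivial (ZMod p) K.fixingSubgroup (ZMod p))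
  have := isDiscrete_locTarget S K (P := chiRep (cycloChar p)) q s
  exact bijective_loc_two_zero q K s (cycloChar p) hχ
    (τq ∘ₗ corW S K (P := chiRep (cycloChar p)) q s 2)
    (bijective_comp_corW S K p q s τq hI h2) h

/-! ### `hQ` of `lamAt_coindTr_bijective` -/

/-- **`hQ`, bidegree `(1,1)`.** -/
theorem locLam_bijective_one_one (v : ↥S) (w : placeIdx (v.1 : ℕ) K)
    (hI : Function.Injective (locTrAt (locDataQ S) htr v))
    {ζ : locField (v.1 : ℕ) K (placeRep (v.1 : ℕ) K w)} (hζ : IsPrimitiveRoot ζ p)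
    [FiniteDimensional (ZMod p) (HlcW S K (Rep.trivial (ZMod p) K.fixingSubgroup (ZMod p))
      (v.1 : ℕ) (placeRep (v.1 : ℕ) K w) 1)]
    (h : 1 + 1 = 2) :
    Function.Bijective (locLam S K (mulS K.fixingSubgroup (cycloChar p))
      (mulS_equivariant K.fixingSubgroup (cycloChar p) hχ) htr h v w) :=
  cupW_bijective_one_one S K p hχ (v.1 : ℕ) (placeRep (v.1 : ℕ) K w)
    (locTrAt (locDataQ S) htr v) hI hζ h

/-- **`hQ`, bidegree `(0,2)`.** -/
theorem locLam_bijective_zero_two (v : ↥S) (w : placeIdx (v.1 : ℕ) K)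
    (hI : Function.Injective (locTrAt (locDataQ S) htr v))
    (h2 : Module.finrank (ZMod p)
      (HlcWP S K (P := chiRep (cycloChar p)) (v.1 : ℕ) (placeRep (v.1 : ℕ) K w) 2) = 1)
    (h : 0 + 2 = 2) :
    Function.Bijective (locLam S K (mulS K.fixingSubgroup (cycloChar p))
      (mulS_equivariant K.fixingSubgroup (cycloChar p) hχ) htr h v w) :=
  cupW_bijective_zero_two S K p hχ (v.1 : ℕ) (placeRep (v.1 : ℕ) K w)
    (locTrAt (locDataQ S) htr v) hI h2 h

/-- **`hQ`, bidegree `(2,0)`.** -/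
theorem locLam_bijective_two_zero (v : ↥S) (w : placeIdx (v.1 : ℕ) K)
    (hI : Function.Injective (locTrAt (locDataQ S) htr v))
    (h2 : Module.finrank (ZMod p)
      (HlcWP S K (P := chiRep (cycloChar p)) (v.1 : ℕ) (placeRep (v.1 : ℕ) K w) 2) = 1)
    (h : 2 + 0 = 2) :
    Function.Bijective (locLam S K (mulS K.fixingSubgroup (cycloChar p))
      (mulS_equivariant K.fixingSubgroup (cycloChar p) hχ) htr h v w) :=
  cupW_bijective_two_zero S K p hχ (v.1 : ℕ) (placeRep (v.1 : ℕ) K w)
    (locTrAt (locDataQ S) htr v) hI h2 h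

/-! ### `ζ_p ∈ K ⟹ ζ_p ∈ K_w` -/

omit [FiniteDimensional ℚ K] [Fact p.Prime]
  [IsDiscrete (levelK S K) (Rep.trivial (ZMod p) K.fixingSubgroup (ZMod p))]
  [IsDiscrete (Fermat.Agent.GC.C0.levelS S) (chiRep (cycloChar p))] in
/-- a primitive `p`-th root of unity of `K` gives one in every local field of `K`. -/
theorem exists_primitiveRoot_locField {ζ : K} (hζ : IsPrimitiveRoot ζ p) (q : ℕ) [Fact q.Prime]
    (s : GQ) : ∃ ζ' : locField q K s, IsPrimitiveRoot ζ' p := by
  refine ⟨⟨padicEmbedding q (s (ζ : Qb)), padicEmbedding_apply_mem_locField q s ζ.2⟩, ?_⟩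
  have h1 : IsPrimitiveRoot (ζ : Qb) p := hζ.map_of_injective (f := K.val) K.val.injective
  have h2 : IsPrimitiveRoot (s (ζ : Qb)) p := h1.map_of_injective (f := s) s.injective
  have h3 : IsPrimitiveRoot (padicEmbedding q (s (ζ : Qb))) p :=
    h2.map_of_injective (f := padicEmbedding q) (padicEmbedding q).injective
  exact IsPrimitiveRoot.of_map_of_injective (f := (locField q K s).val) h3
    (locField q K s).val.injective

/-! ### The local pairings `lamAt v` of `W = coind_{G_K}(𝔽_p)` are perfect -/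

section Packaged

variable (hK : K.IsUnramifiedOutside S) [K.fixingSubgroup.FiniteIndex]
  [IsDiscrete (Fermat.Agent.GC.C0.levelS S)
    (coindK K (Rep.trivial (ZMod p) K.fixingSubgroup (ZMod p)))]

include hK in
/-- **`hlam11` at `v`** for `W = coind_{G_K}(𝔽_p)` with the trace pairing of `mulS`. -/
theorem lamAt_bijective_one_one (v : (locDataQ S).ι)
    (hI : Function.Injective (locTrAt (locDataQ S) htr v))
    {ζ : K} (hζ : IsPrimitiveRoot ζ p)
    (hfd : ∀ w : placeIdx (v.1 : ℕ) K, FiniteDimensional (ZMod p)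
      (HlcW S K (Rep.trivial (ZMod p) K.fixingSubgroup (ZMod p)) (v.1 : ℕ)
        (placeRep (v.1 : ℕ) K w) 1))
    (h : 1 + 1 = 2) :
    Function.Bijective (lamAt (locDataQ S)
      (coindTr_equivariant K.fixingSubgroup (mulS K.fixingSubgroup (cycloChar p))
        (mulS_equivariant K.fixingSubgroup (cycloChar p) hχ)) htr h v) :=
  lamAt_coindTr_bijective S K _ _ htr hK h v fun w => by
    obtain ⟨ζ', hζ'⟩ := exists_primitiveRoot_locField K p hζ (v.1 : ℕ) (placeRep (v.1 : ℕ) K w)
    have := hfd w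
    exact locLam_bijective_one_one S K p hχ htr v w hI hζ' h

include hK in
/-- **`hlam02` at `v`.** -/
theorem lamAt_bijective_zero_two (v : (locDataQ S).ι)
    (hI : Function.Injective (locTrAt (locDataQ S) htr v))
    (h2 : ∀ w : placeIdx (v.1 : ℕ) K, Module.finrank (ZMod p)
      (HlcWP S K (P := chiRep (cycloChar p)) (v.1 : ℕ) (placeRep (v.1 : ℕ) K w) 2) = 1)
    (h : 0 + 2 = 2) :
    Function.Bijective (lamAt (locDataQ S)
      (coindTr_equivariant K.fixingSubgroup (mulS K.fixingSubgroup (cycloChar p))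
        (mulS_equivariant K.fixingSubgroup (cycloChar p) hχ)) htr h v) :=
  lamAt_coindTr_bijective S K _ _ htr hK h v fun w =>
    locLam_bijective_zero_two S K p hχ htr v w hI (h2 w) h

include hK in
/-- **`hlam20` at `v`.** -/
theorem lamAt_bijective_two_zero (v : (locDataQ S).ι)
    (hI : Function.Injective (locTrAt (locDataQ S) htr v))
    (h2 : ∀ w : placeIdx (v.1 : ℕ) K, Module.finrank (ZMod p)
      (HlcWP S K (P := chiRep (cycloChar p)) (v.1 : ℕ) (placeRep (v.1 : ℕ) K w) 2) = 1)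
    (h : 2 + 0 = 2) :
    Function.Bijective (lamAt (locDataQ S)
      (coindTr_equivariant K.fixingSubgroup (mulS K.fixingSubgroup (cycloChar p))
        (mulS_equivariant K.fixingSubgroup (cycloChar p) hχ)) htr h v) :=
  lamAt_coindTr_bijective S K _ _ htr hK h v fun w =>
    locLam_bijective_two_zero S K p hχ htr v w hI (h2 w) h

end Packaged

/-! ### (I) in the `TraceExt` shape -/

section Trace

universe u

variable {k' : Type u} [Field k'] {G : Type u} [Group G] {𝒰 : LevelSystem G} (L : LocalData 𝒰)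
  [Fintype L.ι] [DecidableEq L.ι]
  {P : Rep.{u} k' G} [IsDiscrete 𝒰 P]
  {tr' : (coneC L P).X 3 →ₗ[k'] k'}
  (htr' : ∀ e : (coneC L P).X 2, tr' (((coneC L P).d 2 3).hom e) = 0)

omit [Fintype L.ι] in
/-- (I) for `τ` gives (I) for `locTrAt` (for a `TraceExt` trace). -/
theorem injective_locTrAt_of_trace
    (τ : (∀ v, Hlc (L.𝒰v v) (Rep.res (L.r v) P) 2) →ₗ[k'] k')
    (hτ : ∀ (z : Elt.zSub (coneC L P) 3) (e : ∀ v, Hlc (L.𝒰v v) (Rep.res (L.r v) P) 2),
      Elt.hMk (coneC L P) 3 z = HlcCBdry L P 2 e → tr' z.1 = τ e)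
    (v : L.ι) (hI : Function.Injective fun y => τ (Pi.single v y)) :
    Function.Injective (locTrAt L htr' v) := by
  intro y y' hyy'
  apply hI
  have h1 := locTr_eq_of_trace L htr' τ hτ
  have h2 : ∀ y, locTrAt L htr' v y = τ (Pi.single v y) := by
    intro y
    show locTr L htr' (Pi.single v y) = _
    rw [h1]
  show τ (Pi.single v y) = τ (Pi.single v y')
  rw [← h2, ← h2, hyy']

end Trace

end Fermat.Agent.GC.Places.DualK
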