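/-
GATE-C / PLACES leaf LOCDEG (helper73): the sum of the local degrees of a number field
`K ⊆ Qbar` at the places above a prime `q` is the global degree:

  `∑_{w ∈ placeIdx q K} [locField q K (placeRep w) : ℚ_q] = [K : ℚ]`.

Proof by orbit counting (no completions, no `e · f`): `G_{ℚ_q}` acts on `G_ℚ ⧸ G_K` through
`r = localGaloisToGlobal q`; the orbits are the double cosets `D_q \ G_ℚ / G_K = placeIdx q K`, the
stabiliser of `s G_K` is `locGroup q K s = Gal(PadicAlgCl q / locField q K s)`, whose index is
`[locField q K s : ℚ_q]`.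
-/
import Fermat.Agent.GC.Places.Basic

set_option autoImplicit false

noncomputable section

open IntermediateField Fermat.Agent.GC.Local.KR

namespace Fermat.Agent.GC.Places

local notation "Qb" => AlgebraicClosure ℚ
local notation "GQ" => (AlgebraicClosure ℚ ≃ₐ[ℚ] AlgebraicClosure ℚ)

variable (q : ℕ) [Fact q.Prime] (K : IntermediateField ℚ Qb)

/-- `[locField q K s : ℚ_q]` is the index of the local Galois group in `G_{ℚ_q}`. -/
theorem finrank_locField_eq_index [FiniteDimensional ℚ K] (s : GQ) :
    Module.finrank ℚ_[q] (locField q K s) = (locGroup q K s).index := by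
  have : IsGalois ℚ_[q] (PadicAlgCl q) := isGalois_padicAlgCl q
  exact IntermediateField.finrank_eq_fixingSubgroup_index (PadicAlgCl q) (locField q K s)

/-- `[K : ℚ]` is the index of `G_K` in `G_ℚ`. -/
theorem finrank_eq_card_quotient [FiniteDimensional ℚ K] :
    Module.finrank ℚ K = Nat.card (GQ ⧸ K.fixingSubgroup) := by
  have : IsGalois ℚ Qb := isGalois_Qb
  rw [IntermediateField.finrank_eq_fixingSubgroup_index]
  rfl

/-- The map `G_ℚ ⧸ G_K → placeIdx q K`, `g G_K ↦ D_q g G_K`. -/
def cosetToPlace : GQ ⧸ K.fixingSubgroup → placeIdx q K :=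
  Quotient.lift (placeMk q K) (by
    intro a b hab
    rw [placeMk_eq_iff]
    refine ⟨1, a⁻¹ * b, QuotientGroup.leftRel_apply.mp hab, ?_⟩
    rw [map_one, one_mul, mul_inv_cancel_left])

@[simp]
theorem cosetToPlace_mk (g : GQ) :
    cosetToPlace q K (QuotientGroup.mk g) = placeMk q K g := rfl

/-- The orbit map `G_{ℚ_q} ⧸ locGroup s → fibre of cosetToPlace over the place of s`,
`τ ↦ r τ * s * G_K`. -/
def fibreMap (s : GQ) :
    (Gq q ⧸ locGroup q K s) → {x : GQ ⧸ K.fixingSubgroup // cosetToPlace q K x = placeMk q K s} :=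
  Quotient.lift
    (fun τ : Gq q => (⟨QuotientGroup.mk (localGaloisToGlobal q τ * s), by
      rw [cosetToPlace_mk, eq_comm, placeMk_eq_iff]
      exact ⟨τ, 1, one_mem _, by rw [mul_one]⟩⟩ :
        {x : GQ ⧸ K.fixingSubgroup // cosetToPlace q K x = placeMk q K s}))
    (by
      intro τ τ' h
      apply Subtype.ext
      have h' : τ⁻¹ * τ' ∈ locGroup q K s := QuotientGroup.leftRel_apply.mp h
      rw [mem_locGroup_iff] at h'
      change (QuotientGroup.mk (localGaloisToGlobal q τ * s) : GQ ⧸ K.fixingSubgroup) =
        QuotientGroup.mk (localGaloisToGlobal q τ' * s)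
      rw [QuotientGroup.eq]
      have : (localGaloisToGlobal q τ * s)⁻¹ * (localGaloisToGlobal q τ' * s) =
          s⁻¹ * localGaloisToGlobal q (τ⁻¹ * τ') * s := by
        simp only [map_mul, map_inv]
        group
      rw [this]
      exact h')

theorem fibreMap_mk (s : GQ) (τ : Gq q) :
    ((fibreMap q K s (QuotientGroup.mk τ)).1 : GQ ⧸ K.fixingSubgroup) =
      QuotientGroup.mk (localGaloisToGlobal q τ * s) := rfl

theorem fibreMap_bijective (s : GQ) : Function.Bijective (fibreMap q K s) := by
  constructor
  · intro a b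
    induction a using QuotientGroup.induction_on with
    | H τ =>
    induction b using QuotientGroup.induction_on with
    | H τ' =>
    intro h
    have h1 := congrArg Subtype.val h
    rw [fibreMap_mk, fibreMap_mk, QuotientGroup.eq] at h1
    rw [QuotientGroup.eq, mem_locGroup_iff]
    have : (localGaloisToGlobal q τ * s)⁻¹ * (localGaloisToGlobal q τ' * s) =
        s⁻¹ * localGaloisToGlobal q (τ⁻¹ * τ') * s := by
      simp only [map_mul, map_inv]
      group
    rw [this] at h1
    exact h1
  · rintro ⟨x, hx⟩
    induction x using QuotientGroup.induction_on with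
    | H g =>
    rw [cosetToPlace_mk, eq_comm, placeMk_eq_iff] at hx
    obtain ⟨τ₀, h, hh, rfl⟩ := hx
    refine ⟨QuotientGroup.mk τ₀, ?_⟩
    apply Subtype.ext
    rw [fibreMap_mk, QuotientGroup.eq]
    have : (localGaloisToGlobal q τ₀ * s)⁻¹ * (localGaloisToGlobal q τ₀ * s * h) = h := by group
    rw [this]
    exact hh

/-- The fibre of `cosetToPlace` over the place of `s` has `[G_{ℚ_q} : locGroup s]` elements. -/
theorem card_fibre (s : GQ) :
    Nat.card {x : GQ ⧸ K.fixingSubgroup // cosetToPlace q K x = placeMk q K s} =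
      (locGroup q K s).index := by
  rw [Subgroup.index, Nat.card_congr (Equiv.ofBijective _ (fibreMap_bijective q K s))]

/-- **Sum of local degrees** (orbit-counting form): `[K : ℚ] = ∑_w [G_{ℚ_q} : locGroup (rep w)]`. -/
theorem card_quotient_eq_sum_index [FiniteDimensional ℚ K] [Fintype (placeIdx q K)] :
    Nat.card (GQ ⧸ K.fixingSubgroup) =
      ∑ w : placeIdx q K, (locGroup q K (placeRep q K w)).index := by
  have : IsGalois ℚ Qb := isGalois_Qb
  have hfi : K.fixingSubgroup.FiniteIndex := by
    refine ⟨?_⟩
    rw [← IntermediateField.finrank_eq_fixingSubgroup_index]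
    exact Module.finrank_pos.ne'
  have : Finite (GQ ⧸ K.fixingSubgroup) := Subgroup.finite_quotient_of_finiteIndex
  rw [Nat.card_congr (Equiv.sigmaFiberEquiv (cosetToPlace q K)).symm, Nat.card_sigma]
  refine Finset.sum_congr rfl fun w _ => ?_
  have := card_fibre q K (placeRep q K w)
  rw [placeMk_placeRep] at this
  exact this

/-- **Sum of local degrees**: `∑_{w | q} [K_w : ℚ_q] = [K : ℚ]`. -/
theorem sum_finrank_locField [FiniteDimensional ℚ K] [Fintype (placeIdx q K)] :
    ∑ w : placeIdx q K, Module.finrank ℚ_[q] (locField q K (placeRep q K w)) =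
      Module.finrank ℚ K := by
  rw [finrank_eq_card_quotient, card_quotient_eq_sum_index q K]
  exact Finset.sum_congr rfl fun w _ => finrank_locField_eq_index q K _

/-- `finsum` form (no `Fintype` instance needed). -/
theorem finsum_finrank_locField [FiniteDimensional ℚ K] :
    ∑ᶠ w : placeIdx q K, Module.finrank ℚ_[q] (locField q K (placeRep q K w)) =
      Module.finrank ℚ K := by
  let _ : Fintype (placeIdx q K) := Fintype.ofFinite _
  rw [finsum_eq_sum_of_fintype]
  exact sum_finrank_locField q K

/-- The local degree only depends on the place (not on the representative). -/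
theorem finrank_locField_eq_of_placeMk_eq [FiniteDimensional ℚ K] {s s' : GQ}
    (h : placeMk q K s = placeMk q K s') :
    Module.finrank ℚ_[q] (locField q K s') = Module.finrank ℚ_[q] (locField q K s) := by
  rw [finrank_locField_eq_index, finrank_locField_eq_index, ← card_fibre, ← card_fibre, h]

end Fermat.Agent.GC.Places
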