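/-
GATE-C / C3 LOCAL-NUM part C (helper41).  The local numbers in the PLACES language.

`K/ℚ` finite with `ζ_p ∈ K`, `s : G_ℚ` a place representative, `locGroup q K s ≤ G_{ℚ_q}` with the
level system `levelLoc q K s`.  For a module `B` over `locGroup q K s` with trivial action and
underlying group `ZMod p`:
  `dim Hlc⁰ = 1`, `dim Hlc¹ = 2 + [K_w:ℚ_p]·[q = p]`, `dim Hlc² = 1`.
In helper69's `HlcW` language (`A` a trivial one-dimensional `G_K`-module) and summed over the places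
above `S` (with helper73's `sum_finrank_locField`):
  `dim ∏_{q∈S} ∏_{w∣q} Hlc¹(G_w, A) = 2·#S_K + [K:ℚ]·[p ∈ S]`, and `#S_K` in degrees `0`, `2`.
-/
import Fermat.Agent.GC.Local.LocalNumP
import Fermat.Agent.GC.Places.LocIso
import Fermat.Agent.GC.Places.LocDeg
import Fermat.Agent.GC.Places.TotalLoc

set_option autoImplicit false

noncomputable section

open IntermediateField Fermat.Agent.GC.Local.KR Fermat.Agent.GC.Prof CategoryTheory

namespace Fermat.Agent.GC.Places.LocalNum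

open Fermat.Agent.GC.Places Fermat.Agent.GC.Local.LocalNum

local notation "Qb" => AlgebraicClosure ℚ
local notation "GQ" => (AlgebraicClosure ℚ ≃ₐ[ℚ] AlgebraicClosure ℚ)

section OnePlace

variable (q : ℕ) [Fact q.Prime] (K : IntermediateField ℚ Qb) (p : ℕ) (s : GQ)
  {ζ : Qb} (hζ : IsPrimitiveRoot ζ p) (hζK : ζ ∈ K)

/-- The image of `ζ_p ∈ K` in the local field of `K` at the place `ι ∘ s`. -/
def locRoot : locField q K s :=
  ⟨padicEmbedding q (s ζ), padicEmbedding_apply_mem_locField q s hζK⟩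

include hζ in
theorem isPrimitiveRoot_locRoot : IsPrimitiveRoot (locRoot q K s hζK) p := by
  have h1 : IsPrimitiveRoot (padicEmbedding q (s ζ)) p :=
    (hζ.map_of_injective s.injective).map_of_injective (padicEmbedding q).injective
  exact IsPrimitiveRoot.of_map_of_injective (f := algebraMap (locField q K s) (PadicAlgCl q))
    h1 (algebraMap (locField q K s) (PadicAlgCl q)).injective

variable [FiniteDimensional ℚ K] [Fact p.Prime]
  (B : Rep.{0} (ZMod p) (locGroup q K s)) [IsDiscrete (levelLoc q K s) B]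
  (hB : ∀ g b, B.ρ g b = b) (eB : ZMod p ≃+ B)

include hζ hζK hB eB

/-- `Hlc^i(G_w, B)` is finite-dimensional, `i ≤ 2`. -/
theorem finiteDimensional_Hlc_loc (i : ℕ) (hi : i ≤ 2) :
    FiniteDimensional (ZMod p) (Hlc (levelLoc q K s) B i) := by
  have := isDiscrete_toGalLoc q K s B
  have := finiteDimensional_Hlc_of_trivial q (locField q K s) p (toGalLoc q K s B)
    (fun g m => hB _ m) eB (isPrimitiveRoot_locRoot q K p s hζ hζK) i hi
  exact finite_Hlc_of_toGalLoc q K s B i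

/-- `dim Hlc⁰(G_w, ℤ/p) = 1`. -/
theorem finrank_Hlc_loc_zero :
    Module.finrank (ZMod p) (Hlc (levelLoc q K s) B 0) = 1 := by
  have := isDiscrete_toGalLoc q K s B
  rw [← finrank_Hlc_toGalLoc q K s B 0]
  exact finrank_Hlc_zero_of_trivial q (locField q K s) p (toGalLoc q K s B)
    (fun g m => hB _ m) eB (isPrimitiveRoot_locRoot q K p s hζ hζK)

/-- `dim Hlc¹(G_w, ℤ/p) = 2 + [K_w:ℚ_p]·[q = p]`. -/
theorem finrank_Hlc_loc_one :
    Module.finrank (ZMod p) (Hlc (levelLoc q K s) B 1) =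
      2 + (if q = p then Module.finrank ℚ_[q] (locField q K s) else 0) := by
  have := isDiscrete_toGalLoc q K s B
  rw [← finrank_Hlc_toGalLoc q K s B 1]
  exact finrank_Hlc_one_of_trivial q (locField q K s) p (toGalLoc q K s B)
    (fun g m => hB _ m) eB (isPrimitiveRoot_locRoot q K p s hζ hζK)

/-- `dim Hlc²(G_w, ℤ/p) = 1`. -/
theorem finrank_Hlc_loc_two :
    Module.finrank (ZMod p) (Hlc (levelLoc q K s) B 2) = 1 := by
  have := isDiscrete_toGalLoc q K s B
  rw [← finrank_Hlc_toGalLoc q K s B 2]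
  exact finrank_Hlc_two_of_trivial q (locField q K s) p (toGalLoc q K s B)
    (fun g m => hB _ m) eB (isPrimitiveRoot_locRoot q K p s hζ hζK)

end OnePlace

section Sum

attribute [local instance] fact_prime

variable (S : Finset Nat.Primes) (K : IntermediateField ℚ Qb) [FiniteDimensional ℚ K]
  (p : ℕ) [Fact p.Prime]
  (A : Rep.{0} (ZMod p) K.fixingSubgroup) [IsDiscrete (levelK S K) A]
  (hA : ∀ g a, A.ρ g a = a) (eA : ZMod p ≃+ A) {ζ : Qb} (hζ : IsPrimitiveRoot ζ p) (hζK : ζ ∈ K)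

/-- The number of places of `K` above `S`. -/
def numPlaces : ℕ := ∑ q : ↥S, Nat.card (placeIdx (q.1 : ℕ) K)

section Single

variable (q : ℕ) [Fact q.Prime] (s : GQ)

include hA eA hζ hζK

theorem finiteDimensional_HlcW (i : ℕ) (hi : i ≤ 2) :
    FiniteDimensional (ZMod p) (HlcW S K A q s i) :=
  haveI := isDiscrete_res_locHom S q K s A
  finiteDimensional_Hlc_loc q K p s hζ hζK (locCoeff q K A s) (fun _ a => hA _ a) eA i hi

theorem finrank_HlcW_zero : Module.finrank (ZMod p) (HlcW S K A q s 0) = 1 :=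
  haveI := isDiscrete_res_locHom S q K s A
  finrank_Hlc_loc_zero q K p s hζ hζK (locCoeff q K A s) (fun _ a => hA _ a) eA

theorem finrank_HlcW_one :
    Module.finrank (ZMod p) (HlcW S K A q s 1) =
      2 + (if q = p then Module.finrank ℚ_[q] (locField q K s) else 0) :=
  haveI := isDiscrete_res_locHom S q K s A
  finrank_Hlc_loc_one q K p s hζ hζK (locCoeff q K A s) (fun _ a => hA _ a) eA

theorem finrank_HlcW_two : Module.finrank (ZMod p) (HlcW S K A q s 2) = 1 :=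
  haveI := isDiscrete_res_locHom S q K s A
  finrank_Hlc_loc_two q K p s hζ hζK (locCoeff q K A s) (fun _ a => hA _ a) eA

end Single

include hA eA hζ hζK

/-- The total local target is finite-dimensional in degrees `≤ 2`. -/
theorem finiteDimensional_pi_HlcW (i : ℕ) (hi : i ≤ 2) :
    FiniteDimensional (ZMod p) (∀ q : ↥S, ∀ w : placeIdx (q.1 : ℕ) K,
      HlcW S K A (q.1 : ℕ) (placeRep (q.1 : ℕ) K w) i) := by
  have : ∀ (q : ↥S) (w : placeIdx (q.1 : ℕ) K), FiniteDimensional (ZMod p)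
      (HlcW S K A (q.1 : ℕ) (placeRep (q.1 : ℕ) K w) i) :=
    fun q w => finiteDimensional_HlcW S K p A hA eA hζ hζK (q.1 : ℕ) _ i hi
  infer_instance

/-- `dim ∏_{w ∣ S} Hlc⁰(G_w, ℤ/p) = #S_K`. -/
theorem finrank_pi_HlcW_zero :
    Module.finrank (ZMod p) (∀ q : ↥S, ∀ w : placeIdx (q.1 : ℕ) K,
      HlcW S K A (q.1 : ℕ) (placeRep (q.1 : ℕ) K w) 0) = numPlaces S K := by
  have hfd : ∀ (q : ↥S) (w : placeIdx (q.1 : ℕ) K), FiniteDimensional (ZMod p)
      (HlcW S K A (q.1 : ℕ) (placeRep (q.1 : ℕ) K w) 0) :=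
    fun q w => finiteDimensional_HlcW S K p A hA eA hζ hζK (q.1 : ℕ) _ 0 (by norm_num)
  let _ : ∀ q : ↥S, Fintype (placeIdx (q.1 : ℕ) K) := fun q => Fintype.ofFinite _
  rw [Module.finrank_pi_fintype, numPlaces]
  refine Finset.sum_congr rfl fun q _ => ?_
  rw [Module.finrank_pi_fintype]
  rw [Finset.sum_congr rfl fun w _ => finrank_HlcW_zero S K p A hA eA hζ hζK (q.1 : ℕ) _]
  rw [Finset.sum_const, smul_eq_mul, mul_one, Finset.card_univ, Nat.card_eq_fintype_card]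

/-- `dim ∏_{w ∣ S} Hlc²(G_w, ℤ/p) = #S_K`. -/
theorem finrank_pi_HlcW_two :
    Module.finrank (ZMod p) (∀ q : ↥S, ∀ w : placeIdx (q.1 : ℕ) K,
      HlcW S K A (q.1 : ℕ) (placeRep (q.1 : ℕ) K w) 2) = numPlaces S K := by
  have hfd : ∀ (q : ↥S) (w : placeIdx (q.1 : ℕ) K), FiniteDimensional (ZMod p)
      (HlcW S K A (q.1 : ℕ) (placeRep (q.1 : ℕ) K w) 2) :=
    fun q w => finiteDimensional_HlcW S K p A hA eA hζ hζK (q.1 : ℕ) _ 2 le_rfl
  let _ : ∀ q : ↥S, Fintype (placeIdx (q.1 : ℕ) K) := fun q => Fintype.ofFinite _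
  rw [Module.finrank_pi_fintype, numPlaces]
  refine Finset.sum_congr rfl fun q _ => ?_
  rw [Module.finrank_pi_fintype]
  rw [Finset.sum_congr rfl fun w _ => finrank_HlcW_two S K p A hA eA hζ hζK (q.1 : ℕ) _]
  rw [Finset.sum_const, smul_eq_mul, mul_one, Finset.card_univ, Nat.card_eq_fintype_card]

/-- `Σ_w h¹_w` before evaluating the sum over `q ∈ S`. -/
theorem finrank_pi_HlcW_one_aux :
    Module.finrank (ZMod p) (∀ q : ↥S, ∀ w : placeIdx (q.1 : ℕ) K,
      HlcW S K A (q.1 : ℕ) (placeRep (q.1 : ℕ) K w) 1) =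
      2 * numPlaces S K +
        ∑ q : ↥S, (if (q.1 : ℕ) = p then Module.finrank ℚ K else 0) := by
  have hfd : ∀ (q : ↥S) (w : placeIdx (q.1 : ℕ) K), FiniteDimensional (ZMod p)
      (HlcW S K A (q.1 : ℕ) (placeRep (q.1 : ℕ) K w) 1) :=
    fun q w => finiteDimensional_HlcW S K p A hA eA hζ hζK (q.1 : ℕ) _ 1 (by norm_num)
  let _ : ∀ q : ↥S, Fintype (placeIdx (q.1 : ℕ) K) := fun q => Fintype.ofFinite _
  have hq : ∀ q : ↥S, Module.finrank (ZMod p) (∀ w : placeIdx (q.1 : ℕ) K,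
      HlcW S K A (q.1 : ℕ) (placeRep (q.1 : ℕ) K w) 1) =
      2 * Nat.card (placeIdx (q.1 : ℕ) K) +
        (if (q.1 : ℕ) = p then Module.finrank ℚ K else 0) := by
    intro q
    rw [Module.finrank_pi_fintype]
    rw [Finset.sum_congr rfl fun w _ => finrank_HlcW_one S K p A hA eA hζ hζK (q.1 : ℕ) _]
    rw [Finset.sum_add_distrib, Finset.sum_const, smul_eq_mul, Finset.card_univ,
      Nat.card_eq_fintype_card, mul_comm]
    congr 1
    by_cases hqp : (q.1 : ℕ) = p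
    · rw [if_pos hqp]
      rw [Finset.sum_congr rfl fun w _ => if_pos hqp]
      exact sum_finrank_locField (q.1 : ℕ) K
    · rw [if_neg hqp]
      rw [Finset.sum_congr rfl fun w _ => if_neg hqp]
      exact Finset.sum_const_zero
  rw [Module.finrank_pi_fintype, Finset.sum_congr rfl fun q _ => hq q, Finset.sum_add_distrib,
    ← Finset.mul_sum, numPlaces]

/-- **`Σ_w h¹_w = 2·#S_K + [K:ℚ]`** for `p ∈ S` (LOCAL-NUM + LOCDEG). -/
theorem finrank_pi_HlcW_one_of_mem (hpS : (⟨p, Fact.out⟩ : Nat.Primes) ∈ S) :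
    Module.finrank (ZMod p) (∀ q : ↥S, ∀ w : placeIdx (q.1 : ℕ) K,
      HlcW S K A (q.1 : ℕ) (placeRep (q.1 : ℕ) K w) 1) =
      2 * numPlaces S K + Module.finrank ℚ K := by
  rw [finrank_pi_HlcW_one_aux S K p A hA eA hζ hζK]
  congr 1
  rw [Finset.sum_eq_single_of_mem (⟨⟨p, Fact.out⟩, hpS⟩ : ↥S) (Finset.mem_univ _)]
  · rw [if_pos rfl]
  · intro q _ hq
    rw [if_neg]
    intro h
    exact hq (Subtype.ext (Subtype.ext h))

/-- **`Σ_w h¹_w = 2·#S_K`** for `p ∉ S`. -/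
theorem finrank_pi_HlcW_one_of_not_mem (hpS : (⟨p, Fact.out⟩ : Nat.Primes) ∉ S) :
    Module.finrank (ZMod p) (∀ q : ↥S, ∀ w : placeIdx (q.1 : ℕ) K,
      HlcW S K A (q.1 : ℕ) (placeRep (q.1 : ℕ) K w) 1) = 2 * numPlaces S K := by
  rw [finrank_pi_HlcW_one_aux S K p A hA eA hζ hζK, Finset.sum_eq_zero, add_zero]
  intro q _
  rw [if_neg]
  intro h
  apply hpS
  have : (⟨p, Fact.out⟩ : Nat.Primes) = q.1 := Subtype.ext h.symm
  rw [this]
  exact q.2

end Sum

section TrivialCoeff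

attribute [local instance] fact_prime

variable (S : Finset Nat.Primes) (K : IntermediateField ℚ Qb) [FiniteDimensional ℚ K]
  (p : ℕ) [Fact p.Prime] {ζ : Qb} (hζ : IsPrimitiveRoot ζ p) (hζK : ζ ∈ K)

include hζ hζK

/-- The three total local dimensions for `A = ℤ/p` with trivial `G_K`-action (`ζ_p ∈ K`, `p ∈ S`):
`#S_K`, `2·#S_K + [K:ℚ]`, `#S_K`. -/
theorem finrank_pi_HlcW_trivial (hpS : (⟨p, Fact.out⟩ : Nat.Primes) ∈ S) :
    Module.finrank (ZMod p) (∀ q : ↥S, ∀ w : placeIdx (q.1 : ℕ) K,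
        HlcW S K (Rep.trivial (ZMod p) K.fixingSubgroup (ZMod p)) (q.1 : ℕ)
          (placeRep (q.1 : ℕ) K w) 0) = numPlaces S K ∧
    Module.finrank (ZMod p) (∀ q : ↥S, ∀ w : placeIdx (q.1 : ℕ) K,
        HlcW S K (Rep.trivial (ZMod p) K.fixingSubgroup (ZMod p)) (q.1 : ℕ)
          (placeRep (q.1 : ℕ) K w) 1) = 2 * numPlaces S K + Module.finrank ℚ K ∧
    Module.finrank (ZMod p) (∀ q : ↥S, ∀ w : placeIdx (q.1 : ℕ) K,
        HlcW S K (Rep.trivial (ZMod p) K.fixingSubgroup (ZMod p)) (q.1 : ℕ)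
          (placeRep (q.1 : ℕ) K w) 2) = numPlaces S K :=
  ⟨finrank_pi_HlcW_zero S K p _ (fun _ _ => rfl) (AddEquiv.refl _) hζ hζK,
    finrank_pi_HlcW_one_of_mem S K p _ (fun _ _ => rfl) (AddEquiv.refl _) hζ hζK hpS,
    finrank_pi_HlcW_two S K p _ (fun _ _ => rfl) (AddEquiv.refl _) hζ hζK⟩

end TrivialCoeff

end Fermat.Agent.GC.Places.LocalNum
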