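/-
GATE-C / BASE-INST (c) (helper20): the `τ`-form of `MackeyCupLam.lean`.

In helper74's `MainFinal.LamFormulas` the local pairings are given as
`lam b c = τ fun v => (b v) ∪ (c v)` for a linear form `τ` on `∏_v Hlc²(G_v, P)` (not as
`locTrAt` of a cochain-level trace).  This file gives the reduction of their perfectness for
`W = coind_{G_K}^{G_ℚ} A` to the places of `K` in that form:

* `locLamT τv w (x, y) = τv (cor_w (x ∪_{B_w} y))` for ANY linear form `τv` on `Hlc²(G_{ℚ_q}, P)`;
* `cupTau_coindTr_apply` / `cupTau_coindTr_bijective` : one place `q`;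
* `lam_bijective_of_formula` : all places `v ∈ S`, for any bilinear `lam` satisfying the formula.
-/
import Fermat.Agent.GC.Places.MackeyCupLam

set_option autoImplicit false

noncomputable section

open IntermediateField Fermat.Agent.GC.Local.KR Fermat.Agent.GC.Prof CategoryTheory
open Fermat.Agent.GC.Prof.Cone Fermat.Agent.GC.PT.LocDataQ Fermat.Agent.GC.PT.ConeE8
open Fermat.Agent.GC.PT.BaseInst Fermat.Agent.GC.PT.BaseInstLA
open Fermat.Agent.GC.Prof.Cup (Equivariant)

namespace Fermat.Agent.GC.Places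

local notation "Qb" => AlgebraicClosure ℚ
local notation "GQ" => (AlgebraicClosure ℚ ≃ₐ[ℚ] AlgebraicClosure ℚ)

attribute [local instance] fact_prime

variable (S : Finset Nat.Primes) (K : IntermediateField ℚ Qb) [FiniteDimensional ℚ K]
variable {k : Type} [Field k] {A A' : Rep k K.fixingSubgroup}
  [IsDiscrete (levelK S K) A] [IsDiscrete (levelK S K) A']
  {P : Rep k GQ} [IsDiscrete (Fermat.Agent.GC.C0.levelS S) P]
  (B : A →ₗ[k] A' →ₗ[k] (Rep.res K.fixingSubgroup.subtype P))
  (hB : Equivariant A.ρ A'.ρ (Rep.res K.fixingSubgroup.subtype P).ρ B)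

/-- `Hlcⁿ(G_{ℚ_q}, P)`, with the instance supplied. -/
abbrev HlcQP (P : Rep k GQ) [IsDiscrete (Fermat.Agent.GC.C0.levelS S) P]
    (q : ℕ) [Fact q.Prime] (n : ℕ) : ModuleCat k :=
  @Hlc k (Gq q) _ _ (levelQ q) (Rep.res (localGaloisToGlobal q) P) (isDiscrete_res_r S q) n

/-- The local pairing at the place `ι ∘ s` of `K` above `q`, for a linear form `τv` on
`Hlc²(G_{ℚ_q}, P)`: `(x, y) ↦ τv (cor (x ∪_{B_s} y))`. -/
def locLamT (q : ℕ) [Fact q.Prime] (τv : HlcQP S P q 2 →ₗ[k] k) {i j : ℕ} (h : i + j = 2)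
    (s : GQ) : HlcW S K A q s i →ₗ[k] HlcW S K A' q s j →ₗ[k] k :=
  (cupW S K B hB q s h).compr₂ (τv ∘ₗ corW S K (P := P) q s 2)

theorem locLamT_apply (q : ℕ) [Fact q.Prime] (τv : HlcQP S P q 2 →ₗ[k] k) {i j : ℕ}
    (h : i + j = 2) (s : GQ) (x : HlcW S K A q s i) (y : HlcW S K A' q s j) :
    locLamT S K B hB q τv h s x y = τv (corW S K (P := P) q s 2 (cupW S K B hB q s h x y)) := rfl

section Main

variable (hK : K.IsUnramifiedOutside S) [K.fixingSubgroup.FiniteIndex]

/-- `Hlcⁿ(G_{ℚ_q}, Res coind A)`, with the instance supplied. -/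
abbrev HlcQW (A : Rep k K.fixingSubgroup) [IsDiscrete (levelK S K) A] (q : ℕ) [Fact q.Prime]
    (n : ℕ) : ModuleCat k :=
  @Hlc k (Gq q) _ _ (levelQ q) (resCoind q K A) (isDiscrete_resCoind S q K A hK) n

/-- The cup product over `G_{ℚ_q}` for the trace pairing, with all instances supplied. -/
def cupQ (q : ℕ) [Fact q.Prime] {i j n : ℕ} (h : i + j = n) :
    HlcQW S K hK A q i →ₗ[k] HlcQW S K hK A' q j →ₗ[k] HlcQP S P q n :=
  haveI := isDiscrete_resCoind S q K A hK
  haveI := isDiscrete_resCoind S q K A' hK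
  haveI := isDiscrete_res_r S (P := P) q
  HlcCup (levelQ q) (M := resCoind q K A) (N := resCoind q K A')
    (P := Rep.res (localGaloisToGlobal q) P) (coindTr K.fixingSubgroup B hB)
    (Equivariant_res (f := localGaloisToGlobal q) (coindTr_equivariant K.fixingSubgroup B hB)) h

/-- **MACKEY-CUP, `τ`-form, one place `q`.** -/
theorem cupTau_coindTr_apply (q : ℕ) [Fact q.Prime] (τv : HlcQP S P q 2 →ₗ[k] k) {i j : ℕ}
    (h : i + j = 2) [Fintype (placeIdx q K)] (x : HlcQW S K hK A q i) (y : HlcQW S K hK A' q j) :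
    τv (cupQ S K B hB hK q h x y) =
      ∑ w : placeIdx q K, locLamT S K B hB q τv h (placeRep q K w)
        (compW S K hK A q (placeRep q K w) i x) (compW S K hK A' q (placeRep q K w) j y) := by
  have i1 := isDiscrete_resCoind S q K A hK
  have i2 := isDiscrete_resCoind S q K A' hK
  have i3 := isDiscrete_res_r S (P := P) q
  have i4 : ∀ w : placeIdx q K, IsDiscrete (levelLoc q K (placeRep q K w))
      (locCoeff q K A (placeRep q K w)) := fun _ => isDiscrete_res_locHom S q K _ A
  have i5 : ∀ w : placeIdx q K, IsDiscrete (levelLoc q K (placeRep q K w))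
      (locCoeff q K A' (placeRep q K w)) := fun _ => isDiscrete_res_locHom S q K _ A'
  have i6 : ∀ w : placeIdx q K,
      IsDiscrete ((levelQ q).comap (locGroup q K (placeRep q K w)).subtype)
        (locCoeff q K A (placeRep q K w)) := fun _ => isDiscrete_res_locHom S q K _ A
  have i7 : ∀ w : placeIdx q K,
      IsDiscrete ((levelQ q).comap (locGroup q K (placeRep q K w)).subtype)
        (locCoeff q K A' (placeRep q K w)) := fun _ => isDiscrete_res_locHom S q K _ A'
  have i8 : ∀ w : placeIdx q K, IsDiscrete (levelLoc q K (placeRep q K w))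
      (locTarget q K P (placeRep q K w)) := fun _ => isDiscrete_locTarget S K q _
  have i9 : ∀ w : placeIdx q K,
      IsDiscrete ((levelQ q).comap (locGroup q K (placeRep q K w)).subtype)
        (locTarget q K P (placeRep q K w)) := fun _ => isDiscrete_locTarget S K q _
  have i10 : ∀ w : placeIdx q K, IsDiscrete (levelQ q) (locFactor q K A (placeRep q K w)) :=
    fun _ => isDiscrete_locFactor S q K A _
  have i11 : ∀ w : placeIdx q K, IsDiscrete (levelQ q) (locFactor q K A' (placeRep q K w)) :=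
    fun _ => isDiscrete_locFactor S q K A' _
  have i12 : ∀ w : placeIdx q K, (locGroup q K (placeRep q K w)).FiniteIndex :=
    fun _ => (isOpenSub_locGroup q K _).finiteIndex
  have i13 : ∀ w : placeIdx q K, IsDiscrete (levelQ q)
      (Rep.coind (locGroup q K (placeRep q K w)).subtype (locTarget q K P (placeRep q K w))) :=
    fun _ => isDiscrete_coind (isOpenSub_locGroup q K _) _
  have key := HlcCup_resCoind q K B hB h x y
  refine (congrArg τv key).trans ?_
  exact map_sum τv _ Finset.univ

/-- **Local perfectness for `Res_{G_{ℚ_q}} coind_{G_K}^{G_ℚ} A` from local perfectness at the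
places of `K` above `q`, `τ`-form.** -/
theorem cupTau_coindTr_bijective (q : ℕ) [Fact q.Prime] (τv : HlcQP S P q 2 →ₗ[k] k) {i j : ℕ}
    (h : i + j = 2)
    (hQ : ∀ w : placeIdx q K, Function.Bijective (locLamT S K B hB q τv h (placeRep q K w))) :
    Function.Bijective ((cupQ S K B hB hK q h).compr₂ τv) := by
  let _ : Fintype (placeIdx q K) := Fintype.ofFinite _
  let _ : DecidableEq (placeIdx q K) := Classical.decEq _
  refine bijective_of_sum_decomp ((cupQ S K B hB hK q h).compr₂ τv)
    (fun w => locLamT S K B hB q τv h (placeRep q K w))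
    (fun w => compW S K hK A q (placeRep q K w) i)
    (fun w => compW S K hK A' q (placeRep q K w) j)
    (fun _ => 1) (fun _ => one_ne_zero) ?_
    (compW_pi_bijective S K hK A q i) (compW_pi_bijective S K hK A' q j) hQ
  intro x y
  show τv (cupQ S K B hB hK q h x y) = _
  rw [cupTau_coindTr_apply S K B hB hK q τv h x y]
  exact Finset.sum_congr rfl fun w _ => (one_mul _).symm

/-- The product over `v ∈ S` of the local cup products for the trace pairing, followed by a linear
form `τ` on `∏_v Hlc²(G_v, P)`: the right-hand side of helper74's `LamFormulas`. -/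
def tauCup [IsDiscrete (Fermat.Agent.GC.C0.levelS S) (coindK K A)]
    [IsDiscrete (Fermat.Agent.GC.C0.levelS S) (coindK K A')]
    (τ : (∀ v, Hlc ((locDataQ S).𝒰v v) (Rep.res ((locDataQ S).r v) P) 2) →ₗ[k] k)
    {i j : ℕ} (h : i + j = 2) (b : ∀ v, HlcLocW S K A v i) (c : ∀ v, HlcLocW S K A' v j) : k :=
  τ fun v =>
    haveI := LocalData.isDiscrete_res (locDataQ S) v (coindK K A)
    haveI := LocalData.isDiscrete_res (locDataQ S) v (coindK K A')
    HlcCup ((locDataQ S).𝒰v v) (locB (locDataQ S) (coindTr K.fixingSubgroup B hB) v)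
      (equivariant_locB (locDataQ S) (coindTr_equivariant K.fixingSubgroup B hB) v) h (b v) (c v)

include hK in
/-- **Local perfectness, all places, `τ`-form**: a bilinear map `lam` on
`∏_v Hlcⁱ(G_v, W) × ∏_v Hlcʲ(G_v, W')` given by the formula
`lam b c = τ fun v => (b v) ∪ (c v)` (cup product for the trace pairing `coindTr G_K B`) is
perfect as soon as all the pairings `locLamT (τ ∘ single v) w`, `v ∈ S`, `w ∣ v`, are. -/
theorem lam_bijective_of_formula [IsDiscrete (Fermat.Agent.GC.C0.levelS S) (coindK K A)]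
    [IsDiscrete (Fermat.Agent.GC.C0.levelS S) (coindK K A')]
    (τ : (∀ v, Hlc ((locDataQ S).𝒰v v) (Rep.res ((locDataQ S).r v) P) 2) →ₗ[k] k)
    {i j : ℕ} (h : i + j = 2)
    (lam : (∀ v, HlcLocW S K A v i) →ₗ[k] (∀ v, HlcLocW S K A' v j) →ₗ[k] k)
    (hlam : ∀ b c, lam b c = tauCup S K B hB τ h b c)
    (hQ : ∀ (v : (locDataQ S).ι) (w : placeIdx (v.1 : ℕ) K), Function.Bijective
      (locLamT S K B hB (v.1 : ℕ)
        (τ ∘ₗ LinearMap.single k
          (fun v => Hlc ((locDataQ S).𝒰v v) (Rep.res ((locDataQ S).r v) P) 2) v) h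
        (placeRep (v.1 : ℕ) K w))) :
    Function.Bijective lam := by
  let Q : ∀ v : (locDataQ S).ι, HlcLocW S K A v i →ₗ[k] HlcLocW S K A' v j →ₗ[k] k := fun v =>
    (cupQ S K B hB hK (v.1 : ℕ) h).compr₂
      (τ ∘ₗ LinearMap.single k
        (fun v => Hlc ((locDataQ S).𝒰v v) (Rep.res ((locDataQ S).r v) P) 2) v)
  have hQ' : ∀ v, Function.Bijective (Q v) := fun v =>
    cupTau_coindTr_bijective S K B hB hK (v.1 : ℕ) _ h (hQ v)
  have hsum : ∀ z : ∀ v, Hlc ((locDataQ S).𝒰v v) (Rep.res ((locDataQ S).r v) P) 2,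
      τ z = ∑ v, (τ ∘ₗ LinearMap.single k
        (fun v => Hlc ((locDataQ S).𝒰v v) (Rep.res ((locDataQ S).r v) P) 2) v) (z v) := by
    intro z
    conv_lhs => rw [← Finset.univ_sum_single z]
    rw [map_sum]
    rfl
  have e : lam = piPairing Q := by
    refine LinearMap.ext fun b => LinearMap.ext fun c => ?_
    rw [hlam, piPairing_apply]
    unfold tauCup
    rw [hsum]
    rfl
  rw [e]
  exact piPairing_bijective Q hQ'

end Main

end Fermat.Agent.GC.Places
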