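/-
GATE-C / BASE-INST (c) (helper20): the local pairings `locLamT` for the BASE triple
`A = A' = 1` (trivial `G_K`-module `k`), `P = k(χ)` with `χ|_{G_K} = 1`, `B = mulS` (multiplication),
from helper61's abstract local perfectness (`GC/Local/Hilbert/PerfectAbs.lean`).

At the place `ι ∘ s` of `K` above `q` the pairing is
`locLamT τv s (x, y) = τv (cor_s (x ∪_{χ(s) • mul} y))` on
`Hlcⁱ(G_{K_s}, k) × Hlcʲ(G_{K_s}, k)`; it is perfect
* in bidegree `(1,1)` if `CupNonDeg k (levelLoc q K s)` (HILBERT), `Hlc¹(G_{K_s}, k)` is finite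
  dimensional (LOCAL-NUM) and `τv ∘ cor_s` is injective on `Hlc²(G_{K_s}, k(χ))` (COR-INJ + (I));
* in bidegrees `(0,2)`, `(2,0)` if `τv ∘ cor_s` is bijective.
-/
import Fermat.Agent.GC.Places.MackeyCupTau
import Fermat.Agent.GC.Local.Hilbert.PerfectAbs
import Fermat.Agent.GC.Prof.CoindTrivDual

set_option autoImplicit false

noncomputable section

open IntermediateField Fermat.Agent.GC.Local.KR Fermat.Agent.GC.Prof CategoryTheory
open Fermat.Agent.GC.Prof.Cone Fermat.Agent.GC.PT.LocDataQ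
open Fermat.Agent.GC.Local.Hilbert
open Fermat.Agent.GC.Prof.Cup (Equivariant)

namespace Fermat.Agent.GC.Places

local notation "Qb" => AlgebraicClosure ℚ
local notation "GQ" => (AlgebraicClosure ℚ ≃ₐ[ℚ] AlgebraicClosure ℚ)

attribute [local instance] fact_prime

variable (S : Finset Nat.Primes) (K : IntermediateField ℚ Qb) [FiniteDimensional ℚ K]
variable {k : Type} [Field k] (χ : GQ →* kˣ) [IsDiscrete (Fermat.Agent.GC.C0.levelS S) (chiRep χ)]
  (hχ : ∀ s : K.fixingSubgroup, χ (s : GQ) = 1)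

/-- The trivial `G_K`-module `k`. -/
abbrev trivK : Rep k K.fixingSubgroup := Rep.trivial k K.fixingSubgroup k

omit [FiniteDimensional ℚ K] in
include hχ in
/-- `χ` is trivial on the image of the local group at `ι ∘ s`. -/
theorem chi_localGaloisToGlobal_eq_one (q : ℕ) [Fact q.Prime] (s : GQ) (g : locGroup q K s) :
    χ (localGaloisToGlobal q (g : Gq q)) = 1 := by
  have h1 := hχ (locHom q K s g)
  rw [coe_locHom, map_mul, map_mul, map_inv, mul_comm, ← mul_assoc, mul_inv_cancel,
    one_mul] at h1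
  exact h1

omit [FiniteDimensional ℚ K] in
include hχ in
/-- The local group at `ι ∘ s` acts trivially on `k(χ)`. -/
theorem locTarget_chiRep_trivial (q : ℕ) [Fact q.Prime] (s : GQ) (g : locGroup q K s)
    (x : locTarget q K (chiRep χ) s) : (locTarget q K (chiRep χ) s).ρ g x = x := by
  show (chiRep χ).ρ (localGaloisToGlobal q (g : Gq q)) x = x
  rw [chiRep_ρ_apply, chi_localGaloisToGlobal_eq_one K χ hχ q s g, Units.val_one, one_mul]

omit [FiniteDimensional ℚ K] in
/-- The pairing at the place `ι ∘ s` for the BASE triple is `χ(s) • mul`. -/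
theorem locPair_mulS_apply (q : ℕ) [Fact q.Prime] (s : GQ) (a b : k) :
    locPair q K (mulS K.fixingSubgroup χ) s a b = ((χ s : k) * (a * b) : k) := by
  rw [locPair_apply]
  rfl

/-- `Hlcⁿ(G_{K_s}, k)` (trivial coefficients), in the shape of `HlcW`. -/
abbrev HlcWT (q : ℕ) [Fact q.Prime] (s : GQ) (n : ℕ) : ModuleCat k :=
  HlcW S K (trivK (k := k) K) q s n

/-- The linear form `τv ∘ cor_s` on `Hlc²(G_{K_s}, k(χ))`. -/
abbrev tauW (q : ℕ) [Fact q.Prime] (τv : HlcQP S (chiRep χ) q 2 →ₗ[k] k) (s : GQ) :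
    HlcWP S K (P := chiRep χ) q s 2 →ₗ[k] k :=
  τv ∘ₗ corW S K (P := chiRep χ) q s 2

/-- **Local duality at a place of `K`, bidegree `(1,1)`**, for the BASE triple. -/
theorem locLamT_mulS_bijective_one_one (q : ℕ) [Fact q.Prime] (s : GQ)
    (hND : CupNonDeg k (levelLoc q K s)) (τv : HlcQP S (chiRep χ) q 2 →ₗ[k] k)
    (hτ : Function.Injective (tauW S K χ q τv s))
    [FiniteDimensional k (HlcWT S K (k := k) q s 1)] :
    Function.Bijective (locLamT S K (mulS K.fixingSubgroup χ)
      (mulS_equivariant K.fixingSubgroup χ hχ) q τv (show 1 + 1 = 2 from rfl) s) := by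
  have := isDiscrete_locTarget S K (P := chiRep χ) q s
  have hfd : FiniteDimensional k
      (Hlc (levelLoc q K s) (Rep.trivial k (locGroup q K s) k) 1) :=
    ‹FiniteDimensional k (HlcWT S K (k := k) q s 1)›
  have hB1 : locPair q K (mulS K.fixingSubgroup χ) s (1 : k) (1 : k) ≠ 0 := by
    rw [locPair_mulS_apply, mul_one, mul_one]
    exact (χ s).ne_zero
  exact bijective_cup_one_one (𝒰 := levelLoc q K s) (P := locTarget q K (chiRep χ) s)
    (B := locPair q K (mulS K.fixingSubgroup χ) s) hND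
    (locTarget_chiRep_trivial K χ hχ q s)
    (locPair_equivariant q K (mulS K.fixingSubgroup χ) (mulS_equivariant K.fixingSubgroup χ hχ) s)
    hB1 (tauW S K χ q τv s) hτ rfl

omit [FiniteDimensional ℚ K] in
/-- `b ↦ χ(s) • (1 * b)` is bijective. -/
theorem locPair_mulS_one_bijective (q : ℕ) [Fact q.Prime] (s : GQ) :
    Function.Bijective (locPair q K (mulS K.fixingSubgroup χ) s (1 : k)) := by
  have h : ∀ b : k, locPair q K (mulS K.fixingSubgroup χ) s (1 : k) b = ((χ s : k) * b : k) :=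
    fun b => by rw [locPair_mulS_apply, one_mul]
  constructor
  · intro a b hab
    rw [h, h] at hab
    exact mul_left_cancel₀ (χ s).ne_zero hab
  · intro c
    refine ⟨((χ s)⁻¹ : kˣ) * c, ?_⟩
    rw [h, ← mul_assoc, Units.mul_inv, one_mul]

/-- **Local duality at a place of `K`, bidegree `(0,2)`**, for the BASE triple. -/
theorem locLamT_mulS_bijective_zero_two (q : ℕ) [Fact q.Prime] (s : GQ)
    (τv : HlcQP S (chiRep χ) q 2 →ₗ[k] k)
    (hτ : Function.Bijective (tauW S K χ q τv s)) :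
    Function.Bijective (locLamT S K (mulS K.fixingSubgroup χ)
      (mulS_equivariant K.fixingSubgroup χ hχ) q τv (show 0 + 2 = 2 from rfl) s) := by
  have := isDiscrete_locTarget S K (P := chiRep χ) q s
  exact bijective_cup_zero_two (𝒰 := levelLoc q K s) (P := locTarget q K (chiRep χ) s)
    (B := locPair q K (mulS K.fixingSubgroup χ) s)
    (locTarget_chiRep_trivial K χ hχ q s)
    (locPair_equivariant q K (mulS K.fixingSubgroup χ) (mulS_equivariant K.fixingSubgroup χ hχ) s)
    (locPair_mulS_one_bijective K χ q s) (tauW S K χ q τv s) hτ rfl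

/-- **Local duality at a place of `K`, bidegree `(2,0)`**, for the BASE triple. -/
theorem locLamT_mulS_bijective_two_zero (q : ℕ) [Fact q.Prime] (s : GQ)
    (τv : HlcQP S (chiRep χ) q 2 →ₗ[k] k)
    (hτ : Function.Bijective (tauW S K χ q τv s)) :
    Function.Bijective (locLamT S K (mulS K.fixingSubgroup χ)
      (mulS_equivariant K.fixingSubgroup χ hχ) q τv (show 2 + 0 = 2 from rfl) s) := by
  have := isDiscrete_locTarget S K (P := chiRep χ) q s
  exact bijective_cup_two_zero (𝒰 := levelLoc q K s) (P := locTarget q K (chiRep χ) s)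
    (B := locPair q K (mulS K.fixingSubgroup χ) s)
    (locTarget_chiRep_trivial K χ hχ q s)
    (locPair_equivariant q K (mulS K.fixingSubgroup χ) (mulS_equivariant K.fixingSubgroup χ hχ) s)
    (locPair_mulS_one_bijective K χ q s) (tauW S K χ q τv s) hτ rfl

/-! ### All places: the `hlam02 / hlam11 / hlam20` of `BaseInputs` for `W = coind_{G_K}^{G_ℚ} 1` -/

section AllPlaces

/-- `Hlcⁿ(G_v, k(χ))` in the shape of the cone framework (`L = locDataQ S`), with the instance
supplied (instance search does not see through the abbreviation `chiRep`). -/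
abbrev HlcLocChi (v : (locDataQ S).ι) (n : ℕ) : ModuleCat k :=
  @Hlc k _ _ _ ((locDataQ S).𝒰v v) (Rep.res ((locDataQ S).r v) (chiRep χ))
    (LocalData.isDiscrete_res (locDataQ S) v (chiRep χ)) n

variable (hK : K.IsUnramifiedOutside S) [K.fixingSubgroup.FiniteIndex]
  [IsDiscrete (Fermat.Agent.GC.C0.levelS S) (coindK K (trivK (k := k) K))]
  (τ : (∀ v, HlcLocChi S χ v 2) →ₗ[k] k)

/-- The component of `τ` at `v ∈ S`. -/
abbrev tauAt (v : (locDataQ S).ι) : HlcQP S (chiRep χ) (v.1 : ℕ) 2 →ₗ[k] k :=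
  τ ∘ₗ LinearMap.single k (fun v => HlcLocChi S χ v 2) v

include hK in
/-- **`hlam11` for the BASE triple** from HILBERT (`CupNonDeg`), LOCAL-NUM (finiteness of `Hlc¹`)
and injectivity of `τ_v ∘ cor_w` at all places `w ∣ v ∈ S` of `K`. -/
theorem lam_mulS_bijective_one_one
    (lam : (∀ v, HlcLocW S K (trivK (k := k) K) v 1) →ₗ[k]
      (∀ v, HlcLocW S K (trivK (k := k) K) v 1) →ₗ[k] k)
    (hlam : ∀ b c, lam b c = tauCup S K (mulS K.fixingSubgroup χ)
      (mulS_equivariant K.fixingSubgroup χ hχ) τ (show 1 + 1 = 2 from rfl) b c)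
    (hND : ∀ (v : (locDataQ S).ι) (w : placeIdx (v.1 : ℕ) K),
      CupNonDeg k (levelLoc (v.1 : ℕ) K (placeRep (v.1 : ℕ) K w)))
    (hfin : ∀ (v : (locDataQ S).ι) (w : placeIdx (v.1 : ℕ) K),
      FiniteDimensional k (HlcWT S K (k := k) (v.1 : ℕ) (placeRep (v.1 : ℕ) K w) 1))
    (hτ : ∀ (v : (locDataQ S).ι) (w : placeIdx (v.1 : ℕ) K),
      Function.Injective (tauW S K χ (v.1 : ℕ) (tauAt S χ τ v) (placeRep (v.1 : ℕ) K w))) :
    Function.Bijective lam :=
  lam_bijective_of_formula S K (mulS K.fixingSubgroup χ) (mulS_equivariant K.fixingSubgroup χ hχ)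
    hK τ rfl lam hlam fun v w =>
      haveI := hfin v w
      locLamT_mulS_bijective_one_one S K χ hχ (v.1 : ℕ) (placeRep (v.1 : ℕ) K w) (hND v w)
        (tauAt S χ τ v) (hτ v w)

include hK in
/-- **`hlam02` for the BASE triple** from bijectivity of `τ_v ∘ cor_w` at all places. -/
theorem lam_mulS_bijective_zero_two
    (lam : (∀ v, HlcLocW S K (trivK (k := k) K) v 0) →ₗ[k]
      (∀ v, HlcLocW S K (trivK (k := k) K) v 2) →ₗ[k] k)
    (hlam : ∀ b c, lam b c = tauCup S K (mulS K.fixingSubgroup χ)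
      (mulS_equivariant K.fixingSubgroup χ hχ) τ (show 0 + 2 = 2 from rfl) b c)
    (hτ : ∀ (v : (locDataQ S).ι) (w : placeIdx (v.1 : ℕ) K),
      Function.Bijective (tauW S K χ (v.1 : ℕ) (tauAt S χ τ v) (placeRep (v.1 : ℕ) K w))) :
    Function.Bijective lam :=
  lam_bijective_of_formula S K (mulS K.fixingSubgroup χ) (mulS_equivariant K.fixingSubgroup χ hχ)
    hK τ rfl lam hlam fun v w =>
      locLamT_mulS_bijective_zero_two S K χ hχ (v.1 : ℕ) (placeRep (v.1 : ℕ) K w)
        (tauAt S χ τ v) (hτ v w)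

include hK in
/-- **`hlam20` for the BASE triple** from bijectivity of `τ_v ∘ cor_w` at all places. -/
theorem lam_mulS_bijective_two_zero
    (lam : (∀ v, HlcLocW S K (trivK (k := k) K) v 2) →ₗ[k]
      (∀ v, HlcLocW S K (trivK (k := k) K) v 0) →ₗ[k] k)
    (hlam : ∀ b c, lam b c = tauCup S K (mulS K.fixingSubgroup χ)
      (mulS_equivariant K.fixingSubgroup χ hχ) τ (show 2 + 0 = 2 from rfl) b c)
    (hτ : ∀ (v : (locDataQ S).ι) (w : placeIdx (v.1 : ℕ) K),
      Function.Bijective (tauW S K χ (v.1 : ℕ) (tauAt S χ τ v) (placeRep (v.1 : ℕ) K w))) :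
    Function.Bijective lam :=
  lam_bijective_of_formula S K (mulS K.fixingSubgroup χ) (mulS_equivariant K.fixingSubgroup χ hχ)
    hK τ rfl lam hlam fun v w =>
      locLamT_mulS_bijective_two_zero S K χ hχ (v.1 : ℕ) (placeRep (v.1 : ℕ) K w)
        (tauAt S χ τ v) (hτ v w)

end AllPlaces

end Fermat.Agent.GC.Places
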