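/-
GATE-C / C3 LOCAL-NUM-Q (helper41), PLACES part: the local numbers of `T = k(χ_cyc)` over `ℚ_q`
and the finite-dimensionality of `Λ = ∏_{q ∈ S} Hlc²(G_q, T)` (the `[FiniteDimensional k Λ]` binder
of `C0.PTSha_of_arith` and of `NaDescentCyc.finrank_le_range_locRes_of_forall_K`).

* `finiteDimensional_Hlc_chiQ`, `finrank_Hlc_two_chiQ = 1`, `euler_finrank_chiQ` for
  `chiRep (chiQ p q) = T|_{G_q}`;
* `finiteDimensional_Lam S p i (i ≤ 2)`, `finrank_Lam_two S p = S.card`.
-/
import Fermat.Agent.GC.Local.LocalNumQ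
import Fermat.Agent.GC.Places.ChiMuLoc
import Fermat.Agent.GC.PT.LocDataQ

set_option autoImplicit false

noncomputable section

open IntermediateField Fermat.Agent.GC.Local.KR Fermat.Agent.GC.Local.Abs Fermat.Agent.GC.Prof
open CategoryTheory ExtCitation Fermat.Agent.GC.Prof.Cone Fermat.Agent.GC.PT.LocDataQ

namespace Fermat.Agent.GC.Places.LocalNum

open Fermat.Agent.GC.Places Fermat.Agent.GC.Local.LocalNum

local notation "Qb" => AlgebraicClosure ℚ
local notation "GQ" => (AlgebraicClosure ℚ ≃ₐ[ℚ] AlgebraicClosure ℚ)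

section OneQ

variable (p : ℕ) [Fact p.Prime] (q : ℕ) [Fact q.Prime]

/-- The inverse of helper69's `chiMuQ` is equivariant. -/
theorem chiMuQ_symm_equivariant (g : Gq q) (a : muRep ℚ_[q] (PadicAlgCl q) p) :
    (chiMuQ p q).symm ((muRep ℚ_[q] (PadicAlgCl q) p).ρ g a) =
      (chiRep (chiQ p q)).ρ g ((chiMuQ p q).symm a) := by
  rw [AddEquiv.symm_apply_eq, chiMuQ_equivariant, AddEquiv.apply_symm_apply]

variable [Fermat.Agent.GC.Prof.IsDiscrete (levelQ q) (chiRep (chiQ p q))]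

/-- `Hlc^i(G_q, T)` is finite-dimensional for `i ≤ 2`. -/
theorem finiteDimensional_Hlc_chiQ (i : ℕ) (hi : i ≤ 2) :
    FiniteDimensional (ZMod p) (Hlc (levelQ q) (chiRep (chiQ p q)) i) :=
  finiteDimensional_Hlc_of_mu_base q p (chiRep (chiQ p q)) (chiMuQ p q).symm
    (chiMuQ_symm_equivariant p q) i hi

/-- `dim Hlc²(G_q, T) = 1`. -/
theorem finrank_Hlc_two_chiQ :
    Module.finrank (ZMod p) (Hlc (levelQ q) (chiRep (chiQ p q)) 2) = 1 :=
  finrank_Hlc_two_of_mu_base q p (chiRep (chiQ p q)) (chiMuQ p q).symm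
    (chiMuQ_symm_equivariant p q)

/-- Euler characteristic of `T` over `ℚ_q`: `h⁰ + h² + [q = p] = h¹`. -/
theorem euler_finrank_chiQ :
    Module.finrank (ZMod p) (Hlc (levelQ q) (chiRep (chiQ p q)) 0) +
        Module.finrank (ZMod p) (Hlc (levelQ q) (chiRep (chiQ p q)) 2) +
        (if q = p then 1 else 0) =
      Module.finrank (ZMod p) (Hlc (levelQ q) (chiRep (chiQ p q)) 1) :=
  euler_finrank_of_mu_base q p (chiRep (chiQ p q)) (chiMuQ p q).symm
    (chiMuQ_symm_equivariant p q)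

end OneQ

section Lam

attribute [local instance] Fermat.Agent.GC.PT.LocDataQ.factPrimeOfPrimes

variable (S : Finset Nat.Primes) (p : ℕ) [Fact p.Prime]
  [Fermat.Agent.GC.Prof.IsDiscrete (Fermat.Agent.GC.C0.levelS S) (chiRep (cycloChar p))]

/-- (instance search does not see through the abbreviation `chiRep`; local copy of helper74's
`MainInst.isDiscrete_res_chiRep`, propositionally irrelevant) -/
local instance isDiscrete_res_chiRep_locDataQ (v : (locDataQ S).ι) :
    Fermat.Agent.GC.Prof.IsDiscrete ((locDataQ S).𝒰v v)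
      (Rep.res ((locDataQ S).r v) (chiRep (cycloChar p))) :=
  LocalData.isDiscrete_res (locDataQ S) v (chiRep (cycloChar p))

/-- **`Λⁱ = ∏_{q ∈ S} Hlcⁱ(G_q, T)` is finite-dimensional**, `i ≤ 2`
(for `i = 2`: the binder of `PTSha_of_arith`). -/
theorem finiteDimensional_Lam (i : ℕ) (hi : i ≤ 2) :
    FiniteDimensional (ZMod p) (∀ v, Hlc ((locDataQ S).𝒰v v)
      (Rep.res ((locDataQ S).r v) (chiRep (cycloChar p))) i) := by
  have : ∀ v : (locDataQ S).ι, FiniteDimensional (ZMod p) (Hlc ((locDataQ S).𝒰v v)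
      (Rep.res ((locDataQ S).r v) (chiRep (cycloChar p))) i) := fun (v : ↥S) =>
    haveI := isDiscrete_chiRep_chiQ p ((v : Nat.Primes) : ℕ)
    finiteDimensional_Hlc_chiQ p ((v : Nat.Primes) : ℕ) i hi
  infer_instance

/-- **`dim Λ² = #S`.** -/
theorem finrank_Lam_two :
    Module.finrank (ZMod p) (∀ v, Hlc ((locDataQ S).𝒰v v)
      (Rep.res ((locDataQ S).r v) (chiRep (cycloChar p))) 2) = S.card := by
  have : ∀ v : (locDataQ S).ι, FiniteDimensional (ZMod p) (Hlc ((locDataQ S).𝒰v v)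
      (Rep.res ((locDataQ S).r v) (chiRep (cycloChar p))) 2) := fun (v : ↥S) =>
    haveI := isDiscrete_chiRep_chiQ p ((v : Nat.Primes) : ℕ)
    finiteDimensional_Hlc_chiQ p ((v : Nat.Primes) : ℕ) 2 le_rfl
  have h1 : ∀ v : (locDataQ S).ι, Module.finrank (ZMod p) (Hlc ((locDataQ S).𝒰v v)
      (Rep.res ((locDataQ S).r v) (chiRep (cycloChar p))) 2) = 1 := fun (v : ↥S) =>
    haveI := isDiscrete_chiRep_chiQ p ((v : Nat.Primes) : ℕ)
    finrank_Hlc_two_chiQ p ((v : Nat.Primes) : ℕ)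
  rw [Module.finrank_pi_fintype, Finset.sum_congr rfl fun v _ => h1 v, Finset.sum_const,
    smul_eq_mul, mul_one, Finset.card_univ]
  exact Fintype.card_coe S

end Lam

end Fermat.Agent.GC.Places.LocalNum
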