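/-
GATE-C / NA-DESCENT (helper69): descent of `dim coker locⁿ ≤ 1` from a number field `K` to `ℚ`.

`M` a discrete `G_ℚ`-module over a field `k`, `K/ℚ` finite, unramified outside `S`, of degree
invertible in `k`, `A = M|_{G_K}`.  If the total localisation over the places of `K` above `S`
(`TotalLoc.locResK`) has cokernel of dimension `≤ 1` in degree `n`, so has the total localisation
`locRes (locDataQ S) M n` over `ℚ`.

No Mackey formula for corestriction is needed: with `W = coind_{G_K}^{G_ℚ} A`, the unit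
`u : M ⟶ W` and the trace `t : W ⟶ M` (`u ≫ t = [K:ℚ]`, helper52) give the maps `resΛ`, `corΛ`,
`corH` of helper59's `CokerDescent.finrank_le_of_descent` by functoriality in the coefficients,
and the statement for `W` is the statement for `(K, A)` by `TotalLoc.finrank_le_range_locRes_add`.
-/
import Mathlib
import Fermat.Agent.GC.Places.TotalLoc
import Fermat.Agent.GC.PT.CokerDescent
import Fermat.Agent.GC.Tate.Cor

set_option autoImplicit false

noncomputable section

open IntermediateField Fermat.Agent.GC.Local.KR Fermat.Agent.GC.Prof CategoryTheory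
open Fermat.Agent.GC.Prof.Cone Fermat.Agent.GC.PT.LocDataQ Fermat.Agent.GC.Tate

namespace Fermat.Agent.GC.Places

local notation "Qb" => AlgebraicClosure ℚ
local notation "GQ" => (AlgebraicClosure ℚ ≃ₐ[ℚ] AlgebraicClosure ℚ)

attribute [local instance] fact_prime

section Abstract

universe u

variable {k G : Type u} [CommRing k] [Group G] {𝒰 : LevelSystem G} (L : LocalData 𝒰)

/-- The map induced on the local terms `∏_v Hlcⁿ(G_v, ·)` by a morphism of coefficients. -/
def locMapPi {M N : Rep.{u} k G} [IsDiscrete 𝒰 M] [IsDiscrete 𝒰 N] (φ : M ⟶ N) (n : ℕ) :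
    (∀ v, Hlc (L.𝒰v v) (Rep.res (L.r v) M) n) →ₗ[k] ∀ v, Hlc (L.𝒰v v) (Rep.res (L.r v) N) n :=
  LinearMap.pi fun v =>
    (HlcMap (L.𝒰v v) ((Rep.resFunctor (L.r v)).map φ) n).hom ∘ₗ LinearMap.proj v

@[simp]
lemma locMapPi_apply {M N : Rep.{u} k G} [IsDiscrete 𝒰 M] [IsDiscrete 𝒰 N] (φ : M ⟶ N) (n : ℕ)
    (l : ∀ v, Hlc (L.𝒰v v) (Rep.res (L.r v) M) n) (v : L.ι) :
    locMapPi L φ n l v = HlcMap (L.𝒰v v) ((Rep.resFunctor (L.r v)).map φ) n (l v) := rfl

/-- Localisation is natural in the coefficients. -/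
theorem locRes_HlcMap {M N : Rep.{u} k G} [IsDiscrete 𝒰 M] [IsDiscrete 𝒰 N] (φ : M ⟶ N) (n : ℕ)
    (x : Hlc 𝒰 M n) :
    locRes L N n (HlcMap 𝒰 φ n x) = locMapPi L φ n (locRes L M n x) := by
  funext v
  rw [locRes_apply, locMapPi_apply, locRes_apply]
  exact congr($(HlcMap_comp_HlcRes (L.cont v) φ n) x)

theorem locMapPi_comp {M N P : Rep.{u} k G} [IsDiscrete 𝒰 M] [IsDiscrete 𝒰 N] [IsDiscrete 𝒰 P]
    (φ : M ⟶ N) (ψ : N ⟶ P) (n : ℕ) (l : ∀ v, Hlc (L.𝒰v v) (Rep.res (L.r v) M) n) :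
    locMapPi L ψ n (locMapPi L φ n l) = locMapPi L (φ ≫ ψ) n l := by
  funext v
  rw [locMapPi_apply, locMapPi_apply, locMapPi_apply, Functor.map_comp, HlcMap_comp]
  rfl

theorem locMapPi_smul_id {M : Rep.{u} k G} [IsDiscrete 𝒰 M] (c : k) (n : ℕ)
    (l : ∀ v, Hlc (L.𝒰v v) (Rep.res (L.r v) M) n) :
    locMapPi L (c • 𝟙 M) n l = c • l := by
  funext v
  rw [locMapPi_apply]
  have h : (Rep.resFunctor (L.r v)).map (c • 𝟙 M) = c • 𝟙 (Rep.res (L.r v) M) := rfl
  rw [h, HlcMap_smul_hom, HlcMap_id]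
  rfl

end Abstract

section AbstractField

universe u

variable {k G : Type u} [Field k] [Group G] {𝒰 : LevelSystem G} (L : LocalData 𝒰)

/-- **Descent of `dim coker locⁿ ≤ 1` to a quasi-retract of the coefficients**: if
`u : M ⟶ W`, `t : W ⟶ M` satisfy `u ≫ t = c • 𝟙` with `c ≠ 0`, the bound for `W` implies the
bound for `M`. -/
theorem finrank_le_range_locRes_of_quasiRetract {M W : Rep.{u} k G} [IsDiscrete 𝒰 M]
    [IsDiscrete 𝒰 W] (u : M ⟶ W) (t : W ⟶ M) (c : k) (hc : c ≠ 0) (hut : u ≫ t = c • 𝟙 M)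
    (n : ℕ)
    [hfdM : FiniteDimensional k (∀ v, Hlc (L.𝒰v v) (Rep.res (L.r v) M) n)]
    [hfdW : FiniteDimensional k (∀ v, Hlc (L.𝒰v v) (Rep.res (L.r v) W) n)]
    (h₁ : Module.finrank k (∀ v, Hlc (L.𝒰v v) (Rep.res (L.r v) W) n) ≤
      Module.finrank k (LinearMap.range (locRes L W n)) + 1) :
    Module.finrank k (∀ v, Hlc (L.𝒰v v) (Rep.res (L.r v) M) n) ≤
      Module.finrank k (LinearMap.range (locRes L M n)) + 1 :=
  Fermat.Agent.GC.PT.CokerDescent.finrank_le_of_descent (locRes L M n) (locRes L W n)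
    (locMapPi L u n) (locMapPi L t n) (HlcMap 𝒰 t n).hom c hc
    (fun l => by rw [locMapPi_comp, hut, locMapPi_smul_id])
    (fun x => locRes_HlcMap L t n x) h₁

end AbstractField

/-! ### The concrete statement -/

section Concrete

variable (S : Finset Nat.Primes) (K : IntermediateField ℚ Qb) [FiniteDimensional ℚ K]
  (hK : K.IsUnramifiedOutside S)
variable {k : Type} [Field k] (M : Rep k GQ) [IsDiscrete (Fermat.Agent.GC.C0.levelS S) M]
  [IsDiscrete (levelK S K) (Rep.res K.fixingSubgroup.subtype M)]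

include hK in
/-- **(N-a) descends from `K` to `ℚ`** when `[G_ℚ : G_K]` is invertible in `k`. -/
theorem finrank_le_range_locRes_of_K (n : ℕ)
    (hn : ((K.fixingSubgroup.index : ℕ) : k) ≠ 0)
    [FiniteDimensional k (∀ v : (locDataQ S).ι,
      Hlc ((locDataQ S).𝒰v v) (Rep.res ((locDataQ S).r v) M) n)]
    [FiniteDimensional k (∀ q : ↥S, ∀ w : placeIdx (q.1 : ℕ) K,
      HlcW S K (Rep.res K.fixingSubgroup.subtype M) (q.1 : ℕ) (placeRep (q.1 : ℕ) K w) n)]
    (h₁ : Module.finrank k (∀ q : ↥S, ∀ w : placeIdx (q.1 : ℕ) K,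
        HlcW S K (Rep.res K.fixingSubgroup.subtype M) (q.1 : ℕ) (placeRep (q.1 : ℕ) K w) n) ≤
      Module.finrank k
        (LinearMap.range (locResK S K (Rep.res K.fixingSubgroup.subtype M) n)) + 1) :
    Module.finrank k (∀ v : (locDataQ S).ι,
        Hlc ((locDataQ S).𝒰v v) (Rep.res ((locDataQ S).r v) M) n) ≤
      Module.finrank k (LinearMap.range (locRes (locDataQ S) M n)) + 1 := by
  have hfi : K.fixingSubgroup.FiniteIndex := (isOpenSub_fixingSubgroup S K hK).finiteIndex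
  have hW : IsDiscrete (Fermat.Agent.GC.C0.levelS S)
      (coindK K (Rep.res K.fixingSubgroup.subtype M)) :=
    isDiscrete_coind_levelS S K (Rep.res K.fixingSubgroup.subtype M) hK
  have hfdW : FiniteDimensional k (∀ v : (locDataQ S).ι, @Hlc k _ _ _ ((locDataQ S).𝒰v v)
      (Rep.res ((locDataQ S).r v) (coindK K (Rep.res K.fixingSubgroup.subtype M)))
      (LocalData.isDiscrete_res (locDataQ S) v _) n) :=
    LinearEquiv.finiteDimensional
      (mackeyS S K hK (Rep.res K.fixingSubgroup.subtype M) n).symm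
  exact finrank_le_range_locRes_of_quasiRetract (locDataQ S) (hfdW := hfdW)
    (coindUnit K.fixingSubgroup M) (coindTrace K.fixingSubgroup M)
    ((K.fixingSubgroup.index : ℕ) : k) hn (coindUnit_comp_coindTrace K.fixingSubgroup M) n
    (finrank_le_range_locRes_add S K hK (Rep.res K.fixingSubgroup.subtype M) n 1 h₁)

omit [FiniteDimensional ℚ K] in
/-- `[G_ℚ : G_K] = [K : ℚ]`. -/
theorem index_fixingSubgroup_eq_finrank : K.fixingSubgroup.index = Module.finrank ℚ K := by
  have := isGalois_Qb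
  exact (IntermediateField.finrank_eq_fixingSubgroup_index Qb K).symm

include hK in
/-- (N-a) descends from `K` to `ℚ` when `[K : ℚ]` is invertible in `k`. -/
theorem finrank_le_range_locRes_of_K' (n : ℕ)
    (hn : ((Module.finrank ℚ K : ℕ) : k) ≠ 0)
    [FiniteDimensional k (∀ v : (locDataQ S).ι,
      Hlc ((locDataQ S).𝒰v v) (Rep.res ((locDataQ S).r v) M) n)]
    [FiniteDimensional k (∀ q : ↥S, ∀ w : placeIdx (q.1 : ℕ) K,
      HlcW S K (Rep.res K.fixingSubgroup.subtype M) (q.1 : ℕ) (placeRep (q.1 : ℕ) K w) n)]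
    (h₁ : Module.finrank k (∀ q : ↥S, ∀ w : placeIdx (q.1 : ℕ) K,
        HlcW S K (Rep.res K.fixingSubgroup.subtype M) (q.1 : ℕ) (placeRep (q.1 : ℕ) K w) n) ≤
      Module.finrank k
        (LinearMap.range (locResK S K (Rep.res K.fixingSubgroup.subtype M) n)) + 1) :
    Module.finrank k (∀ v : (locDataQ S).ι,
        Hlc ((locDataQ S).𝒰v v) (Rep.res ((locDataQ S).r v) M) n) ≤
      Module.finrank k (LinearMap.range (locRes (locDataQ S) M n)) + 1 :=
  finrank_le_range_locRes_of_K S K hK M n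
    (by rw [index_fixingSubgroup_eq_finrank]; exact hn) h₁

end Concrete

end Fermat.Agent.GC.Places
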