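/-
GATE-C / NA-DESCENT (helper69), part 2: the field `K₁ = ℚ(μ_p)` (fixed field of the kernel of the
mod `p` cyclotomic character) is finite, unramified outside `S ∋ p`, of degree prime to `p`, and
the cyclotomic character is trivial on `G_{K₁}`.  Hence `(N-a)` for any discrete
`Rep (ZMod p) G_ℚ` follows from `(N-a)` over `K₁` (`TotalLoc.locResK` language), which is a
field containing `μ_p` — the situation covered by KUMMER-BRIDGE.
-/
import Mathlib
import Fermat.Agent.GC.Places.NaDescent
import Fermat.Agent.GC.C0.PTShaOfBase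

set_option autoImplicit false

noncomputable section

open IntermediateField Fermat.Agent.GC.Local.KR Fermat.Agent.GC.Prof CategoryTheory ExtCitation
open Fermat.Agent.GC.Prof.Cone Fermat.Agent.GC.PT.LocDataQ

namespace Fermat.Agent.GC.Places

local notation "Qb" => AlgebraicClosure ℚ
local notation "GQ" => (AlgebraicClosure ℚ ≃ₐ[ℚ] AlgebraicClosure ℚ)

attribute [local instance] fact_prime

variable (p : ℕ) [Fact p.Prime] (S : Finset Nat.Primes)

/-- The index of the kernel of the mod `p` cyclotomic character is prime to `p`. -/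
theorem index_ker_cycloChar_ne_zero : (((cycloChar p).ker.index : ℕ) : ZMod p) ≠ 0 := by
  have hp : p.Prime := Fact.out
  rw [Ne, ZMod.natCast_eq_zero_iff, Subgroup.index_ker]
  intro hdvd
  have h1 : Nat.card (cycloChar p).range ∣ Nat.card (ZMod p)ˣ :=
    Subgroup.card_subgroup_dvd_card _
  have h2 : Nat.card (ZMod p)ˣ = p - 1 := by
    rw [Nat.card_eq_fintype_card, ZMod.card_units_eq_totient, Nat.totient_prime hp]
  rw [h2] at h1
  have h3 : p ∣ p - 1 := hdvd.trans h1
  have h4 : p ≤ p - 1 := Nat.le_of_dvd (Nat.sub_pos_of_lt hp.one_lt) h3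
  have := hp.pos
  omega

/-- **The field `ℚ(μ_p)`** in the language of `levelS S`. -/
theorem exists_field_cycloChar (hpS : pPrime p ∈ S) :
    ∃ K : IntermediateField ℚ Qb, FiniteDimensional ℚ K ∧ K.IsUnramifiedOutside S ∧
      (∀ g ∈ K.fixingSubgroup, cycloChar p g = 1) ∧
      ((K.fixingSubgroup.index : ℕ) : ZMod p) ≠ 0 := by
  obtain ⟨U, ⟨K, hK, hU⟩, hker⟩ := Fermat.Agent.GC.C0.exists_levelS_cycloChar_eq_one S hpS
  -- the member produced is the kernel itself, but we do not need to know it: enlarge to the kernel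
  have hmem : (cycloChar p).ker ∈ (Fermat.Agent.GC.C0.levelS S).sets := by
    apply Fermat.Agent.GC.C0.mem_levelS_of_isOpen_of_inertia_le
    · have hopen : IsOpen (K.fixingSubgroup : Set GQ) := by
        have := hK.1
        exact (InfiniteGalois.isOpen_iff_finite K).2 this
      refine Subgroup.isOpen_mono (H₁ := K.fixingSubgroup) (H₂ := (cycloChar p).ker)
        (fun σ hσ => (MonoidHom.mem_ker).2 (hker σ (hU ▸ hσ))) hopen
    · intro q hq A hA σ hσ
      have hne : (q : ℕ) ≠ p := by
        rintro h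
        apply hq
        have : q = pPrime p := Subtype.ext h
        rw [this]
        exact hpS
      exact (MonoidHom.mem_ker).2 (Fermat.Agent.GC.C0.cycloChar_inertia q.2 hne hA hσ)
  obtain ⟨K₁, hK₁, hker₁⟩ := hmem
  refine ⟨K₁, hK₁.1, hK₁, fun g hg => ?_, ?_⟩
  · exact (MonoidHom.mem_ker).1 (hker₁ ▸ hg)
  · rw [← hker₁]
    exact index_ker_cycloChar_ne_zero p

variable {p}

/-- **(N-a) over `ℚ` from (N-a) over the fields containing `μ_p`**: for a discrete
`M : Rep (ZMod p) G_ℚ`, if for every finite `K ⊂ ℚ_S` on whose Galois group the cyclotomic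
character is trivial the total localisation `locResK S K (M|_{G_K}) n` has cokernel of dimension
`≤ 1` (and finite-dimensional target), then so has `locRes (locDataQ S) M n`. -/
theorem finrank_le_range_locRes_of_forall_K (hpS : pPrime p ∈ S) (M : Rep (ZMod p) GQ)
    [IsDiscrete (Fermat.Agent.GC.C0.levelS S) M] (n : ℕ)
    [FiniteDimensional (ZMod p) (∀ v : (locDataQ S).ι,
      Hlc ((locDataQ S).𝒰v v) (Rep.res ((locDataQ S).r v) M) n)]
    (h : ∀ (K : IntermediateField ℚ Qb) [FiniteDimensional ℚ K], K.IsUnramifiedOutside S →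
      (∀ g ∈ K.fixingSubgroup, cycloChar p g = 1) →
      ∀ [IsDiscrete (levelK S K) (Rep.res K.fixingSubgroup.subtype M)],
        FiniteDimensional (ZMod p) (∀ q : ↥S, ∀ w : placeIdx (q.1 : ℕ) K,
          HlcW S K (Rep.res K.fixingSubgroup.subtype M) (q.1 : ℕ) (placeRep (q.1 : ℕ) K w) n) ∧
        Module.finrank (ZMod p) (∀ q : ↥S, ∀ w : placeIdx (q.1 : ℕ) K,
          HlcW S K (Rep.res K.fixingSubgroup.subtype M) (q.1 : ℕ) (placeRep (q.1 : ℕ) K w) n) ≤
        Module.finrank (ZMod p)
          (LinearMap.range (locResK S K (Rep.res K.fixingSubgroup.subtype M) n)) + 1) :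
    Module.finrank (ZMod p) (∀ v : (locDataQ S).ι,
        Hlc ((locDataQ S).𝒰v v) (Rep.res ((locDataQ S).r v) M) n) ≤
      Module.finrank (ZMod p) (LinearMap.range (locRes (locDataQ S) M n)) + 1 := by
  obtain ⟨K, hfd, hK, hχ, hn⟩ := exists_field_cycloChar p S hpS
  haveI := hfd
  haveI := isDiscrete_res_levelK S K M
  obtain ⟨hfin, hle⟩ := h K hK hχ
  haveI := hfin
  exact finrank_le_range_locRes_of_K S K hK M n hn hle

end Fermat.Agent.GC.Places
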