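/-
GATE-C / NA-DESCENT (helper69), part 3: change of coefficients over `K`.

`(N-a)_ℚ` for a discrete `G_ℚ`-module `M` follows from `(N-a)_K` for ANY discrete `G_K`-module `A`
isomorphic to `M|_{G_K}` (`[K:ℚ]` invertible in `k`).  For `M = k(χ)` with `χ|_{G_K} = 1` one may
take `A = Rep.trivial k G_K k`: so ONE statement `(N-a)_K` for the trivial coefficients
`Rep.trivial (ZMod p) G_K (ZMod p)` — the `cokK` field of helper19's `BaseInputsK`, the shape
announced by helper77 — gives the `hNa` argument of `PTSha_of_arith`.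
-/
import Mathlib
import Fermat.Agent.GC.Places.NaDescentCyc
import Fermat.Agent.GC.Prof.CoindDualCup
import Fermat.Agent.GC.PT.MainInst

set_option autoImplicit false

noncomputable section

open IntermediateField Fermat.Agent.GC.Local.KR Fermat.Agent.GC.Prof CategoryTheory ExtCitation
open Fermat.Agent.GC.Prof.Cone Fermat.Agent.GC.PT.LocDataQ Fermat.Agent.GC.Tate
open Fermat.Agent.GC.PT.MainInst

namespace Fermat.Agent.GC.Places

local notation "Qb" => AlgebraicClosure ℚ
local notation "GQ" => (AlgebraicClosure ℚ ≃ₐ[ℚ] AlgebraicClosure ℚ)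

attribute [local instance] fact_prime

section Iso

variable (S : Finset Nat.Primes) (K : IntermediateField ℚ Qb) [FiniteDimensional ℚ K]
  (hK : K.IsUnramifiedOutside S)
variable {k : Type} [Field k] (M : Rep k GQ) [IsDiscrete (Fermat.Agent.GC.C0.levelS S) M]
  (A : Rep k K.fixingSubgroup) [IsDiscrete (levelK S K) A]

include hK in
/-- **(N-a) descends from `(K, A)` to `(ℚ, M)`** when `A ≅ M|_{G_K}` and `[G_ℚ : G_K]` is
invertible in `k`. -/
theorem finrank_le_range_locRes_of_K_iso (e : Rep.res K.fixingSubgroup.subtype M ≅ A) (n : ℕ)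
    (hn : ((K.fixingSubgroup.index : ℕ) : k) ≠ 0)
    [FiniteDimensional k (∀ v : (locDataQ S).ι,
      Hlc ((locDataQ S).𝒰v v) (Rep.res ((locDataQ S).r v) M) n)]
    [FiniteDimensional k (∀ q : ↥S, ∀ w : placeIdx (q.1 : ℕ) K,
      HlcW S K A (q.1 : ℕ) (placeRep (q.1 : ℕ) K w) n)]
    (h₁ : Module.finrank k (∀ q : ↥S, ∀ w : placeIdx (q.1 : ℕ) K,
        HlcW S K A (q.1 : ℕ) (placeRep (q.1 : ℕ) K w) n) ≤
      Module.finrank k (LinearMap.range (locResK S K A n)) + 1) :
    Module.finrank k (∀ v : (locDataQ S).ι,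
        Hlc ((locDataQ S).𝒰v v) (Rep.res ((locDataQ S).r v) M) n) ≤
      Module.finrank k (LinearMap.range (locRes (locDataQ S) M n)) + 1 := by
  have hfi : K.fixingSubgroup.FiniteIndex := (isOpenSub_fixingSubgroup S K hK).finiteIndex
  have hW : IsDiscrete (Fermat.Agent.GC.C0.levelS S) (coindK K A) :=
    isDiscrete_coind_levelS S K A hK
  have hfdW : FiniteDimensional k (∀ v : (locDataQ S).ι, @Hlc k _ _ _ ((locDataQ S).𝒰v v)
      (Rep.res ((locDataQ S).r v) (coindK K A))
      (LocalData.isDiscrete_res (locDataQ S) v _) n) :=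
    LinearEquiv.finiteDimensional (mackeyS S K hK A n).symm
  let F := Rep.coindFunctor k K.fixingSubgroup.subtype
  let a : Rep.coind K.fixingSubgroup.subtype (Rep.res K.fixingSubgroup.subtype M) ⟶ coindK K A :=
    F.map e.hom
  let b : coindK K A ⟶ Rep.coind K.fixingSubgroup.subtype (Rep.res K.fixingSubgroup.subtype M) :=
    F.map e.inv
  have hab : a ≫ b = 𝟙 _ := by
    show F.map e.hom ≫ F.map e.inv = 𝟙 _
    rw [← F.map_comp, e.hom_inv_id, F.map_id]
  refine finrank_le_range_locRes_of_quasiRetract (locDataQ S) (M := M) (W := coindK K A)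
    (hfdW := hfdW) (coindUnit K.fixingSubgroup M ≫ a) (b ≫ coindTrace K.fixingSubgroup M)
    ((K.fixingSubgroup.index : ℕ) : k) hn ?_ n
    (finrank_le_range_locRes_add S K hK A n 1 h₁)
  rw [Category.assoc, ← Category.assoc a, hab, Category.id_comp]
  exact coindUnit_comp_coindTrace K.fixingSubgroup M

end Iso

section Chi

universe u

variable {k G : Type u} [CommRing k] [Group G] (H : Subgroup G) (χ : G →* kˣ)

/-- `k(χ)|_H ≅ k` (trivial action) when `χ|_H = 1`: the identity of `k`. -/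
def resChiRepTrivIso (hχ : ∀ g ∈ H, χ g = 1) :
    Rep.res H.subtype (chiRep χ) ≅ Rep.trivial k H k :=
  Rep.mkIso (Representation.Equiv.mk (LinearEquiv.refl k k) fun h => by
    ext
    show (χ (h : G) : k) * (1 : k) = (1 : k)
    rw [hχ h h.2, Units.val_one, one_mul])

end Chi

section Cyc

variable {p : ℕ} [Fact p.Prime] (S : Finset Nat.Primes)

/-- **`hNa` of `PTSha_of_arith` from `(N-a)_K` for the TRIVIAL coefficients** over the finite
`K ⊂ ℚ_S` with `χ_cyc|_{G_K} = 1` (i.e. `K ∋ μ_p`). -/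
theorem finrank_le_range_locRes_chiRep_of_forall_K_trivial (hpS : pPrime p ∈ S) (n : ℕ)
    [IsDiscrete (Fermat.Agent.GC.C0.levelS S) (chiRep (k := ZMod p) (cycloChar p))]
    [FiniteDimensional (ZMod p) (∀ v : (locDataQ S).ι,
      Hlc ((locDataQ S).𝒰v v) (Rep.res ((locDataQ S).r v) (chiRep (cycloChar p))) n)]
    (h : ∀ (K : IntermediateField ℚ Qb) [FiniteDimensional ℚ K], K.IsUnramifiedOutside S →
      (∀ g ∈ K.fixingSubgroup, cycloChar p g = 1) →
      ∀ [IsDiscrete (levelK S K) (Rep.trivial (ZMod p) K.fixingSubgroup (ZMod p))],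
        FiniteDimensional (ZMod p) (∀ q : ↥S, ∀ w : placeIdx (q.1 : ℕ) K,
          HlcW S K (Rep.trivial (ZMod p) K.fixingSubgroup (ZMod p)) (q.1 : ℕ)
            (placeRep (q.1 : ℕ) K w) n) ∧
        Module.finrank (ZMod p) (∀ q : ↥S, ∀ w : placeIdx (q.1 : ℕ) K,
          HlcW S K (Rep.trivial (ZMod p) K.fixingSubgroup (ZMod p)) (q.1 : ℕ)
            (placeRep (q.1 : ℕ) K w) n) ≤
        Module.finrank (ZMod p) (LinearMap.range
          (locResK S K (Rep.trivial (ZMod p) K.fixingSubgroup (ZMod p)) n)) + 1) :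
    Module.finrank (ZMod p) (∀ v : (locDataQ S).ι,
        Hlc ((locDataQ S).𝒰v v) (Rep.res ((locDataQ S).r v) (chiRep (cycloChar p))) n) ≤
      Module.finrank (ZMod p) (LinearMap.range (locRes (locDataQ S) (chiRep (cycloChar p)) n)) + 1 := by
  obtain ⟨K, hfd, hK, hχ, hn⟩ := exists_field_cycloChar p S hpS
  have := hfd
  have hd : IsDiscrete (levelK S K) (Rep.trivial (ZMod p) K.fixingSubgroup (ZMod p)) :=
    ⟨fun a => by
      obtain ⟨U, hU⟩ := (levelK S K).nonempty
      exact ⟨U, hU, fun _ _ => rfl⟩⟩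
  obtain ⟨hfin, hle⟩ := h K hK hχ
  have := hfin
  exact finrank_le_range_locRes_of_K_iso S K hK (chiRep (cycloChar p))
    (Rep.trivial (ZMod p) K.fixingSubgroup (ZMod p))
    (resChiRepTrivIso K.fixingSubgroup (cycloChar p) hχ) n hn hle

end Cyc

end Fermat.Agent.GC.Places
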