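/-
GATE-C / NA-DESCENT (helper69), part 4: the `hNa` argument of `PTSha_of_arith` from the `cokK`
field of helper19's `BaseInputsK` (language of `GC/PT/BaseInstQ.lean`: `LocKw`, `locK`, coefficients
`Rep.trivial (ZMod p) G_K (ZMod p)`), for the finite `K ⊂ ℚ_S` on whose Galois group the mod `p`
cyclotomic character is trivial.  (`BaseInstQ.locK = TotalLoc.locResK` by `rfl`.)
-/
import Mathlib
import Fermat.Agent.GC.Places.NaCoeff
import Fermat.Agent.GC.PT.BaseInstQ

set_option autoImplicit false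

noncomputable section

open IntermediateField Fermat.Agent.GC.Local.KR Fermat.Agent.GC.Prof CategoryTheory ExtCitation
open Fermat.Agent.GC.Prof.Cone Fermat.Agent.GC.PT.LocDataQ Fermat.Agent.GC.Tate
open Fermat.Agent.GC.PT.MainInst Fermat.Agent.GC.PT

namespace Fermat.Agent.GC.Places

local notation "Qb" => AlgebraicClosure ℚ
local notation "GQ" => (AlgebraicClosure ℚ ≃ₐ[ℚ] AlgebraicClosure ℚ)

attribute [local instance] fact_prime

variable {p : ℕ} [Fact p.Prime] (S : Finset Nat.Primes)

/-- `BaseInstQ.locK` is `TotalLoc.locResK`. -/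
theorem locK_eq_locResK (K : IntermediateField ℚ Qb) [FiniteDimensional ℚ K] {k : Type} [Field k]
    (A : Rep k K.fixingSubgroup) [BaseInstQ.InstDisc S K A] (n : ℕ) :
    BaseInstQ.locK S K A n = locResK S K A n := rfl

/-- **`hNa` of `PTSha_of_arith` from `(N-a)_K` in the `BaseInstQ` language**, trivial
coefficients, over the finite `K ⊂ ℚ_S` with `χ_cyc|_{G_K} = 1`. -/
theorem finrank_le_range_locRes_chiRep_of_cokK (hpS : pPrime p ∈ S) (n : ℕ)
    [IsDiscrete (Fermat.Agent.GC.C0.levelS S) (chiRep (k := ZMod p) (cycloChar p))]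
    [FiniteDimensional (ZMod p) (∀ v : (locDataQ S).ι,
      Hlc ((locDataQ S).𝒰v v) (Rep.res ((locDataQ S).r v) (chiRep (cycloChar p))) n)]
    (h : ∀ (K : IntermediateField ℚ Qb) [FiniteDimensional ℚ K], K.IsUnramifiedOutside S →
      (∀ g ∈ K.fixingSubgroup, cycloChar p g = 1) →
      ∀ [BaseInstQ.InstDisc S K (Rep.trivial (ZMod p) K.fixingSubgroup (ZMod p))],
        FiniteDimensional (ZMod p)
          (BaseInstQ.LocKw S K (Rep.trivial (ZMod p) K.fixingSubgroup (ZMod p)) n) ∧
        Module.finrank (ZMod p)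
          (BaseInstQ.LocKw S K (Rep.trivial (ZMod p) K.fixingSubgroup (ZMod p)) n) ≤
        Module.finrank (ZMod p) (LinearMap.range
          (BaseInstQ.locK S K (Rep.trivial (ZMod p) K.fixingSubgroup (ZMod p)) n)) + 1) :
    Module.finrank (ZMod p) (∀ v : (locDataQ S).ι,
        Hlc ((locDataQ S).𝒰v v) (Rep.res ((locDataQ S).r v) (chiRep (cycloChar p))) n) ≤
      Module.finrank (ZMod p)
        (LinearMap.range (locRes (locDataQ S) (chiRep (cycloChar p)) n)) + 1 := by
  refine finrank_le_range_locRes_chiRep_of_forall_K_trivial S hpS n ?_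
  intro K hfd hK hχ hd
  have hI : BaseInstQ.InstDisc S K (Rep.trivial (ZMod p) K.fixingSubgroup (ZMod p)) :=
    BaseInstQ.instDisc_of S K _ hK
  exact h K hK hχ

end Fermat.Agent.GC.Places
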