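/-
GATE-C / PLACES-MACKEY (helper69), part 1: the Mackey decomposition of a module coinduced from
`G_K` to `G_ℚ`, restricted to `G_{ℚ_q}` along `r = localGaloisToGlobal q`.

`K ⊆ Qbar`, `G_K = K.fixingSubgroup`, `A : Rep k G_K`, `s_w = placeRep w` for `w : placeIdx q K`.
* `evW q K A s : Res_r (coind_{G_K}^{G_ℚ} A) ⟶ coind_{locGroup q K s}^{G_{ℚ_q}} (Res_{locHom q K s} A)`,
  `f ↦ (τ ↦ f (s⁻¹ * r τ))`;
* `mackeyIso q K A : Res_r (coind A) ≅ ∏_w coind_{locGroup s_w} (Res_{locHom s_w} A)` in
  `Rep k (Gq q)` (`piRep` of helper72's `GC/Global/Mackey.lean`).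
-/
import Mathlib
import Fermat.Agent.GC.Places.Basic
import Fermat.Agent.GC.Global.Mackey

set_option autoImplicit false

noncomputable section

open IntermediateField Fermat.Agent.GC.Local.KR CategoryTheory

namespace Fermat.Agent.GC.Places

local notation "Qb" => AlgebraicClosure ℚ
local notation "GQ" => (AlgebraicClosure ℚ ≃ₐ[ℚ] AlgebraicClosure ℚ)

variable (q : ℕ) [Fact q.Prime] (K : IntermediateField ℚ Qb)
variable {k : Type} [CommRing k] (A : Rep k K.fixingSubgroup)

/-- The coinduced module `coind_{G_K}^{G_ℚ} A`, restricted to `G_{ℚ_q}`. -/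
abbrev resCoind : Rep k (Gq q) :=
  Rep.res (localGaloisToGlobal q) (Rep.coind K.fixingSubgroup.subtype A)

/-- The local factor at the place `ι ∘ s`:
`coind_{locGroup q K s}^{G_{ℚ_q}} (Res_{locHom q K s} A)`. -/
abbrev locFactor (s : GQ) : Rep k (Gq q) :=
  Rep.coind (locGroup q K s).subtype (Rep.res (locHom q K s) A)

/-- The underlying linear map of `evW`. -/
def evWLin (s : GQ) :
    Representation.coindV K.fixingSubgroup.subtype A.ρ →ₗ[k]
      Representation.coindV (locGroup q K s).subtype (Rep.res (locHom q K s) A).ρ where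
  toFun f := ⟨fun τ => f.1 (s⁻¹ * localGaloisToGlobal q τ), by
    intro σ τ
    have := f.2 (locHom q K s σ) (s⁻¹ * localGaloisToGlobal q τ)
    rw [Subgroup.coe_subtype, coe_locHom] at this
    show f.1 (s⁻¹ * localGaloisToGlobal q ((σ : Gq q) * τ)) =
      A.ρ (locHom q K s σ) (f.1 (s⁻¹ * localGaloisToGlobal q τ))
    rw [← this, map_mul]
    group⟩
  map_add' f g := by ext; rfl
  map_smul' c f := by ext; rfl

@[simp]
theorem evWLin_apply (s : GQ) (f : Representation.coindV K.fixingSubgroup.subtype A.ρ)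
    (τ : Gq q) : (evWLin q K A s f).1 τ = f.1 (s⁻¹ * localGaloisToGlobal q τ) := rfl

/-- The component map of the Mackey decomposition at the place `ι ∘ s`. -/
def evW (s : GQ) : resCoind q K A ⟶ locFactor q K A s :=
  Rep.ofHom ⟨evWLin q K A s, fun τ' => by
    ext f τ
    show f.1 (s⁻¹ * localGaloisToGlobal q τ * localGaloisToGlobal q τ') =
      f.1 (s⁻¹ * localGaloisToGlobal q (τ * τ'))
    rw [map_mul, mul_assoc]⟩

@[simp]
theorem evW_hom_apply (s : GQ) (f : Representation.coindV K.fixingSubgroup.subtype A.ρ)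
    (τ : Gq q) : ((evW q K A s).hom f).1 τ = f.1 (s⁻¹ * localGaloisToGlobal q τ) := rfl

/-! ### Decomposition of `G_ℚ` into the pieces `G_K s_w⁻¹ D_q` -/

/-- The place attached to `g` for the decomposition `G_ℚ = ⊔_w G_K s_w⁻¹ D_q`. -/
def wOf (g : GQ) : placeIdx q K := placeMk q K g⁻¹

theorem exists_decomp (g : GQ) : ∃ (h : K.fixingSubgroup) (τ : Gq q),
    g = (h : GQ) * (placeRep q K (wOf q K g))⁻¹ * localGaloisToGlobal q τ := by
  obtain ⟨τ₀, h, hh, e⟩ := exists_eq_mul_placeRep_mul q K g⁻¹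
  refine ⟨⟨h⁻¹, inv_mem hh⟩, τ₀⁻¹, ?_⟩
  show g = h⁻¹ * (placeRep q K (placeMk q K g⁻¹))⁻¹ * localGaloisToGlobal q τ₀⁻¹
  rw [map_inv]
  calc g = (g⁻¹)⁻¹ := (inv_inv g).symm
    _ = (localGaloisToGlobal q τ₀ * placeRep q K (placeMk q K g⁻¹) * h)⁻¹ := by rw [← e]
    _ = _ := by group

/-- The `G_K`-part of `g`. -/
def hpart (g : GQ) : K.fixingSubgroup := (exists_decomp q K g).choose

/-- The `G_{ℚ_q}`-part of `g`. -/
def tpart (g : GQ) : Gq q := (exists_decomp q K g).choose_spec.choose

theorem decomp_spec (g : GQ) :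
    g = (hpart q K g : GQ) * (placeRep q K (wOf q K g))⁻¹ * localGaloisToGlobal q (tpart q K g) :=
  (exists_decomp q K g).choose_spec.choose_spec

theorem wOf_mul_mul (w : placeIdx q K) (h : K.fixingSubgroup) (τ : Gq q) :
    wOf q K ((h : GQ) * (placeRep q K w)⁻¹ * localGaloisToGlobal q τ) = w := by
  rw [wOf, ← placeMk_placeRep q K w]
  symm
  rw [placeMk_eq_iff]
  refine ⟨τ⁻¹, ((h⁻¹ : K.fixingSubgroup) : GQ), (h⁻¹).2, ?_⟩
  rw [placeMk_placeRep, map_inv]
  simp only [Subgroup.coe_inv]
  group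

variable {q K A} in
/-- Two decompositions of the same element with the same representative give the same value. -/
theorem smul_eq_of_decomp_eq {s : GQ}
    (F : Representation.coindV (locGroup q K s).subtype (Rep.res (locHom q K s) A).ρ)
    {h h' : K.fixingSubgroup} {τ τ' : Gq q}
    (e : (h : GQ) * s⁻¹ * localGaloisToGlobal q τ = (h' : GQ) * s⁻¹ * localGaloisToGlobal q τ') :
    A.ρ h (F.1 τ) = A.ρ h' (F.1 τ') := by
  -- invert: `r τ⁻¹ * s * h⁻¹ = r τ'⁻¹ * s * h'⁻¹`
  have e' : localGaloisToGlobal q τ⁻¹ * s * ((h⁻¹ : K.fixingSubgroup) : GQ) =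
      localGaloisToGlobal q τ'⁻¹ * s * ((h'⁻¹ : K.fixingSubgroup) : GQ) := by
    have := congrArg (·⁻¹) e
    simp only [mul_inv_rev, inv_inv] at this
    simp only [map_inv, Subgroup.coe_inv]
    rw [← mul_assoc, ← mul_assoc] at this
    exact this
  have hmem := mem_locGroup_of_mul_mul_eq q K s (h⁻¹).2 (h'⁻¹).2 e'
  have hloc := locHom_of_mul_mul_eq q K s (h⁻¹).2 (h'⁻¹).2 e'
  -- `σ = τ' * τ⁻¹`
  have hσ : (τ'⁻¹)⁻¹ * τ⁻¹ = τ' * τ⁻¹ := by rw [inv_inv]
  have key := F.2 ⟨(τ'⁻¹)⁻¹ * τ⁻¹, hmem⟩ τ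
  rw [Subgroup.coe_subtype] at key
  have h1 : ((τ'⁻¹)⁻¹ * τ⁻¹) * τ = τ' := by group
  change F.1 (((τ'⁻¹)⁻¹ * τ⁻¹) * τ) = A.ρ (locHom q K s ⟨(τ'⁻¹)⁻¹ * τ⁻¹, hmem⟩) (F.1 τ) at key
  rw [h1, hloc] at key
  rw [key, ← Module.End.mul_apply, ← map_mul]
  congr 2
  apply Subtype.ext
  simp

/-! ### Gluing -/

/-- A family of local sections, one for every place of `K` above `q`. -/
abbrev LocalFamily : Type :=
  ∀ w : placeIdx q K, Representation.coindV (locGroup q K (placeRep q K w)).subtype
    (Rep.res (locHom q K (placeRep q K w)) A).ρ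

/-- The value of the glued function at `g`. -/
def glueFun (F : LocalFamily q K A) (g : GQ) : A :=
  A.ρ (hpart q K g) ((F (wOf q K g)).1 (tpart q K g))

/-- The value of the glued function can be computed with ANY decomposition
`g = h * s_w⁻¹ * r τ`. -/
theorem glueFun_eq (F : LocalFamily q K A) (w : placeIdx q K) (g : GQ)
    (h : K.fixingSubgroup) (τ : Gq q)
    (e : g = (h : GQ) * (placeRep q K w)⁻¹ * localGaloisToGlobal q τ) :
    glueFun q K A F g = A.ρ h ((F w).1 τ) := by
  have hw : wOf q K g = w := by rw [e, wOf_mul_mul]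
  subst hw
  exact smul_eq_of_decomp_eq (F _) ((decomp_spec q K g).symm.trans e)

/-- Gluing: a family of local sections defines an element of the coinduced module. -/
def glue (F : LocalFamily q K A) : Representation.coindV K.fixingSubgroup.subtype A.ρ :=
  ⟨glueFun q K A F, by
    intro h g
    rw [Subgroup.coe_subtype,
      glueFun_eq q K A F (wOf q K g) ((h : GQ) * g) (h * hpart q K g) (tpart q K g)
        (by
          conv_lhs => rw [decomp_spec q K g]
          simp only [Subgroup.coe_mul, mul_assoc]),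
      map_mul]
    rfl⟩

theorem glue_apply (F : LocalFamily q K A) (g : GQ) :
    (glue q K A F).1 g = A.ρ (hpart q K g) ((F (wOf q K g)).1 (tpart q K g)) := rfl

theorem evWLin_glue (F : LocalFamily q K A) (w : placeIdx q K) :
    evWLin q K A (placeRep q K w) (glue q K A F) = F w := by
  ext τ
  rw [evWLin_apply]
  show glueFun q K A F ((placeRep q K w)⁻¹ * localGaloisToGlobal q τ) = _
  rw [glueFun_eq q K A F w ((placeRep q K w)⁻¹ * localGaloisToGlobal q τ) 1 τ (by simp)]
  simp

theorem eq_zero_of_evWLin_eq_zero (f : Representation.coindV K.fixingSubgroup.subtype A.ρ)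
    (hf : ∀ w : placeIdx q K, evWLin q K A (placeRep q K w) f = 0) : f = 0 := by
  ext g
  have e := decomp_spec q K g
  have h1 := f.2 (hpart q K g)
    ((placeRep q K (wOf q K g))⁻¹ * localGaloisToGlobal q (tpart q K g))
  rw [Subgroup.coe_subtype, ← mul_assoc, ← e] at h1
  rw [h1]
  have h2 : (evWLin q K A (placeRep q K (wOf q K g)) f).1 (tpart q K g) = 0 := by
    rw [hf]; rfl
  rw [evWLin_apply] at h2
  rw [h2]
  simp

/-- The product of the component maps, as a linear map. -/
def mackeyLin :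
    Representation.coindV K.fixingSubgroup.subtype A.ρ →ₗ[k] LocalFamily q K A :=
  LinearMap.pi fun w => evWLin q K A (placeRep q K w)

@[simp]
theorem mackeyLin_apply (f : Representation.coindV K.fixingSubgroup.subtype A.ρ)
    (w : placeIdx q K) : mackeyLin q K A f w = evWLin q K A (placeRep q K w) f := rfl

theorem mackeyLin_injective : Function.Injective (mackeyLin q K A) := by
  rw [injective_iff_map_eq_zero]
  intro f hf
  exact eq_zero_of_evWLin_eq_zero q K A f fun w => congrFun hf w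

theorem mackeyLin_glue (F : LocalFamily q K A) : mackeyLin q K A (glue q K A F) = F :=
  funext fun w => evWLin_glue q K A F w

theorem mackeyLin_surjective : Function.Surjective (mackeyLin q K A) :=
  fun F => ⟨glue q K A F, mackeyLin_glue q K A F⟩

/-- **Mackey decomposition** (linear form). -/
def mackeyLinearEquiv :
    Representation.coindV K.fixingSubgroup.subtype A.ρ ≃ₗ[k] LocalFamily q K A :=
  LinearEquiv.ofBijective (mackeyLin q K A)
    ⟨mackeyLin_injective q K A, mackeyLin_surjective q K A⟩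

@[simp]
theorem mackeyLinearEquiv_apply (f : Representation.coindV K.fixingSubgroup.subtype A.ρ)
    (w : placeIdx q K) (τ : Gq q) :
    (mackeyLinearEquiv q K A f w).1 τ = f.1 ((placeRep q K w)⁻¹ * localGaloisToGlobal q τ) := rfl

theorem mackeyLinearEquiv_symm_apply (F : LocalFamily q K A) :
    (mackeyLinearEquiv q K A).symm F = glue q K A F := by
  apply (mackeyLinearEquiv q K A).injective
  rw [LinearEquiv.apply_symm_apply]
  exact (mackeyLin_glue q K A F).symm

open Fermat.Agent.GC.Global.Mackey in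
/-- **Mackey decomposition** in `Rep k (Gq q)`:
`Res_r (coind_{G_K}^{G_ℚ} A) ≅ ∏_{w ∣ q} coind_{locGroup s_w}^{G_{ℚ_q}} (Res_{locHom s_w} A)`. -/
def mackeyIso :
    resCoind q K A ≅ piRep (fun w : placeIdx q K => locFactor q K A (placeRep q K w)) :=
  Rep.mkIso (Representation.Equiv.mk (mackeyLinearEquiv q K A) fun τ' => by
    ext f w τ
    show f.1 ((placeRep q K w)⁻¹ * localGaloisToGlobal q τ * localGaloisToGlobal q τ') =
      f.1 ((placeRep q K w)⁻¹ * localGaloisToGlobal q (τ * τ'))
    rw [map_mul, mul_assoc])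

open Fermat.Agent.GC.Global.Mackey in
@[simp]
theorem mackeyIso_hom_apply (f : Representation.coindV K.fixingSubgroup.subtype A.ρ)
    (w : placeIdx q K) (τ : Gq q) :
    ((mackeyIso q K A).hom.hom f w).1 τ =
      f.1 ((placeRep q K w)⁻¹ * localGaloisToGlobal q τ) := rfl

open Fermat.Agent.GC.Global.Mackey in
theorem mackeyIso_hom_piProj (w : placeIdx q K) :
    (mackeyIso q K A).hom ≫ piProj _ w = evW q K A (placeRep q K w) := rfl

end Fermat.Agent.GC.Places
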