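/-
GATE-C / PLACES-MACKEY (helper69), part 2: localisation versus Shapiro.

For `K` finite and unramified outside `S`, `A` a discrete `G_K`-module, `s : G_ℚ`:
the localisation at `q` of a class in `Hlc(G_ℚ, coind_{G_K}^{G_ℚ} A)`, projected to the Mackey
factor at the place `ι ∘ s` and pushed through the local Shapiro map, is the localisation at the
place `ι ∘ s` of the class in `Hlc(G_K, A)` corresponding to it under the global Shapiro map
(`HlcRes_evW_HlcShapiro`).  Both sides are `HlcPull`s along homomorphisms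
`locGroup q K s → G_ℚ` which differ by conjugation by `s`, so helper5's `HlcConj_eq_id` applies.
-/
import Mathlib
import Fermat.Agent.GC.Places.Mackey
import Fermat.Agent.GC.Places.Levels
import Fermat.Agent.GC.Prof.Shapiro
import Fermat.Agent.GC.Prof.Conj

set_option autoImplicit false

noncomputable section

open IntermediateField Fermat.Agent.GC.Local.KR Fermat.Agent.GC.Prof CategoryTheory

namespace Fermat.Agent.GC.Places

local notation "Qb" => AlgebraicClosure ℚ
local notation "GQ" => (AlgebraicClosure ℚ ≃ₐ[ℚ] AlgebraicClosure ℚ)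

variable (S : Finset Nat.Primes) (q : ℕ) [Fact q.Prime] (K : IntermediateField ℚ Qb)
variable {k : Type} [CommRing k] (A : Rep k K.fixingSubgroup)

/-! ### Openness and discreteness -/

theorem isOpenSub_fixingSubgroup (hK : K.IsUnramifiedOutside S) :
    IsOpenSub (Fermat.Agent.GC.C0.levelS S) K.fixingSubgroup :=
  ⟨K.fixingSubgroup, ⟨K, hK, rfl⟩, le_rfl⟩

theorem isOpenSub_locGroup [FiniteDimensional ℚ K] (s : GQ) :
    IsOpenSub (levelQ q) (locGroup q K s) :=
  ⟨locGroup q K s, Fermat.Agent.GC.Local.Abs.fixingSubgroup_mem_galLevels _, le_rfl⟩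

theorem isDiscrete_coind_levelS (hK : K.IsUnramifiedOutside S) [IsDiscrete (levelK S K) A] :
    IsDiscrete (Fermat.Agent.GC.C0.levelS S) (Rep.coind K.fixingSubgroup.subtype A) :=
  haveI : IsDiscrete ((Fermat.Agent.GC.C0.levelS S).comap K.fixingSubgroup.subtype) A :=
    ‹IsDiscrete (levelK S K) A›
  isDiscrete_coind (isOpenSub_fixingSubgroup S K hK) A

theorem isDiscrete_resCoind (hK : K.IsUnramifiedOutside S) [IsDiscrete (levelK S K) A] :
    IsDiscrete (levelQ q) (resCoind q K A) :=
  haveI := isDiscrete_coind_levelS S K A hK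
  IsDiscrete.res (isContHom_localGaloisToGlobal S q) _

theorem isDiscrete_locFactor [FiniteDimensional ℚ K] [IsDiscrete (levelK S K) A] (s : GQ) :
    IsDiscrete (levelQ q) (locFactor q K A s) :=
  haveI : IsDiscrete ((levelQ q).comap (locGroup q K s).subtype) (Rep.res (locHom q K s) A) :=
    isDiscrete_res_locHom S q K s A
  isDiscrete_coind (isOpenSub_locGroup q K s) _

/-! ### Localisation versus Shapiro -/

/-- `r ∘ incl = conj_s ∘ (incl_K ∘ locHom s)` as homomorphisms `locGroup q K s → G_ℚ`. -/
theorem localGaloisToGlobal_comp_subtype (s : GQ) :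
    (localGaloisToGlobal q).comp (locGroup q K s).subtype =
      (conjHom s).comp (K.fixingSubgroup.subtype.comp (locHom q K s)) := by
  ext1 τ
  simp only [MonoidHom.comp_apply, Subgroup.coe_subtype, conjHom_apply, coe_locHom]
  group

/-- **Localisation versus Shapiro.** -/
theorem HlcRes_evW_HlcShapiro (s : GQ)
    [IsDiscrete (levelK S K) A]
    [IsDiscrete ((Fermat.Agent.GC.C0.levelS S).comap K.fixingSubgroup.subtype) A]
    [IsDiscrete (Fermat.Agent.GC.C0.levelS S) (Rep.coind K.fixingSubgroup.subtype A)]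
    [IsDiscrete (levelQ q) (Rep.res (localGaloisToGlobal q) (Rep.coind K.fixingSubgroup.subtype A))]
    [IsDiscrete (levelLoc q K s) (Rep.res (locHom q K s) A)]
    [IsDiscrete ((levelQ q).comap (locGroup q K s).subtype) (Rep.res (locHom q K s) A)]
    [IsDiscrete (levelQ q) (Rep.coind (locGroup q K s).subtype (Rep.res (locHom q K s) A))]
    (n : ℕ) :
    HlcRes (isContHom_localGaloisToGlobal S q) (Rep.coind K.fixingSubgroup.subtype A) n ≫
        HlcMap (levelQ q) (evW q K A s) n ≫
          HlcShapiro (levelQ q) (locGroup q K s) (Rep.res (locHom q K s) A) n =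
      HlcShapiro (Fermat.Agent.GC.C0.levelS S) K.fixingSubgroup A n ≫
        HlcPull (isContHom_locHom S q K s) (𝟙 (Rep.res (locHom q K s) A)) n := by
  have hr := isContHom_localGaloisToGlobal S q
  have hsubq : IsContHom ((levelQ q).comap (locGroup q K s).subtype) (levelQ q)
      (locGroup q K s).subtype := isContHom_comap _ _
  have hsubK : IsContHom ((Fermat.Agent.GC.C0.levelS S).comap K.fixingSubgroup.subtype)
      (Fermat.Agent.GC.C0.levelS S) K.fixingSubgroup.subtype := isContHom_comap _ _
  have hloc : IsContHom ((levelQ q).comap (locGroup q K s).subtype)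
      ((Fermat.Agent.GC.C0.levelS S).comap K.fixingSubgroup.subtype) (locHom q K s) :=
    isContHom_locHom S q K s
  rw [← Category.assoc, HlcRes_comp_HlcMap]
  unfold HlcShapiro
  rw [← HlcPull_comp hr hsubq (evW q K A s) (Fermat.Agent.GC.Tate.coindEv _ _) n]
  have e2 := HlcPull_comp hsubK hloc (Fermat.Agent.GC.Tate.coindEv K.fixingSubgroup A)
    (𝟙 (Rep.res (locHom q K s) A)) n
  have e1 := HlcPull_comp (isContHom_conjHom (Fermat.Agent.GC.C0.levelS S) s) (hsubK.comp hloc)
    (conjRepHom s (Rep.coind K.fixingSubgroup.subtype A))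
    ((Rep.resFunctor (locHom q K s)).map (Fermat.Agent.GC.Tate.coindEv K.fixingSubgroup A) ≫
      𝟙 (Rep.res (locHom q K s) A)) n
  have e3 : HlcPull (isContHom_conjHom (Fermat.Agent.GC.C0.levelS S) s)
      (conjRepHom s (Rep.coind K.fixingSubgroup.subtype A)) n = 𝟙 _ :=
    HlcConj_eq_id (Fermat.Agent.GC.C0.levelS S) s (Rep.coind K.fixingSubgroup.subtype A) n
  rw [e3, Category.id_comp] at e1
  refine Eq.trans ?_ (e1.trans e2)
  refine HlcPull_congr _ _ (localGaloisToGlobal_comp_subtype q K s) ?_ n
  ext f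
  show (f.1 ((s⁻¹ : GQ) * localGaloisToGlobal q 1)) = (f.1 (1 * (s⁻¹ : GQ)))
  rw [map_one, mul_one, one_mul]

end Fermat.Agent.GC.Places
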