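/-
GATE-C / C4→C5 (PLACE-COUNT) (helper11, for helper77 `hnum` / helper19 `c1K`):
**the places of `K` above `q` in helper69's double-coset language are the primes of `𝓞 K`
above `q`**, and the count `#S_K`.

`K : IntermediateField ℚ Qbar` a number field (NOT nec. Galois), `q` prime, `ι = padicEmbedding q`.
* `embAt q K s = ι ∘ s|_K : K →+* Ω_q`, `placeAt q K s = placeOf q (embAt q K s)` (my `ValDict`);
* `placeAt_mul` (well defined on `D_q s G_K`), `placeMk_eq_of_placeAt_eq` (injective, from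
  `ValDictInj.exists_algEquiv_of_placeOf_eq`), `exists_placeAt_eq` (onto, from
  `ValDictSurj.exists_placeOf_eq` + `exists_embAt_eq`: every embedding `K → Ω_q` is `ι ∘ s|_K`);
* `placeIdxEquivPrimes q K : placeIdx q K ≃ {v : HeightOneSpectrum (𝓞 K) // (q : 𝓞 K) ∈ v}`;
* `prime_unique_of_mem`, `sigmaEquivPrimesAbove`;
* **`card_primesAbove_eq_sum S K : (primesAbove K S).card = ∑ q : S, Nat.card (placeIdx q K)`**
  (`= LocalNum.numPlaces S K` by `rfl`, see `PlaceCountNum.lean`).
-/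
import Fermat.Agent.GC.Places.Basic
import Fermat.Agent.GC.Global.Adapter.ValDictInj
import Fermat.Agent.GC.Global.Adapter.ValDictSurj
import Fermat.Agent.GC.Global.Adapter.GoodT
import Fermat.Agent.GC.Local.KrasnerDense

set_option autoImplicit false
set_option linter.unusedSectionVars false

open scoped Padic
open IsDedekindDomain NumberField

noncomputable section

namespace Fermat.Agent.GC.Places.PlaceCount

open Fermat.Agent.GC.Places Fermat.Agent.GC.Local.KR Fermat.Agent.GC.Global.Adapter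

local notation "Qb" => AlgebraicClosure ℚ
local notation "GQ" => (AlgebraicClosure ℚ ≃ₐ[ℚ] AlgebraicClosure ℚ)

section OnePrime

variable (q : ℕ) [Fact q.Prime] (K : IntermediateField ℚ Qb) [NumberField K]

/-- the embedding `ι_q ∘ s|_K : K → Ω_q` attached to `s ∈ G_ℚ`. -/
def embAt (s : GQ) : K →+* PadicAlgCl q :=
  ((padicEmbedding q : Qb →+* PadicAlgCl q).comp (s : Qb →+* Qb)).comp (algebraMap K Qb)

@[simp] theorem embAt_apply (s : GQ) (x : K) : embAt q K s x = padicEmbedding q (s (x : Qb)) := rfl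

/-- the place of `K` above `q` cut out by `ι_q ∘ s`. -/
def placeAt (s : GQ) : HeightOneSpectrum (𝓞 K) := placeOf q (embAt q K s)

theorem natCast_mem_placeAt (s : GQ) : ((q : ℕ) : 𝓞 K) ∈ (placeAt q K s).asIdeal :=
  natCast_q_mem_placeIdeal q (embAt q K s)

/-- the place only depends on the double coset `D_q s G_K`. -/
theorem placeAt_mul (s : GQ) (τ₀ : PadicAlgCl q ≃ₐ[ℚ_[q]] PadicAlgCl q) {h : GQ}
    (hh : h ∈ K.fixingSubgroup) :
    placeAt q K (localGaloisToGlobal q τ₀ * s * h) = placeAt q K s := by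
  have h1 : embAt q K (localGaloisToGlobal q τ₀ * s * h)
      = (τ₀ : PadicAlgCl q →+* PadicAlgCl q).comp (embAt q K s) := by
    ext x
    rw [IntermediateField.mem_fixingSubgroup_iff] at hh
    change padicEmbedding q (localGaloisToGlobal q τ₀ (s (h (x : Qb)))) = τ₀ (padicEmbedding q (s (x : Qb)))
    rw [hh _ x.2, padicEmbedding_localGaloisToGlobal]
  rw [placeAt, h1, placeOf_comp, placeAt]

theorem placeAt_eq_of_placeMk_eq {s s' : GQ} (h : placeMk q K s = placeMk q K s') :
    placeAt q K s = placeAt q K s' := by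
  obtain ⟨τ₀, h, hh, rfl⟩ := (placeMk_eq_iff q K s s').1 h
  exact (placeAt_mul q K s τ₀ hh).symm

/-- injectivity: the place determines the double coset. -/
theorem placeMk_eq_of_placeAt_eq {s s' : GQ} (h : placeAt q K s = placeAt q K s') :
    placeMk q K s = placeMk q K s' := by
  obtain ⟨τ, hτ⟩ := exists_algEquiv_of_placeOf_eq q (embAt q K s) (embAt q K s') h
  rw [placeMk_eq_iff]
  refine ⟨τ, (localGaloisToGlobal q τ * s)⁻¹ * s', ?_, by group⟩
  rw [IntermediateField.mem_fixingSubgroup_iff]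
  intro x hx
  have h1 := congrArg (fun f : K →+* PadicAlgCl q => f ⟨x, hx⟩) hτ
  simp only [RingHom.comp_apply, embAt_apply] at h1
  change padicEmbedding q (s' x) = τ (padicEmbedding q (s x)) at h1
  rw [← padicEmbedding_localGaloisToGlobal] at h1
  have h2 : s' x = localGaloisToGlobal q τ (s x) := (padicEmbedding q).toRingHom.injective h1
  change (localGaloisToGlobal q τ * s)⁻¹ (s' x) = x
  rw [h2]
  exact (localGaloisToGlobal q τ * s).symm_apply_apply x

local instance isAlgebraicQbar_pc : Algebra.IsAlgebraic ℚ (AlgebraicClosure ℚ) :=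
  AlgebraicClosure.isAlgebraic ℚ
local instance isAlgClosureQbar_pc : IsAlgClosure ℚ (AlgebraicClosure ℚ) :=
  ⟨inferInstance, inferInstance⟩
local instance normalQbar_pc : Normal ℚ (AlgebraicClosure ℚ) :=
  IsAlgClosure.normal ℚ (AlgebraicClosure ℚ)

/-- every `ℚ`-embedding `K → Qbar` is the restriction of an element of `G_ℚ`. -/
theorem exists_algEquiv_extends (φ : K →ₐ[ℚ] Qb) : ∃ s : GQ, ∀ x : K, s (x : Qb) = φ x := by
  let e : K ≃ₐ[ℚ] φ.fieldRange := AlgEquiv.ofInjectiveField φ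
  refine ⟨e.liftNormal Qb, fun x => ?_⟩
  have h := AlgEquiv.liftNormal_commutes e Qb x
  exact h

/-- every embedding `K → Ω_q` is `ι_q ∘ s|_K` for some `s ∈ G_ℚ`. -/
theorem exists_embAt_eq (σ : K →+* PadicAlgCl q) : ∃ s : GQ, embAt q K s = σ := by
  have hmem : ∀ x : K, σ.toRatAlgHom x ∈ (padicEmbedding q).range := by
    intro x
    have hx : IsIntegral ℚ x := Algebra.IsIntegral.isIntegral x
    obtain ⟨a, ha⟩ := mem_range_padicEmbedding_of_isIntegral q (hx.map σ.toRatAlgHom)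
    exact ⟨a, ha⟩
  let e : Qb ≃ₐ[ℚ] (padicEmbedding q).range := AlgEquiv.ofInjectiveField (padicEmbedding q)
  let φ : K →ₐ[ℚ] Qb := (e.symm : (padicEmbedding q).range →ₐ[ℚ] Qb).comp
    (σ.toRatAlgHom.codRestrict (padicEmbedding q).range hmem)
  have hφ : ∀ x : K, padicEmbedding q (φ x) = σ x := by
    intro x
    have h1 : (e (φ x) : PadicAlgCl q) = σ x := by
      change ((e (e.symm _) : (padicEmbedding q).range) : PadicAlgCl q) = σ x
      rw [AlgEquiv.apply_symm_apply]
      rfl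
    exact h1
  obtain ⟨s, hs⟩ := exists_algEquiv_extends K φ
  refine ⟨s, ?_⟩
  ext x
  rw [embAt_apply, hs, hφ]

/-- surjectivity: every prime of `K` above `q` is `placeAt s`. -/
theorem exists_placeAt_eq (v : HeightOneSpectrum (𝓞 K)) (hv : ((q : ℕ) : 𝓞 K) ∈ v.asIdeal) :
    ∃ s : GQ, placeAt q K s = v := by
  obtain ⟨σ, hσ⟩ := exists_placeOf_eq q v hv
  obtain ⟨s, hs⟩ := exists_embAt_eq q K σ
  exact ⟨s, by rw [placeAt, hs, hσ]⟩

/-- the primes of `K` above `q`. -/
abbrev PrimesOverQ : Type := {v : HeightOneSpectrum (𝓞 K) // ((q : ℕ) : 𝓞 K) ∈ v.asIdeal}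

/-- the map `D_q \ G_ℚ / G_K → {primes of K above q}`. -/
def placeIdxToPrime (w : placeIdx q K) : PrimesOverQ q K :=
  ⟨placeAt q K (placeRep q K w), natCast_mem_placeAt q K _⟩

theorem placeIdxToPrime_placeMk (s : GQ) :
    (placeIdxToPrime q K (placeMk q K s)).1 = placeAt q K s :=
  placeAt_eq_of_placeMk_eq q K (placeMk_placeRep q K (placeMk q K s))

theorem placeIdxToPrime_bijective : Function.Bijective (placeIdxToPrime q K) := by
  constructor
  · intro w w' h
    have h1 : placeAt q K (placeRep q K w) = placeAt q K (placeRep q K w') :=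
      congrArg Subtype.val h
    have h2 := placeMk_eq_of_placeAt_eq q K h1
    rwa [placeMk_placeRep, placeMk_placeRep] at h2
  · rintro ⟨v, hv⟩
    obtain ⟨s, hs⟩ := exists_placeAt_eq q K v hv
    exact ⟨placeMk q K s, Subtype.ext ((placeIdxToPrime_placeMk q K s).trans hs)⟩

/-- **the places of `K` above `q` (double cosets `D_q \ G_ℚ / G_K`) are the primes of `𝓞 K`
above `q`.** -/
def placeIdxEquivPrimes : placeIdx q K ≃ PrimesOverQ q K :=
  Equiv.ofBijective _ (placeIdxToPrime_bijective q K)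

theorem natCard_placeIdx : Nat.card (placeIdx q K) = Nat.card (PrimesOverQ q K) :=
  Nat.card_congr (placeIdxEquivPrimes q K)

end OnePrime

section Count

variable (S : Finset Nat.Primes) (K : IntermediateField ℚ Qb) [NumberField K]

local instance factPrimes_pc (q : Nat.Primes) : Fact (q : ℕ).Prime := ⟨q.2⟩

/-- a prime of `𝓞 K` contains at most one rational prime. -/
theorem prime_unique_of_mem (v : HeightOneSpectrum (𝓞 K)) {q q' : Nat.Primes}
    (hq : (((q : ℕ) : ℕ) : 𝓞 K) ∈ v.asIdeal) (hq' : (((q' : ℕ) : ℕ) : 𝓞 K) ∈ v.asIdeal) :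
    q = q' := by
  by_contra hne
  have hcop : Nat.Coprime (q : ℕ) (q' : ℕ) :=
    (Nat.coprime_primes q.2 q'.2).2 (fun h => hne (Subtype.ext h))
  have h1 : IsCoprime ((q : ℕ) : ℤ) ((q' : ℕ) : ℤ) := Nat.isCoprime_iff_coprime.2 hcop
  obtain ⟨a, b, hab⟩ := h1
  have h2 : ((a : 𝓞 K)) * (((q : ℕ) : ℕ) : 𝓞 K) + (b : 𝓞 K) * (((q' : ℕ) : ℕ) : 𝓞 K) = 1 := by
    have := congrArg (Int.cast : ℤ → 𝓞 K) hab
    push_cast at this
    exact this
  have h3 : (1 : 𝓞 K) ∈ v.asIdeal := by
    rw [← h2]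
    exact Ideal.add_mem _ (Ideal.mul_mem_left _ _ hq) (Ideal.mul_mem_left _ _ hq')
  exact v.isPrime.ne_top ((Ideal.eq_top_iff_one _).2 h3)

/-- the primes of `K` above `S`, fibred over `S`. -/
def sigmaToPrimesAbove (x : Σ q : ↥S, PrimesOverQ ((q : Nat.Primes) : ℕ) K) :
    ↥(primesAbove ↥K S) :=
  ⟨x.2.1, mem_primesAbove.2 ⟨x.1.1, x.1.2, x.2.2⟩⟩

theorem sigmaToPrimesAbove_bijective : Function.Bijective (sigmaToPrimesAbove S K) := by
  constructor
  · rintro ⟨⟨q, hq⟩, ⟨v, hv⟩⟩ ⟨⟨q', hq'⟩, ⟨v', hv'⟩⟩ h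
    have hvv : v = v' := congrArg Subtype.val h
    subst hvv
    have hqq : q = q' := prime_unique_of_mem K v hv hv'
    subst hqq
    rfl
  · rintro ⟨v, hv⟩
    obtain ⟨q, hq, hqv⟩ := mem_primesAbove.1 hv
    exact ⟨⟨⟨q, hq⟩, ⟨v, hqv⟩⟩, rfl⟩

/-- the primes of `K` above `S`, fibred over `S`. -/
def sigmaEquivPrimesAbove :
    (Σ q : ↥S, PrimesOverQ ((q : Nat.Primes) : ℕ) K) ≃ ↥(primesAbove ↥K S) :=
  Equiv.ofBijective _ (sigmaToPrimesAbove_bijective S K)

/-- **(PLACE-COUNT)**: the number of primes of `𝓞 K` above `S` is the number of double cosets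
`D_q \ G_ℚ / G_K`, `q ∈ S` (helper69's `placeIdx`, helper41's `numPlaces S K`). -/
theorem card_primesAbove_eq_sum :
    (primesAbove ↥K S).card = ∑ q : ↥S, Nat.card (placeIdx ((q : Nat.Primes) : ℕ) K) := by
  have h1 : (primesAbove ↥K S).card = Nat.card ↥(primesAbove ↥K S) := by
    rw [Nat.card_eq_fintype_card, Fintype.card_coe]
  have hfin : ∀ q : ↥S, Finite (PrimesOverQ ((q : Nat.Primes) : ℕ) K) := fun q =>
    Finite.of_equiv _ (placeIdxEquivPrimes ((q : Nat.Primes) : ℕ) K)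
  rw [h1, ← Nat.card_congr (sigmaEquivPrimesAbove S K), Nat.card_sigma]
  exact Finset.sum_congr rfl fun q _ => (natCard_placeIdx ((q : Nat.Primes) : ℕ) K).symm

end Count

end Fermat.Agent.GC.Places.PlaceCount
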