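/-
GATE-C / C4→C5 (PLACE-COUNT), consumer form (helper11, for helper77 `hnum`): the number of primes
of `𝓞 K` above `S` is helper41's `LocalNum.numPlaces S K`.
-/
import Fermat.Agent.GC.Places.PlaceCount
import Fermat.Agent.GC.Places.LocalNumPlaces

set_option autoImplicit false

open IsDedekindDomain NumberField

namespace Fermat.Agent.GC.Places.PlaceCount

open Fermat.Agent.GC.Places Fermat.Agent.GC.Global.Adapter

local notation "Qb" => AlgebraicClosure ℚ

/-- **(PLACE-COUNT)** in helper41's `numPlaces` form. -/
theorem card_primesAbove_eq_numPlaces (S : Finset Nat.Primes) (K : IntermediateField ℚ Qb)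
    [NumberField K] : (primesAbove ↥K S).card = LocalNum.numPlaces S K :=
  card_primesAbove_eq_sum S K

end Fermat.Agent.GC.Places.PlaceCount
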