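/-
GATE-C / (D)-INST sub-leaf (helper69): `p`-power roots of unity are unramified outside `p`.

* `apply_eq_of_mem_inertia_of_pow_eq_one` : inertia at `ℓ ≠ p` fixes every `p^n`-th root of unity;
* `isUnramifiedOutside_adjoin_of_pow_eq_one` : `ℚ(ζ)` is unramified outside `S ∋ p` for
  `ζ^(p^n) = 1`;
* `isUnramifiedOutside_sup_adjoin_of_pow_eq_one` : `K(ζ)` is unramified outside `S` when `K` is.
-/
import Mathlib
import Fermat.Agent.GJ.CycChar
import Fermat.Agent.GC.C0.Level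

set_option autoImplicit false

open Fermat.Agent.Common_helper32 Fermat.Agent.GJ.CycChar

namespace Fermat.Agent.GC.Places

local notation "Qb" => AlgebraicClosure ℚ
local notation "GQ" => (AlgebraicClosure ℚ ≃ₐ[ℚ] AlgebraicClosure ℚ)

section General

variable {L : Type*} [Field L]

/-- A `p`-power root of unity congruent to `1` modulo the maximal ideal of a valuation subring of
residue characteristic `ℓ ≠ p` is `1`. -/
theorem eq_one_of_pow_eq_one_of_sub_one_mem_nonunits {A : ValuationSubring L} {p ℓ : ℕ}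
    [Fact p.Prime] (hℓ : ℓ.Prime) (hne : ℓ ≠ p) (hA : A.LiesOverPrime ℓ) {η : L} (n : ℕ)
    (hη : η ^ (p ^ n) = 1) (hηA : η ∈ A) (h : η - 1 ∈ A.nonunits) : η = 1 := by
  have hp : p.Prime := Fact.out
  by_contra hη1
  have hord : orderOf η ∣ p ^ n := orderOf_dvd_of_pow_eq_one hη
  obtain ⟨j, -, hj⟩ := (Nat.dvd_prime_pow hp).1 hord
  have hj0 : j ≠ 0 := by
    rintro rfl
    rw [pow_zero, orderOf_eq_one_iff] at hj
    exact hη1 hj
  obtain ⟨i, rfl⟩ := Nat.exists_eq_succ_of_ne_zero hj0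
  have hprim : IsPrimitiveRoot η (p ^ (i + 1)) := hj ▸ IsPrimitiveRoot.orderOf η
  have hprim' : IsPrimitiveRoot (η ^ (p ^ i)) p := by
    have := hprim.pow_of_dvd (pow_ne_zero i hp.ne_zero) (pow_dvd_pow p (Nat.le_succ i))
    rwa [pow_succ, Nat.mul_div_cancel_left _ (pow_pos hp.pos i)] at this
  have hmem : η ^ (p ^ i) - 1 ∈ A.nonunits := by
    have hdvd : η ^ (p ^ i) - 1 = (η - 1) * ∑ j ∈ Finset.range (p ^ i), η ^ j := by
      rw [mul_comm, geom_sum_mul]
    rw [hdvd]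
    have hsum : (∑ j ∈ Finset.range (p ^ i), η ^ j) ∈ A := sum_mem fun j _ => pow_mem hηA j
    rw [A.mem_nonunits_iff] at h ⊢
    rw [map_mul]
    exact mul_lt_one_of_lt_of_le h ((A.valuation_le_one_iff _).mpr hsum)
  exact false_of_two_primes_mem hp hℓ hne
    (natCast_mem_nonunits_of_sub_one_mem hprim' (pow_mem hηA _) hmem) hA

end General

variable {p : ℕ} [Fact p.Prime]

/-- Inertia at `ℓ ≠ p` fixes the `p`-power roots of unity. -/
theorem apply_eq_of_mem_inertia_of_pow_eq_one {ℓ : ℕ} (hℓ : ℓ.Prime) (hne : ℓ ≠ p)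
    {A : ValuationSubring Qb} (hA : A.LiesOverPrime ℓ) {σ : GQ}
    (hσ : σ ∈ A.inertiaSubgroupIn ℚ) {ζ : Qb} (n : ℕ) (hζ : ζ ^ (p ^ n) = 1) : σ ζ = ζ := by
  have hp : p.Prime := Fact.out
  have hpn : 0 < p ^ n := pow_pos hp.pos n
  have hint : IsIntegral ℤ ζ :=
    ⟨Polynomial.X ^ (p ^ n) - 1, Polynomial.monic_X_pow_sub_C 1 hpn.ne', by simp [hζ]⟩
  have hζA : ζ ∈ A := isIntegral_mem_valuationSubring A ζ hint
  have hσζA : σ ζ ∈ A := isIntegral_mem_valuationSubring A (σ ζ) (hint.map σ.toAlgHom.toRingHom.toIntAlgHom)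
  have h1 : σ ζ - ζ ∈ A.nonunits :=
    Fermat.Agent.S05.apply_sub_mem_nonunits_of_mem_inertiaSubgroupIn hσ hζA
  -- `η = σ ζ * ζ^(p^n - 1)`
  obtain ⟨m, hm⟩ : ∃ m, p ^ n = m + 1 := ⟨p ^ n - 1, by omega⟩
  have hζm : ζ ^ m * ζ = 1 := by rw [← pow_succ, ← hm, hζ]
  have hη : (σ ζ * ζ ^ m) ^ (p ^ n) = 1 := by
    rw [mul_pow, ← map_pow, hζ, map_one, one_mul, ← pow_mul, mul_comm, pow_mul, hζ, one_pow]
  have hηA : σ ζ * ζ ^ m ∈ A := mul_mem hσζA (pow_mem hζA m)
  have hsub : σ ζ * ζ ^ m - 1 ∈ A.nonunits := by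
    have e : σ ζ * ζ ^ m - 1 = (σ ζ - ζ) * ζ ^ m := by
      rw [sub_mul, mul_comm ζ, hζm]
    rw [e, A.mem_nonunits_iff, map_mul]
    rw [A.mem_nonunits_iff] at h1
    exact mul_lt_one_of_lt_of_le h1 ((A.valuation_le_one_iff _).mpr (pow_mem hζA m))
  have hone := eq_one_of_pow_eq_one_of_sub_one_mem_nonunits hℓ hne hA n hη hηA hsub
  calc σ ζ = σ ζ * (ζ ^ m * ζ) := by rw [hζm, mul_one]
    _ = (σ ζ * ζ ^ m) * ζ := by rw [mul_assoc]
    _ = ζ := by rw [hone, one_mul]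

/-- `ℚ(ζ)` is unramified outside `S ∋ p` for a `p`-power root of unity `ζ`. -/
theorem isUnramifiedOutside_adjoin_of_pow_eq_one (S : Finset Nat.Primes)
    (hpS : (⟨p, Fact.out⟩ : Nat.Primes) ∈ S) {ζ : Qb} (n : ℕ) (hζ : ζ ^ (p ^ n) = 1) :
    (IntermediateField.adjoin ℚ {ζ}).IsUnramifiedOutside S := by
  have hp : p.Prime := Fact.out
  have hpn : 0 < p ^ n := pow_pos hp.pos n
  have hint : IsIntegral ℚ ζ :=
    ⟨Polynomial.X ^ (p ^ n) - 1, Polynomial.monic_X_pow_sub_C 1 hpn.ne', by simp [hζ]⟩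
  refine ⟨IntermediateField.adjoin.finiteDimensional hint, fun q hq A hA σ hσ => ?_⟩
  have hne : (q : ℕ) ≠ p := by
    rintro h
    apply hq
    have : q = ⟨p, Fact.out⟩ := Subtype.ext h
    rw [this]
    exact hpS
  have hfix : σ ζ = ζ := apply_eq_of_mem_inertia_of_pow_eq_one q.2 hne hA hσ n hζ
  rw [IntermediateField.mem_fixingSubgroup_iff]
  intro x hx
  have : x ∈ IntermediateField.fixedField (Subgroup.zpowers σ) := by
    have hle : IntermediateField.adjoin ℚ {ζ} ≤ IntermediateField.fixedField (Subgroup.zpowers σ) := by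
      rw [IntermediateField.adjoin_simple_le_iff]
      rintro ⟨_, k, rfl⟩
      show (σ ^ k) ζ = ζ
      have hinv : σ⁻¹ ζ = ζ := by
        rw [AlgEquiv.aut_inv, AlgEquiv.symm_apply_eq, hfix]
      induction k using Int.induction_on with
      | zero => rfl
      | succ k ih => rw [zpow_add_one, AlgEquiv.mul_apply, hfix, ih]
      | pred k ih => rw [zpow_sub_one, AlgEquiv.mul_apply, hinv, ih]
    exact hle hx
  exact this ⟨σ, Subgroup.mem_zpowers σ⟩

/-- `K(ζ)` is unramified outside `S ∋ p` when `K` is, for a `p`-power root of unity `ζ`. -/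
theorem isUnramifiedOutside_sup_adjoin_of_pow_eq_one
    {S : Finset Nat.Primes} {K : IntermediateField ℚ Qb} (hK : K.IsUnramifiedOutside S)
    (hpS : (⟨p, Fact.out⟩ : Nat.Primes) ∈ S) {ζ : Qb} (n : ℕ) (hζ : ζ ^ (p ^ n) = 1) :
    (K ⊔ IntermediateField.adjoin ℚ {ζ}).IsUnramifiedOutside S :=
  hK.sup (isUnramifiedOutside_adjoin_of_pow_eq_one S hpS n hζ)

end Fermat.Agent.GC.Places
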