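/-
GATE-C / (D)-INST sub-leaves (helper69): the COARSE local level system.

`K ⊂ ℚ̄` finite, `s : G_ℚ`, `E = locField q K s` the local field of `K` at the place `ι_q ∘ s`,
`GalLoc q K s = Gal(PadicAlgCl q / E)`.  The coarse level system
`levelGalLocS S q K s = (levelK S K).comap (locHomAlg q K s)` consists of the traces on the local
Galois group of the open subgroups of `G_{K,S}` (Galois group of the maximal extension unramified
outside `S`).  We prove, in the shape of helper26's `CoarseLevel.CoarseHyp`:

* `isContHom_id_levelGalLocS` (`hid`) : the identity is continuous from all open subgroups;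
* `exists_isGalois_le_of_mem_levelGalLocS` (`hgal`) : every member contains the fixing subgroup,
  itself a member, of a finite Galois extension of `E`;
* the comparison with the subgroup form `(levelK S K).comap (locHom q K s)` on `locGroup q K s`.
-/
import Mathlib
import Fermat.Agent.GC.Places.LocIso
import Fermat.Agent.GC.Places.CycUnram

set_option autoImplicit false

noncomputable section

open IntermediateField Fermat.Agent.GC.Local.KR Fermat.Agent.GC.Prof CategoryTheory

namespace Fermat.Agent.GC.Places

local notation "Qb" => AlgebraicClosure ℚ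
local notation "GQ" => (AlgebraicClosure ℚ ≃ₐ[ℚ] AlgebraicClosure ℚ)

/-- Two level systems with the same members are equal. -/
theorem levelSystem_ext {G : Type*} [Group G] {𝒰 𝒱 : LevelSystem G} (h : 𝒰.sets = 𝒱.sets) :
    𝒰 = 𝒱 := by
  cases 𝒰
  cases 𝒱
  simp only at h
  subst h
  rfl

variable (S : Finset Nat.Primes) (q : ℕ) [Fact q.Prime] (K : IntermediateField ℚ Qb) (s : GQ)

/-- The coarse level system on `Gal(Ω_q / K_w)`: traces of the open subgroups of `G_{K,S}`. -/
def levelGalLocS : LevelSystem (GalLoc q K s) := (levelK S K).comap (locHomAlg q K s)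

/-- The coarse level system on the subgroup `locGroup q K s` (helper71's `levelLocS`). -/
def levelLocCoarse : LevelSystem (locGroup q K s) := (levelK S K).comap (locHom q K s)

/-- The subgroup form is the pull-back of the `AlgEquiv` form along `locGroupEquiv`. -/
theorem levelLocCoarse_eq_comap :
    levelLocCoarse S q K s =
      (levelGalLocS S q K s).comap (locGroupEquiv q K s).toMonoidHom := by
  apply levelSystem_ext
  ext U
  constructor
  · rintro ⟨V, hV, rfl⟩
    refine ⟨V.comap (locHomAlg q K s), ⟨V, hV, rfl⟩, ?_⟩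
    ext τ
    simp only [Subgroup.mem_comap, locHomAlg_apply]
    rw [show (locGroupEquiv q K s).symm ((locGroupEquiv q K s).toMonoidHom τ) = τ from
      (locGroupEquiv q K s).symm_apply_apply τ]
  · rintro ⟨_, ⟨V, hV, rfl⟩, rfl⟩
    refine ⟨V, hV, ?_⟩
    ext τ
    simp only [Subgroup.mem_comap, locHomAlg_apply]
    rw [show (locGroupEquiv q K s).symm ((locGroupEquiv q K s).toMonoidHom τ) = τ from
      (locGroupEquiv q K s).symm_apply_apply τ]

theorem isContHom_locGroupEquiv_coarse :
    IsContHom (levelLocCoarse S q K s) (levelGalLocS S q K s)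
      (locGroupEquiv q K s).toMonoidHom := by
  rw [levelLocCoarse_eq_comap]
  exact isContHom_comap _ _

theorem isContHom_locGroupEquiv_symm_coarse :
    IsContHom (levelGalLocS S q K s) (levelLocCoarse S q K s)
      (locGroupEquiv q K s).symm.toMonoidHom := by
  rintro _ ⟨V, hV, rfl⟩
  exact ⟨V.comap (locHomAlg q K s), ⟨V, hV, rfl⟩, fun σ hσ => hσ⟩

variable [FiniteDimensional ℚ K]

/-- (`hid`) Every member of the coarse system is open: the identity is continuous from the level
system of all open subgroups. -/
theorem isContHom_id_levelGalLocS :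
    IsContHom (levelGalLoc q K s) (levelGalLocS S q K s) (MonoidHom.id _) :=
  isContHom_iff_comap.1 (isContHom_locHomAlg S q K s)

omit [FiniteDimensional ℚ K] in
/-- The same for the subgroup form. -/
theorem isContHom_id_levelLocCoarse :
    IsContHom (levelLoc q K s) (levelLocCoarse S q K s) (MonoidHom.id _) :=
  isContHom_iff_comap.1 (isContHom_locHom S q K s)

/-- Members of the coarse system are open for the Krull topology. -/
theorem isOpen_of_mem_levelGalLocS {U : Subgroup (GalLoc q K s)}
    (hU : U ∈ (levelGalLocS S q K s).sets) : IsOpen (U : Set (GalLoc q K s)) := by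
  obtain ⟨_, ⟨E, hE, rfl⟩, hle⟩ := isContHom_id_levelGalLocS S q K s U hU
  have hopen : IsOpen (E.fixingSubgroup : Set (GalLoc q K s)) :=
    (InfiniteGalois.isOpen_iff_finite E).2 hE
  exact Subgroup.isOpen_mono (H₁ := E.fixingSubgroup) (H₂ := U) (fun σ hσ => hle hσ) hopen

/-- A NORMAL member of the coarse system is the fixing subgroup of a finite Galois extension of
the local field. -/
theorem exists_isGalois_of_mem_levelGalLocS_of_normal {U : Subgroup (GalLoc q K s)}
    (hU : U ∈ (levelGalLocS S q K s).sets) [hn : U.Normal] :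
    ∃ N : IntermediateField (locField q K s) (PadicAlgCl q),
      FiniteDimensional (locField q K s) N ∧ IsGalois (locField q K s) N ∧
        N.fixingSubgroup = U := by
  have hopen := isOpen_of_mem_levelGalLocS S q K s hU
  have hclosed : IsClosed (U : Set (GalLoc q K s)) := Subgroup.isClosed_of_isOpen U hopen
  have hfix : (IntermediateField.fixedField U).fixingSubgroup = U :=
    InfiniteGalois.fixingSubgroup_fixedField ⟨U, hclosed⟩
  refine ⟨IntermediateField.fixedField U, ?_, ?_, hfix⟩
  · rw [← InfiniteGalois.isOpen_iff_finite]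
    show IsOpen ((IntermediateField.fixedField U).fixingSubgroup : Set (GalLoc q K s))
    rw [hfix]
    exact hopen
  · rw [← InfiniteGalois.normal_iff_isGalois, hfix]
    exact hn

/-- (`hgal`) Every member of the coarse system contains the fixing subgroup — itself a member —
of a finite Galois extension of the local field. -/
theorem exists_isGalois_le_of_mem_levelGalLocS {U : Subgroup (GalLoc q K s)}
    (hU : U ∈ (levelGalLocS S q K s).sets) :
    ∃ N : IntermediateField (locField q K s) (PadicAlgCl q),
      FiniteDimensional (locField q K s) N ∧ IsGalois (locField q K s) N ∧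
        N.fixingSubgroup ∈ (levelGalLocS S q K s).sets ∧ N.fixingSubgroup ≤ U := by
  obtain ⟨V, hV, hVU, hVn, -⟩ := (levelGalLocS S q K s).normal_below U hU
  obtain ⟨N, hfd, hgal, hN⟩ := exists_isGalois_of_mem_levelGalLocS_of_normal S q K s hV
  exact ⟨N, hfd, hgal, hN ▸ hV, hN ▸ hVU⟩

/-! ### Cyclotomic levels -/

omit [FiniteDimensional ℚ K] in
/-- An element of `Gal(Ω_q/K_w)` whose image in `G_K` fixes `x : ℚ̄` fixes `ι (s x)`. -/
theorem apply_padicEmbedding_of_locHomAlg_apply_eq (σ : GalLoc q K s) {x : Qb}
    (hx : ((locHomAlg q K s σ : K.fixingSubgroup) : GQ) x = x) :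
    σ (padicEmbedding q (s x)) = padicEmbedding q (s x) := by
  have h := padicEmbedding_apply_locHom q K s ((locGroupEquiv q K s).symm σ) x
  rw [← locHomAlg_apply, hx] at h
  exact h.symm

/-- (`hcyc`) The coarse system contains Galois levels with `p`-power roots of unity of arbitrarily
large order, when `p ∈ S` and `K` is unramified outside `S`. -/
theorem exists_isGalois_zeta_mem_levelGalLocS (hK : K.IsUnramifiedOutside S) {p : ℕ}
    [Fact p.Prime] (hpS : (⟨p, Fact.out⟩ : Nat.Primes) ∈ S) (m : ℕ) :
    ∃ m', m ≤ m' ∧ ∃ N : IntermediateField (locField q K s) (PadicAlgCl q),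
      FiniteDimensional (locField q K s) N ∧ IsGalois (locField q K s) N ∧
        N.fixingSubgroup ∈ (levelGalLocS S q K s).sets ∧
        ∃ ζ : PadicAlgCl q, IsPrimitiveRoot ζ (p ^ (m' + 1)) ∧ ζ ∈ N := by
  have hp : p.Prime := Fact.out
  refine ⟨m, le_rfl, ?_⟩
  have hne : NeZero ((p ^ (m + 1) : ℕ) : Qb) :=
    ⟨Nat.cast_ne_zero.mpr (pow_ne_zero _ hp.ne_zero)⟩
  obtain ⟨ζ₀, hζ₀⟩ := HasEnoughRootsOfUnity.exists_primitiveRoot Qb (p ^ (m + 1))
  -- the global level `K(ζ₀)`
  have hF : (K ⊔ IntermediateField.adjoin ℚ {ζ₀}).IsUnramifiedOutside S :=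
    isUnramifiedOutside_sup_adjoin_of_pow_eq_one hK hpS (m + 1) hζ₀.pow_eq_one
  let U : Subgroup (GalLoc q K s) :=
    (((K ⊔ IntermediateField.adjoin ℚ {ζ₀}).fixingSubgroup).comap
      K.fixingSubgroup.subtype).comap (locHomAlg q K s)
  have hU : U ∈ (levelGalLocS S q K s).sets :=
    ⟨_, ⟨_, ⟨_, hF, rfl⟩, rfl⟩, rfl⟩
  obtain ⟨N, hfd, hgal, hN, hNU⟩ := exists_isGalois_le_of_mem_levelGalLocS S q K s hU
  refine ⟨N, hfd, hgal, hN, padicEmbedding q (s ζ₀), ?_, ?_⟩
  · have h1 : IsPrimitiveRoot (s ζ₀) (p ^ (m + 1)) :=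
      hζ₀.map_of_injective (f := (s : Qb →ₐ[ℚ] Qb)) s.injective
    exact h1.map_of_injective (f := padicEmbedding q) (padicEmbedding q).injective
  · have hfix : N = IntermediateField.fixedField N.fixingSubgroup :=
      (InfiniteGalois.fixedField_fixingSubgroup N).symm
    rw [hfix]
    rintro ⟨σ, hσ⟩
    have hσU : σ ∈ U := hNU hσ
    apply apply_padicEmbedding_of_locHomAlg_apply_eq
    have h2 : ((locHomAlg q K s σ : K.fixingSubgroup) : GQ) ∈
        (K ⊔ IntermediateField.adjoin ℚ {ζ₀}).fixingSubgroup := hσU
    rw [IntermediateField.mem_fixingSubgroup_iff] at h2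
    exact h2 ζ₀ ((le_sup_right : IntermediateField.adjoin ℚ {ζ₀} ≤ _)
      (IntermediateField.mem_adjoin_simple_self ℚ ζ₀))

end Fermat.Agent.GC.Places
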