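/-
GATE-C / (D)-INST (helper69): the two hypotheses `CoarseGalHyp` / `CoarseCycHyp` of helper71's
`GC/Global/Limit/IdeleSLocalAlg.lean` are THEOREMS (`GC/Places/CoarseGal.lean`), hence helper71's
(D)-block is unconditional:

* `coarseGalHyp`, `coarseCycHyp` : the hypotheses;
* `ejd_j1'`, `ejd_j3'` : the fields `j1`, `j3` of `EJDHyp (levelK S K) p (ideleSKShortComplex S K)`;
* `hlc_one_JSK_eq_zero'`, `hlc_three_JSK_eq_zero'`, `eq_zero_of_forall_HlcJSLocAlg_two'`
  (Hasse principle for `Hlc²(G_K, J_S)`), `exists_HlcJSLocAlg_two_eq'` (`hLJ`),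
  `HlcMap_EStoJSK_eq_zero_of_loc'` (reduction of `hHasse`).
-/
import Mathlib
import Fermat.Agent.GC.Places.CoarseGal
import Fermat.Agent.GC.Global.Limit.IdeleSHasse

set_option autoImplicit false

noncomputable section

open IntermediateField Fermat.Agent.GC.Local.KR Fermat.Agent.GC.Prof CategoryTheory
open Fermat.Agent.GC.LimJ Fermat.Agent.GC.Local.Abs Fermat.Agent.GC.KumH

namespace Fermat.Agent.GC.Places.CoarseHyps

open Fermat.Agent.GC.Places

local notation "Qb" => AlgebraicClosure ℚ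
local notation "GQ" => (AlgebraicClosure ℚ ≃ₐ[ℚ] AlgebraicClosure ℚ)

section Local

variable (S : Finset Nat.Primes) (q : ℕ) [Fact q.Prime] (K : IntermediateField ℚ Qb) (s : GQ)
  [FiniteDimensional ℚ K]

/-- helper71's `CoarseGalHyp` holds. -/
theorem coarseGalHyp : CoarseGalHyp S q K s := fun _ hU =>
  exists_isGalois_le_of_mem_levelGalLocS S q K s hU

/-- helper71's `CoarseCycHyp` holds for `p ∈ S`, `K` unramified outside `S`. -/
theorem coarseCycHyp (hK : K.IsUnramifiedOutside S) (p : ℕ) [Fact p.Prime]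
    (hpS : (⟨p, Fact.out⟩ : Nat.Primes) ∈ S) : CoarseCycHyp S q K s p := fun m =>
  exists_isGalois_zeta_mem_levelGalLocS S q K s hK hpS m

end Local

section Global

variable (S : Finset Nat.Primes) (K : IntermediateField ℚ Qb) [FiniteDimensional ℚ K]
  (hK : K.IsUnramifiedOutside S)

/-- All places at once. -/
theorem coarseGalHyp_all (q : S) (w : placeIdx ((q : Nat.Primes) : ℕ) K) :
    CoarseGalHyp S ((q : Nat.Primes) : ℕ) K (placeRep ((q : Nat.Primes) : ℕ) K w) :=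
  coarseGalHyp S _ K _

include hK in
theorem coarseCycHyp_all (p : ℕ) [Fact p.Prime] (hpS : (⟨p, Fact.out⟩ : Nat.Primes) ∈ S)
    (q : S) (w : placeIdx ((q : Nat.Primes) : ℕ) K) :
    CoarseCycHyp S ((q : Nat.Primes) : ℕ) K (placeRep ((q : Nat.Primes) : ℕ) K w) p :=
  coarseCycHyp S _ K _ hK p hpS

include hK in
/-- `Hlc¹(G_K, J_S) = 0`, unconditional. -/
theorem hlc_one_JSK_eq_zero' (x : Hlc (levelK S K) (JSK S K) 1) : x = 0 :=
  Fermat.Agent.GC.LimJ.hlc_one_JSK_eq_zero S K hK (coarseGalHyp_all S K) x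

include hK in
/-- `Hlc³(G_K, J_S) = 0`, unconditional. -/
theorem hlc_three_JSK_eq_zero' (x : Hlc (levelK S K) (JSK S K) 3) : x = 0 :=
  Fermat.Agent.GC.LimJ.hlc_three_JSK_eq_zero S K hK (coarseGalHyp_all S K) x

include hK in
/-- Hasse principle for `Hlc²(G_K, J_S)`, unconditional. -/
theorem eq_zero_of_forall_HlcJSLocAlg_two' (x : Hlc (levelK S K) (JSK S K) 2)
    (hx : ∀ (q : S) (w : placeIdx ((q : Nat.Primes) : ℕ) K),
      HlcJSLocAlg S K q (placeRep ((q : Nat.Primes) : ℕ) K w) 2 x = 0) : x = 0 :=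
  eq_zero_of_forall_HlcJSLocAlg_two S K hK (coarseGalHyp_all S K) x hx

include hK in
/-- `hLJ`, unconditional (`p ∈ S`). -/
theorem exists_HlcJSLocAlg_two_eq' (p : ℕ) [Fact p.Prime]
    (hpS : (⟨p, Fact.out⟩ : Nat.Primes) ∈ S) (a : ℕ)
    (b : ∀ (q : S) (w : placeIdx ((q : Nat.Primes) : ℕ) K),
      Hlc (levelGalLoc ((q : Nat.Primes) : ℕ) K (placeRep ((q : Nat.Primes) : ℕ) K w))
        (unitsRep (locField ((q : Nat.Primes) : ℕ) K (placeRep ((q : Nat.Primes) : ℕ) K w))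
          (PadicAlgCl ((q : Nat.Primes) : ℕ))) 2)
    (hb : ∀ q w, p ^ a • b q w = 0) :
    ∃ x : Hlc (levelK S K) (JSK S K) 2, p ^ a • x = 0 ∧
      ∀ (q : S) (w : placeIdx ((q : Nat.Primes) : ℕ) K),
        HlcJSLocAlg S K q (placeRep ((q : Nat.Primes) : ℕ) K w) 2 x = b q w :=
  exists_HlcJSLocAlg_two_eq S K hK (coarseGalHyp_all S K) p (coarseCycHyp_all S K hK p hpS) a b hb

include hK in
/-- The field `j1` of `EJDHyp`, unconditional. -/
theorem ejd_j1' (x : Hlc (levelK S K) (ideleSKShortComplex S K).X₂ 1) :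
    HlcMap (levelK S K) (ideleSKShortComplex S K).g 1 x = 0 :=
  ejd_j1 S K hK (coarseGalHyp_all S K) x

include hK in
/-- The field `j3` of `EJDHyp`, unconditional. -/
theorem ejd_j3' (p : ℕ) (x : Hlc (levelK S K) (ideleSKShortComplex S K).X₂ 3)
    (hx : (p : ℤ) • x = 0) : x = 0 :=
  ejd_j3 S K hK (coarseGalHyp_all S K) p x hx

include hK in
/-- Reduction of `hHasse`, unconditional. -/
theorem HlcMap_EStoJSK_eq_zero_of_loc' (z : Hlc (levelK S K) (sUnitsK S K) 2)
    (hz : ∀ (q : S) (w : placeIdx ((q : Nat.Primes) : ℕ) K),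
      HlcPull (isContHom_locHomAlg S ((q : Nat.Primes) : ℕ) K (placeRep ((q : Nat.Primes) : ℕ) K w))
        (locSUnitsHom S ((q : Nat.Primes) : ℕ) K (placeRep ((q : Nat.Primes) : ℕ) K w)) 2 z = 0) :
    HlcMap (levelK S K) (EStoJSK S K) 2 z = 0 :=
  HlcMap_EStoJSK_eq_zero_of_loc S K hK (coarseGalHyp_all S K) z hz

end Global

end Fermat.Agent.GC.Places.CoarseHyps
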