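/-
GATE-C / (D)-INST second half (helper69): helper26's coarse-level local statements
(`GC/Local/CoarseLevel.lean`: (D)-H1, (D)-H3, (D)-SURJ, stated over the TYPE `Gal(Ω/E)`)
transported to helper71's local data over the SUBGROUP `locGroup q K s ≤ G_{ℚ_q}`
(`GC/Global/Limit/IdeleSCoh.lean`, `IdeleSLocal.lean`: coarse level system `levelLocS S q K s`,
coefficients `locCoeffS S q K s = ((ℚ_S)_q)ˣ`, comparison `HlcLocFull` with the full local data).

* `coarseHyp` : `CoarseHyp (levelGalLocS S q K s) (jGal S q K s)`;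
* `hlc_one_locCoeffS_eq_zero`, `hlc_three_locCoeffS_eq_zero` : `Hlc¹ = Hlc³ = 0` at the coarse level;
* `exists_HlcLocFull_eq_of_pow_nsmul` : the `p`-primary part of `Hlc²(G_w, Ω_qˣ)` comes from the
  coarse level (`p ∈ S`).
-/
import Mathlib
import Fermat.Agent.GC.Places.CoarseGal
import Fermat.Agent.GC.Global.Limit.IdeleSLocal
import Fermat.Agent.GC.Local.CoarseLevel

set_option autoImplicit false

noncomputable section

open IntermediateField Fermat.Agent.GC.Local.KR Fermat.Agent.GC.Prof CategoryTheory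
open Fermat.Agent.GC.LimJ Fermat.Agent.GC.Local.Abs Fermat.Agent.GC.Local.Coarse

namespace Fermat.Agent.GC.Places.CoarseLoc

open Fermat.Agent.GC.Places

local notation "Qb" => AlgebraicClosure ℚ
local notation "GQ" => (AlgebraicClosure ℚ ≃ₐ[ℚ] AlgebraicClosure ℚ)

variable (S : Finset Nat.Primes) (q : ℕ) [Fact q.Prime] (K : IntermediateField ℚ Qb) (s : GQ)

/-- The coarse coefficients `((ℚ_S)_q)ˣ` as a module over `Gal(Ω_q / K_w)`. -/
abbrev coeffGal : Rep ℤ (GalLoc q K s) := toGalLoc q K s (locCoeffS S q K s)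

/-- `locGroupEquiv⁻¹` is continuous for the coarse systems (`levelLocS` spelling). -/
theorem isContHom_symm :
    IsContHom (levelGalLocS S q K s) (levelLocS S q K s)
      (locGroupEquiv q K s).symm.toMonoidHom :=
  isContHom_locGroupEquiv_symm_coarse S q K s

/-- `locGroupEquiv` is continuous for the coarse systems (`levelLocS` spelling). -/
theorem isContHom_fwd :
    IsContHom (levelLocS S q K s) (levelGalLocS S q K s)
      (locGroupEquiv q K s).toMonoidHom :=
  isContHom_locGroupEquiv_coarse S q K s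

instance isDiscrete_coeffGal : IsDiscrete (levelGalLocS S q K s) (coeffGal S q K s) :=
  IsDiscrete.res (isContHom_symm S q K s) (locCoeffS S q K s)

/-- The inclusion `((ℚ_S)_q)ˣ ⟶ Ω_qˣ` over `Gal(Ω_q / K_w)`. -/
def jGal : coeffGal S q K s ⟶ unitsRep (locField q K s) (PadicAlgCl q) :=
  (Rep.resFunctor (locGroupEquiv q K s).symm.toMonoidHom).map (locFullHom S q K s)

lemma jGal_hom_apply (b : coeffGal S q K s) :
    (jGal S q K s).hom b = (locFullHom S q K s).hom b := rfl

variable [FiniteDimensional ℚ K]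

instance isDiscrete_toGalLoc_locFullCoeff :
    IsDiscrete (levelGalLoc q K s) (toGalLoc q K s (locFullCoeff q K s)) :=
  isDiscrete_toGalLoc q K s (locFullCoeff q K s)

/-- helper26's `CoarseHyp` for the coarse local data of `K` at the place `ι_q ∘ s`. -/
theorem coarseHyp (hK : K.IsUnramifiedOutside S) :
    CoarseHyp (levelGalLocS S q K s) (jGal S q K s) := by
  refine ⟨locFullHom_injective S q K s, fun a ha => ?_,
    fun U hU => exists_isGalois_le_of_mem_levelGalLocS S q K s hU⟩
  obtain ⟨_, ⟨V, hV, rfl⟩, h⟩ := ha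
  refine locFullHom_hdisc S q K s hK a ⟨V.comap (locHom q K s), ⟨V, hV, rfl⟩, fun u hu => ?_⟩
  have hmem : locGroupEquiv q K s u ∈ V.comap (locHomAlg q K s) := by
    rw [Subgroup.mem_comap, locHomAlg_apply, MulEquiv.symm_apply_apply]
    exact hu
  have h1 : (locFullCoeff q K s).ρ u a =
      (toGalLoc q K s (locFullCoeff q K s)).ρ (locGroupEquiv q K s u) a := by
    show _ = (locFullCoeff q K s).ρ ((locGroupEquiv q K s).symm (locGroupEquiv q K s u)) a
    rw [MulEquiv.symm_apply_apply]
  rw [h1]
  exact h _ hmem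

/-- Coarse subgroup form ≅ coarse `AlgEquiv` form. -/
def HlcCoarseIso (n : ℕ) :
    Hlc (levelLocS S q K s) (locCoeffS S q K s) n ≅
      Hlc (levelGalLocS S q K s) (coeffGal S q K s) n :=
  HlcMulEquivIso (locGroupEquiv q K s).symm (locCoeffS S q K s)
    (isContHom_symm S q K s) (isContHom_fwd S q K s) n

/-- **(D)-H1** in helper71's language: `Hlc¹` of the coarse local data vanishes. -/
theorem hlc_one_locCoeffS_eq_zero (hK : K.IsUnramifiedOutside S)
    (x : Hlc (levelLocS S q K s) (locCoeffS S q K s) 1) : x = 0 := by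
  have h := hlc_one_coarse_eq_zero (coarseHyp S q K s hK) ((HlcCoarseIso S q K s 1).hom x)
  have h2 := congrArg (HlcCoarseIso S q K s 1).inv h
  rwa [← ConcreteCategory.comp_apply, Iso.hom_inv_id, map_zero] at h2

/-- **(D)-H3** in helper71's language: `Hlc³` of the coarse local data vanishes. -/
theorem hlc_three_locCoeffS_eq_zero (hK : K.IsUnramifiedOutside S)
    (x : Hlc (levelLocS S q K s) (locCoeffS S q K s) 3) : x = 0 := by
  have h := hlc_three_coarse_eq_zero q (coarseHyp S q K s hK) ((HlcCoarseIso S q K s 3).hom x)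
  have h2 := congrArg (HlcCoarseIso S q K s 3).inv h
  rwa [← ConcreteCategory.comp_apply, Iso.hom_inv_id, map_zero] at h2

/-- The comparison square: subgroup form versus `AlgEquiv` form of `HlcLocFull`. -/
theorem HlcLocFull_comp_HlcGalLocIso (n : ℕ) :
    HlcLocFull S q K s n ≫ (HlcGalLocIso q K s (locFullCoeff q K s) n).hom =
      (HlcCoarseIso S q K s n).hom ≫
        HlcPull (isContHom_id_levelGalLocS S q K s) (A := coeffGal S q K s)
          (B := unitsRep (locField q K s) (PadicAlgCl q)) (jGal S q K s) n := by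
  show HlcPull (isContHom_id_levelLoc_levelLocS S q K s) (A := locCoeffS S q K s)
        (B := locFullCoeff q K s) (locFullHom S q K s) n ≫
      HlcPull (isContHom_locGroupEquiv_symm q K s) (A := locFullCoeff q K s)
        (𝟙 (Rep.res (locGroupEquiv q K s).symm.toMonoidHom (locFullCoeff q K s))) n =
    HlcPull (isContHom_symm S q K s) (A := locCoeffS S q K s)
        (𝟙 (Rep.res (locGroupEquiv q K s).symm.toMonoidHom (locCoeffS S q K s))) n ≫
      HlcPull (isContHom_id_levelGalLocS S q K s) (A := coeffGal S q K s)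
        (B := unitsRep (locField q K s) (PadicAlgCl q)) (jGal S q K s) n
  rw [← HlcPull_comp, ← HlcPull_comp]
  refine HlcPull_congr _ _ ?_ ?_ n
  · rfl
  · rfl

/-- **(D)-SURJ** in helper71's language: the `p`-primary part of `Hlc²(G_w, Ω_qˣ)` comes from the
coarse level (`p ∈ S`, `K` unramified outside `S`). -/
theorem exists_HlcLocFull_eq_of_pow_nsmul (hK : K.IsUnramifiedOutside S) (p : ℕ) [Fact p.Prime]
    (hpS : (⟨p, Fact.out⟩ : Nat.Primes) ∈ S) (a : ℕ)
    (y : Hlc (levelLoc q K s) (locFullCoeff q K s) 2) (hy : p ^ a • y = 0) :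
    ∃ x : Hlc (levelLocS S q K s) (locCoeffS S q K s) 2,
      HlcLocFull S q K s 2 x = y ∧ p ^ a • x = 0 := by
  have hy' : p ^ a • (HlcGalLocIso q K s (locFullCoeff q K s) 2).hom y = 0 := by
    rw [← map_nsmul, hy, map_zero]
  obtain ⟨x', hx', hx'0⟩ := exists_HlcPull_eq_of_pow_nsmul q (coarseHyp S q K s hK)
    (isContHom_id_levelGalLocS S q K s) p
    (fun m => exists_isGalois_zeta_mem_levelGalLocS S q K s hK hpS m) a
    ((HlcGalLocIso q K s (locFullCoeff q K s) 2).hom y) hy'
  refine ⟨(HlcCoarseIso S q K s 2).inv x', ?_, ?_⟩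
  · have hsq := congr($(HlcLocFull_comp_HlcGalLocIso S q K s 2) ((HlcCoarseIso S q K s 2).inv x'))
    simp only [ModuleCat.hom_comp, LinearMap.comp_apply] at hsq
    have hid : (HlcCoarseIso S q K s 2).hom ((HlcCoarseIso S q K s 2).inv x') = x' := by
      rw [← ConcreteCategory.comp_apply, Iso.inv_hom_id]
      rfl
    rw [hid, hx'] at hsq
    have hinj : Function.Injective (HlcGalLocIso q K s (locFullCoeff q K s) 2).hom := by
      intro u v huv
      have := congrArg (HlcGalLocIso q K s (locFullCoeff q K s) 2).inv huv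
      rwa [← ConcreteCategory.comp_apply, ← ConcreteCategory.comp_apply, Iso.hom_inv_id] at this
    exact hinj hsq
  · rw [← map_nsmul, hx'0, map_zero]

end Fermat.Agent.GC.Places.CoarseLoc
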