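/-
GATE-C / (D)-INST, conclusions for `J_S` (helper69): with helper71's product decomposition
`HlcJS : Hlc(G_K, J_S) ≃ ∏_{q ∈ S} ∏_{w ∣ q} Hlc(coarse local data at w)` and the coarse local
statements of `CoarseLoc.lean`:

* `hlc_one_JSK_eq_zero`, `hlc_three_JSK_eq_zero` : `Hlc¹(G_K, J_S) = 0 = Hlc³(G_K, J_S)`
  (the fields `j1`, `j3` of helper77's `EJDHyp` at `X = Res_{G_K}(E_S → J_S → D_S)`);
* `exists_JSK_two_of_pow_nsmul` : every family of `p^a`-torsion classes of `Hlc²(G_w, Ω_qˣ)`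
  (all places `w` of `K` above `S`) is the family of localisations of a `p^a`-torsion class of
  `Hlc²(G_K, J_S)` (the hypothesis `hLJ` of helper77's `card_pi_le`).
-/
import Mathlib
import Fermat.Agent.GC.Places.CoarseLoc

set_option autoImplicit false

noncomputable section

open IntermediateField Fermat.Agent.GC.Local.KR Fermat.Agent.GC.Prof CategoryTheory
open Fermat.Agent.GC.LimJ Fermat.Agent.GC.Local.Abs

namespace Fermat.Agent.GC.Places.CoarseLoc

open Fermat.Agent.GC.Places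

local notation "Qb" => AlgebraicClosure ℚ
local notation "GQ" => (AlgebraicClosure ℚ ≃ₐ[ℚ] AlgebraicClosure ℚ)

variable (S : Finset Nat.Primes) (K : IntermediateField ℚ Qb) [FiniteDimensional ℚ K]
  (hK : K.IsUnramifiedOutside S)

include hK in
/-- **`j1`**: `Hlc¹(G_K, J_S) = 0`. -/
theorem hlc_one_JSK_eq_zero (x : Hlc (levelK S K) (JSK S K) 1) : x = 0 :=
  (eq_zero_iff_forall_HlcJSLoc S K hK 1 x).2 fun q _ =>
    hlc_one_locCoeffS_eq_zero S ((q : Nat.Primes) : ℕ) K _ hK _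

include hK in
/-- **`j3`**: `Hlc³(G_K, J_S) = 0`. -/
theorem hlc_three_JSK_eq_zero (x : Hlc (levelK S K) (JSK S K) 3) : x = 0 :=
  (eq_zero_iff_forall_HlcJSLoc S K hK 3 x).2 fun q _ =>
    hlc_three_locCoeffS_eq_zero S ((q : Nat.Primes) : ℕ) K _ hK _

include hK in
/-- **`hLJ`**: the `p`-primary part of `∏_w Hlc²(G_w, Ω_qˣ)` comes from the `p`-primary part of
`Hlc²(G_K, J_S)` (`p ∈ S`). -/
theorem exists_JSK_two_of_pow_nsmul (p : ℕ) [Fact p.Prime]
    (hpS : (⟨p, Fact.out⟩ : Nat.Primes) ∈ S) (a : ℕ)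
    (b : ∀ q : S, ∀ w : placeIdx ((q : Nat.Primes) : ℕ) K,
      Hlc (levelLoc ((q : Nat.Primes) : ℕ) K (placeRep ((q : Nat.Primes) : ℕ) K w))
        (locFullCoeff ((q : Nat.Primes) : ℕ) K (placeRep ((q : Nat.Primes) : ℕ) K w)) 2)
    (hb : ∀ q w, p ^ a • b q w = 0) :
    ∃ x : Hlc (levelK S K) (JSK S K) 2, p ^ a • x = 0 ∧
      ∀ (q : S) (w : placeIdx ((q : Nat.Primes) : ℕ) K),
        HlcPull (isContHom_locHom S ((q : Nat.Primes) : ℕ) K (placeRep ((q : Nat.Primes) : ℕ) K w))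
          (JSlocFull S K q (placeRep ((q : Nat.Primes) : ℕ) K w)) 2 x = b q w := by
  have hex : ∀ (q : S) (w : placeIdx ((q : Nat.Primes) : ℕ) K),
      ∃ y : Hlc (levelLocS S ((q : Nat.Primes) : ℕ) K (placeRep ((q : Nat.Primes) : ℕ) K w))
        (locCoeffS S ((q : Nat.Primes) : ℕ) K (placeRep ((q : Nat.Primes) : ℕ) K w)) 2,
        HlcLocFull S ((q : Nat.Primes) : ℕ) K (placeRep ((q : Nat.Primes) : ℕ) K w) 2 y = b q w ∧
          p ^ a • y = 0 := fun q w =>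
    exists_HlcLocFull_eq_of_pow_nsmul S ((q : Nat.Primes) : ℕ) K _ hK p hpS a (b q w) (hb q w)
  choose y hy hy0 using hex
  obtain ⟨x, hx, -⟩ := existsUnique_HlcJSLoc S K hK 2 y
  refine ⟨x, ?_, fun q w => ?_⟩
  · rw [eq_zero_iff_forall_HlcJSLoc S K hK 2]
    intro q w
    rw [map_nsmul, hx, hy0]
  · rw [← HlcJSLoc_comp_HlcLocFull]
    show HlcLocFull S ((q : Nat.Primes) : ℕ) K (placeRep ((q : Nat.Primes) : ℕ) K w) 2
      (HlcJSLoc S K q (placeRep ((q : Nat.Primes) : ℕ) K w) 2 x) = b q w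
    rw [hx, hy]

end Fermat.Agent.GC.Places.CoarseLoc
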